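import Mathlib
import Fermat.Agent.Lib.FrobeniusExists

/-!
helper51 (P-ELL / S52, package A3 `Family`, generic part).  Galois descent for polynomial
functions of two variables over `ℚ̄`.

* `exists_rat_of_eval_fixed`: a polynomial `P ∈ ℚ̄[s, t]` all of whose values at rational points
  are fixed by `Gal(ℚ̄/ℚ)` has rational coefficients.
* `exists_int_of_rat`: clearing denominators.
* `exists_int_of_eval_fixed`: the combination: `∃ D ≠ 0, Q ∈ ℤ[s, t]` with
  `D * P(s, t) = Q(s, t)` for all `s t : ℚ̄`.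
* `eval_int_congr`: integer polynomials respect congruences.
* `spec1`: the specialisation `t = 1` as a univariate integer polynomial.
-/

set_option autoImplicit false

open MvPolynomial

namespace Fermat.Agent.S52.FamilyDescent

/-- `ℚ̄`. -/
abbrev Qbar := AlgebraicClosure ℚ

/-- An element of `ℚ̄` fixed by the whole Galois group is rational. -/
theorem exists_rat_of_fixed (x : Qbar) (h : ∀ σ : Qbar ≃ₐ[ℚ] Qbar, σ x = x) :
    ∃ r : ℚ, algebraMap ℚ Qbar r = x := by
  have hQG : IsGalois ℚ Qbar := Fermat.Agent.Lib.isGalois_algebraicClosure_rat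
  exact (InfiniteGalois.mem_range_algebraMap_iff_fixed x).mpr h

/-- A polynomial over `ℚ̄` in finitely or infinitely many variables whose values at all rational
points are Galois-fixed has rational coefficients. -/
theorem exists_rat_of_eval_fixed {ι : Type*} (P : MvPolynomial ι Qbar)
    (h : ∀ (σ : Qbar ≃ₐ[ℚ] Qbar) (x : ι → ℚ),
      σ (eval (fun i => algebraMap ℚ Qbar (x i)) P) = eval (fun i => algebraMap ℚ Qbar (x i)) P) :
    ∃ P' : MvPolynomial ι ℚ, map (algebraMap ℚ Qbar) P' = P := by
  have hfix : ∀ σ : Qbar ≃ₐ[ℚ] Qbar, map (σ : Qbar →+* Qbar) P = P := by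
    intro σ
    apply funext_set (fun _ => Set.range (algebraMap ℚ Qbar))
      (fun _ => Set.infinite_range_of_injective (algebraMap ℚ Qbar).injective)
    intro x hx
    choose y hy using fun i => hx i (Set.mem_univ i)
    have hx' : x = fun i => algebraMap ℚ Qbar (y i) := funext fun i => (hy i).symm
    have hσx : ((σ : Qbar →+* Qbar) ∘ fun i => algebraMap ℚ Qbar (y i)) =
        fun i => algebraMap ℚ Qbar (y i) := by
      funext i
      exact σ.commutes (y i)
    rw [hx']
    have h1 := map_eval (σ : Qbar →+* Qbar) (fun i => algebraMap ℚ Qbar (y i)) P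
    rw [hσx] at h1
    rw [← h1]
    exact h σ y
  rw [← Set.mem_range, mem_range_map_iff_coeffs_subset]
  intro c hc
  rw [Finset.mem_coe, mem_coeffs_iff] at hc
  obtain ⟨m, -, rfl⟩ := hc
  obtain ⟨r, hr⟩ := exists_rat_of_fixed (coeff m P) (fun σ => by
    have := congrArg (coeff m) (hfix σ)
    rwa [coeff_map] at this)
  exact ⟨r, hr⟩

/-- Clearing denominators of a rational polynomial. -/
theorem exists_int_of_rat {ι : Type*} (P' : MvPolynomial ι ℚ) :
    ∃ (D : ℤ) (Q : MvPolynomial ι ℤ), D ≠ 0 ∧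
      map (Int.castRingHom ℚ) Q = C (D : ℚ) * P' := by
  classical
  obtain ⟨b, hb⟩ := IsLocalization.exist_integer_multiples_of_finset (nonZeroDivisors ℤ)
    (P'.coeffs)
  have hmem : C ((b : ℤ) : ℚ) * P' ∈ Set.range (map (Int.castRingHom ℚ)) := by
    rw [mem_range_map_iff_coeffs_subset]
    intro c hc
    rw [Finset.mem_coe, mem_coeffs_iff] at hc
    obtain ⟨m, hm, rfl⟩ := hc
    rw [coeff_C_mul]
    have hm' : coeff m P' ∈ P'.coeffs := by
      rw [mem_coeffs_iff]
      refine ⟨m, ?_, rfl⟩
      rw [mem_support_iff] at hm ⊢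
      intro h0
      apply hm
      rw [coeff_C_mul, h0, mul_zero]
    obtain ⟨n, hn⟩ := hb _ hm'
    refine ⟨n, ?_⟩
    rw [eq_intCast] at hn ⊢
    rw [hn, Algebra.smul_def, eq_intCast]
  obtain ⟨Q, hQ⟩ := hmem
  exact ⟨(b : ℤ), Q, nonZeroDivisors.coe_ne_zero b, hQ⟩

/-- Evaluation of an integer polynomial at a point of `ℚ̄`. -/
noncomputable abbrev evalQbar {ι : Type*} (x : ι → Qbar) (Q : MvPolynomial ι ℤ) : Qbar :=
  eval x (map (Int.castRingHom Qbar) Q)

/-- **Descent.** A polynomial over `ℚ̄` whose values at rational points are Galois-fixed is, up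
to a nonzero integer factor, an integer polynomial. -/
theorem exists_int_of_eval_fixed {ι : Type*} (P : MvPolynomial ι Qbar)
    (h : ∀ (σ : Qbar ≃ₐ[ℚ] Qbar) (x : ι → ℚ),
      σ (eval (fun i => algebraMap ℚ Qbar (x i)) P) = eval (fun i => algebraMap ℚ Qbar (x i)) P) :
    ∃ (D : ℤ) (Q : MvPolynomial ι ℤ), D ≠ 0 ∧
      ∀ x : ι → Qbar, (D : Qbar) * eval x P = evalQbar x Q := by
  obtain ⟨P', hP'⟩ := exists_rat_of_eval_fixed P h
  obtain ⟨D, Q, hD, hQ⟩ := exists_int_of_rat P'
  refine ⟨D, Q, hD, fun x => ?_⟩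
  have h1 : map (Int.castRingHom Qbar) Q = map (algebraMap ℚ Qbar) (map (Int.castRingHom ℚ) Q) := by
    rw [map_map]
    congr 1
  rw [evalQbar, h1, hQ, map_mul, map_C, hP', map_mul, eval_C]
  simp

/-- Integer polynomials respect congruences. -/
theorem eval_int_congr {ι : Type*} (Q : MvPolynomial ι ℤ) (m : ℤ) {x y : ι → ℤ}
    (hxy : ∀ i, x i ≡ y i [ZMOD m]) : eval x Q ≡ eval y Q [ZMOD m] := by
  induction Q using MvPolynomial.induction_on with
  | C a => simp [Int.ModEq]
  | add p q hp hq =>
    rw [map_add, map_add]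
    exact hp.add hq
  | mul_X p i hp =>
    rw [map_mul, map_mul, eval_X, eval_X]
    exact hp.mul (hxy i)

/-- Compatibility of the evaluation at integer points with the evaluation in `ℚ̄`. -/
theorem evalQbar_intCast {ι : Type*} (Q : MvPolynomial ι ℤ) (x : ι → ℤ) :
    evalQbar (fun i => ((x i : ℤ) : Qbar)) Q = ((eval x Q : ℤ) : Qbar) := by
  have h := map_eval (Int.castRingHom Qbar) x Q
  rw [evalQbar]
  exact h.symm

/-- The specialisation `t = 1` of a two-variable integer polynomial. -/
noncomputable def spec1 (Q : MvPolynomial (Fin 2) ℤ) : Polynomial ℤ :=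
  aeval (![Polynomial.X, 1] : Fin 2 → Polynomial ℤ) Q

theorem eval_spec1 (Q : MvPolynomial (Fin 2) ℤ) (s : ℤ) :
    (spec1 Q).eval s = eval ![s, 1] Q := by
  unfold spec1
  induction Q using MvPolynomial.induction_on with
  | C a => simp
  | add p q hp hq => rw [map_add, map_add, Polynomial.eval_add, hp, hq]
  | mul_X p i hp =>
    rw [map_mul, map_mul, Polynomial.eval_mul, hp, aeval_X, eval_X]
    fin_cases i <;> simp

theorem eval_map_spec1 (Q : MvPolynomial (Fin 2) ℤ) (s : Qbar) :
    ((spec1 Q).map (Int.castRingHom Qbar)).eval s = evalQbar ![s, 1] Q := by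
  unfold spec1 evalQbar
  induction Q using MvPolynomial.induction_on with
  | C a => simp
  | add p q hp hq =>
    rw [map_add, map_add, Polynomial.map_add, Polynomial.eval_add, hp, hq, map_add]
  | mul_X p i hp =>
    rw [map_mul, map_mul, Polynomial.map_mul, Polynomial.eval_mul, hp, aeval_X, map_X, map_mul,
      eval_X]
    fin_cases i <;> simp

end Fermat.Agent.S52.FamilyDescent
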