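import Mathlib
import Fermat.Prelude.Def_FLTPrelim_ModularRep
import Fermat.Prelude.Def_FLTPrelim_Modularity
import Fermat.Agent.S52.Klein.Forms

/-!
# S52, package D (assembly): the interface Props

`W` an integral Weierstrass model, `(z0, w0) ∈ ℚ̄²` a Klein parameter of its short model
(`HF z0 w0 = -c₄`, `TF z0 w0 = -c₆`), `(z1, w1) = (wf1, wf2)(z0, w0)` the gradient covariant,
`v(s,t) = s (z0, w0) + t (z1, w1)` for integers `s, t`.  A model `W'` *belongs to* `(s, t)` when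
`c₄(W') = -HF(v(s,t))` and `c₆(W') = -TF(v(s,t))`.

The four Props below are the outputs of the blocks A (family), C1 (semistability away from
`30 Δ`), C2 (auxiliary prime); `Assembly.lean` derives the statement of S52 from them.
-/

set_option autoImplicit false

namespace Fermat.Agent.S52.AssemblySpec

open WeierstrassCurve Fermat.Agent.S52.Klein

local notation "Qbar" => AlgebraicClosure ℚ

/-- first coordinate of `v(s,t) = s v0 + t v1`. -/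
noncomputable def vz (z0 w0 : Qbar) (s t : ℤ) : Qbar := (s : Qbar) * z0 + (t : Qbar) * wf1 z0 w0

/-- second coordinate of `v(s,t) = s v0 + t v1`. -/
noncomputable def vw (z0 w0 : Qbar) (s t : ℤ) : Qbar := (s : Qbar) * w0 + (t : Qbar) * wf2 z0 w0

/-- `(z0, w0)` is a Klein parameter of the short model of `W`. -/
def IsKleinParam (W : WeierstrassCurve ℤ) (z0 w0 : Qbar) : Prop :=
  HF z0 w0 = -((W.c₄ : ℤ) : Qbar) ∧ TF z0 w0 = -((W.c₆ : ℤ) : Qbar)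

/-- The model `W'` belongs to the member `(s, t)` of the family. -/
def Belongs (z0 w0 : Qbar) (s t : ℤ) (W' : WeierstrassCurve ℤ) : Prop :=
  ((W'.c₄ : ℤ) : Qbar) = -HF (vz z0 w0 s t) (vw z0 w0 s t) ∧
    ((W'.c₆ : ℤ) : Qbar) = -TF (vz z0 w0 s t) (vw z0 w0 s t)

/-- **A3, rationality.** `HF(v(s,t))` and `TF(v(s,t))` are binary forms in `(s, t)` of degrees
`20`, `30` with rational coefficients. -/
def FamilyRational (z0 w0 : Qbar) : Prop :=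
  ∃ h4 h6 : ℕ → ℚ, ∀ s t : ℤ,
    HF (vz z0 w0 s t) (vw z0 w0 s t) =
        ((∑ i ∈ Finset.range 21, h4 i * (s : ℚ) ^ (20 - i) * (t : ℚ) ^ i : ℚ) : Qbar) ∧
      TF (vz z0 w0 s t) (vw z0 w0 s t) =
        ((∑ i ∈ Finset.range 31, h6 i * (s : ℚ) ^ (30 - i) * (t : ℚ) ^ i : ℚ) : Qbar)

/-- **A3, integrality (what the assembly really uses; implied by `FamilyRational`).** For
`s ≡ 1 mod M` and `t ≡ 0 mod D M` the values `HF(v(s,t))`, `TF(v(s,t))` are integers congruent to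
`-c₄`, `-c₆` modulo `M`. -/
def FamilyIntegral (W : WeierstrassCurve ℤ) (z0 w0 : Qbar) : Prop :=
  ∃ D : ℕ, 0 < D ∧ ∀ M s t : ℤ, s ≡ 1 [ZMOD M] → ((D : ℤ) * M) ∣ t →
    ∃ c4n c6n : ℤ, HF (vz z0 w0 s t) (vw z0 w0 s t) = ((c4n : ℤ) : Qbar) ∧
      TF (vz z0 w0 s t) (vw z0 w0 s t) = ((c6n : ℤ) : Qbar) ∧
      c4n ≡ -W.c₄ [ZMOD M] ∧ c6n ≡ -W.c₆ [ZMOD M]

/-- **K2 + A2 + A3 + block (B).** Every nonsingular integral member of the family has the same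
`a_ℓ` modulo `5` as `W`. -/
def FamilyCongr (W : WeierstrassCurve ℤ) (z0 w0 : Qbar) : Prop :=
  ∀ (s t : ℤ) (W' : WeierstrassCurve ℤ), Belongs z0 w0 s t W' → W'.Δ ≠ 0 →
    ∀ ℓ : ℕ, ℓ.Prime → W.IsGoodPrimeFor ℓ → W'.IsGoodPrimeFor ℓ → ℓ ≠ 5 →
      (5 : ℤ) ∣ (W'.apOfModel ℓ - W.apOfModel ℓ)

/-- **C1.** Away from `30 Δ_W`, the members with coprime `(s, t)` are semistable. -/
def FamilySemistable (W : WeierstrassCurve ℤ) (z0 w0 : Qbar) : Prop :=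
  ∀ (s t : ℤ), IsCoprime s t → ∀ W' : WeierstrassCurve ℤ, Belongs z0 w0 s t W' →
    ∀ p : ℕ, p.Prime → ¬ (p : ℤ) ∣ 30 * W.Δ → (p : ℤ) ∣ W'.Δ → ¬ (p : ℤ) ∣ W'.c₄

/-- **C2.** Outside any finite set of primes there is an auxiliary prime `q ≡ 1 mod 24` and a
residue class `s ≡ s1, t ≡ 1 mod q²` on which the members have non-split multiplicative
reduction at `q` with `v_q(Δ') = 5` (the hypotheses of `Irr3`). -/
def FamilyAux (z0 w0 : Qbar) : Prop :=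
  ∀ bad : Finset ℕ, ∃ q : ℕ, q.Prime ∧ q ∉ bad ∧ q % 24 = 1 ∧ ∃ s1 : ℤ,
    ∀ s t : ℤ, s ≡ s1 [ZMOD (q : ℤ) ^ 2] → t ≡ 1 [ZMOD (q : ℤ) ^ 2] →
      ∀ W' : WeierstrassCurve ℤ, Belongs z0 w0 s t W' →
        ¬ IsSquare (((-W'.c₆ : ℤ)) : ZMod q) ∧ padicValInt q W'.Δ = 5

/-- The statement of S52 for `W`. -/
def Goal (W : WeierstrassCurve ℤ) : Prop :=
  ∃ W' : WeierstrassCurve ℤ, W'.Δ ≠ 0 ∧ W'.IsSemistableModel ∧ W'.ModRepIsIrreducible 3 ∧
    ∀ ℓ : ℕ, ℓ.Prime → W.IsGoodPrimeFor ℓ → W'.IsGoodPrimeFor ℓ → ℓ ≠ 5 →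
      (5 : ℤ) ∣ (W'.apOfModel ℓ - W.apOfModel ℓ)

/-- **D.** The assembly. -/
def Assembly : Prop :=
  ∀ (W : WeierstrassCurve ℤ), W.Δ ≠ 0 → W.IsSemistableModel → ∀ z0 w0 : Qbar,
    IsKleinParam W z0 w0 → FamilyRational z0 w0 → FamilyCongr W z0 w0 →
      FamilySemistable W z0 w0 → FamilyAux z0 w0 → Goal W

/-- **D**, with the integrality form of the A3 input. -/
def AssemblyIntegral : Prop :=
  ∀ (W : WeierstrassCurve ℤ), W.Δ ≠ 0 → W.IsSemistableModel → ∀ z0 w0 : Qbar,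
    FamilyIntegral W z0 w0 → FamilyCongr W z0 w0 →
      FamilySemistable W z0 w0 → FamilyAux z0 w0 → Goal W

end Fermat.Agent.S52.AssemblySpec
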