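import Mathlib
import Fermat.Prelude.Def_EllipticCurve_FrobeniusTrace

/-!
helper51 (P-ELL / S52, package C2b `AuxPrime`): statement of the density bridge.

For an elliptic curve `E/ℚ` whose mod `5` representation is irreducible and has determinant the
mod `5` cyclotomic character there are, outside any finite set of primes, a prime `q ≡ 1` modulo
`24` and modulo `5`, a valuation subring `A` of `ℚ̄` over `q` and a Frobenius lift `σ` at `A`
acting as `-1` on `E[5](ℚ̄)` and fixing the `24`-th and the `5`-th roots of unity.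
-/

set_option autoImplicit false

open WeierstrassCurve WeierstrassCurve.Affine

namespace Fermat.Agent.S52.AuxPrimeSpec

/-- `ℚ̄`. -/
abbrev Qbar := AlgebraicClosure ℚ

/-- `E[5](ℚ̄)` in the shape used by the Prelude. -/
abbrev E5 (E : WeierstrassCurve ℚ) : Type :=
  Submodule.torsionBy ℤ (E.toAffine⁄Qbar).Point ((5 : ℕ) : ℤ)

/-- In the basis `b` of `E[5](ℚ̄)` the determinant of the Galois action is the mod `5` cyclotomic
character (read off on the primitive fifth root of unity `ζ`). -/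
def HasCyclotomicDet (E : WeierstrassCurve ℚ) (b : Module.Basis (Fin 2) (ZMod 5) (E5 E))
    (ζ : Qbar) : Prop :=
  ∀ σ : Qbar ≃ₐ[ℚ] Qbar, ∃ k : ℕ, σ ζ = ζ ^ k ∧
    (LinearMap.toMatrix b b (Affine.Point.galoisRepModuleEnd ℚ E.toAffine 5 σ)).det = (k : ZMod 5)

/-- The auxiliary prime (density bridge, C2b). -/
def AuxPrime : Prop :=
  ∀ (E : WeierstrassCurve ℚ) (b : Module.Basis (Fin 2) (ZMod 5) (E5 E)) (ζ : Qbar),
    IsPrimitiveRoot ζ 5 → HasCyclotomicDet E b ζ →
    Affine.Point.GaloisRepIsIrreducible (K := Qbar) ℚ E.toAffine 5 →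
    ∀ bad : Finset ℕ, ∃ q : ℕ, q.Prime ∧ q ∉ bad ∧ q % 24 = 1 ∧ q % 5 = 1 ∧
      ∃ A : ValuationSubring Qbar, A.LiesOverPrime q ∧
        ∃ σ : Qbar ≃ₐ[ℚ] Qbar, A.IsFrobeniusAt σ q ∧
          (∀ P : (E.toAffine⁄Qbar).Point, (5 : ℤ) • P = 0 → σ • P = -P) ∧
          (∀ z : Qbar, z ^ 24 = 1 → σ z = z) ∧ (∀ z : Qbar, z ^ 5 = 1 → σ z = z)

end Fermat.Agent.S52.AuxPrimeSpec
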