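import Mathlib

set_option autoImplicit false

namespace Fermat.Agent.S52.GroupLemmaSpec

open Matrix

abbrev G5 := GL (Fin 2) (ZMod 5)

/-- `H` has no invariant line in `F_5^2`. -/
def NoInvariantLine (H : Subgroup G5) : Prop :=
  ∀ v : Fin 2 → ZMod 5, v ≠ 0 → ∃ h ∈ H, ∀ c : ZMod 5, (h : Matrix (Fin 2) (Fin 2) (ZMod 5)).mulVec v ≠ c • v

/-- determinant onto `F_5^×`. -/
def DetOnto (H : Subgroup G5) : Prop :=
  ∀ c : (ZMod 5)ˣ, ∃ h ∈ H, Matrix.GeneralLinearGroup.det h = c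

/-- main group lemma -/
def NegOneMem : Prop :=
  ∀ H : Subgroup G5, NoInvariantLine H → DetOnto H → (-1 : G5) ∈ H

/-- consequence: `-1` is killed by every homomorphism from `H` to a group of exponent two. -/
def NegOneKilled : Prop :=
  ∀ H : Subgroup G5, NoInvariantLine H → DetOnto H → ∀ (hm : (-1 : G5) ∈ H)
    {A : Type} [CommGroup A] (_ : ∀ a : A, a * a = 1) (χ : H →* A), χ ⟨-1, hm⟩ = 1

end Fermat.Agent.S52.GroupLemmaSpec
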