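import Mathlib
import Fermat.Prelude.Def_EllipticCurve_FrobeniusTrace
import Fermat.Agent.S52.AuxPrimeSpec
import Fermat.Agent.S52.GroupLemmaSpec
import Fermat.Agent.Lib.FrobeniusExists
import Fermat.Agent.Lib.FrobDensity.QbarDefs

/-!
helper51 (P-ELL / S52, package C2b `AuxPrime`): the density bridge.

`auxPrime`: for an elliptic curve `E/ℚ` whose mod `5` representation is irreducible with
determinant the cyclotomic character, the group lemma (`-1` lies in the image, and in the image of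
every subgroup of index two) and the Frobenius density theorem produce, outside any finite set of
primes, a prime `q ≡ 1 mod 24`, `q ≡ 1 mod 5` and a Frobenius lift at a place of `ℚ̄` over `q`
acting as `-1` on `E[5]`.
-/

set_option autoImplicit false

open WeierstrassCurve WeierstrassCurve.Affine IsLocalRing

namespace Fermat.Agent.S52.AuxPrime

open AuxPrimeSpec GroupLemmaSpec

/-! ### Valuation subrings, residue fields, Frobenius lifts -/



section residue

variable {L : Type*} [Field L] (A : ValuationSubring L)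

theorem natCast_residue_eq_zero {ℓ : ℕ} (hA : A.LiesOverPrime ℓ) :
    ((ℓ : ℕ) : ResidueField A) = 0 := by
  have hmem : (ℓ : L) ∈ A := A.nonunits_le hA
  have h1 : (⟨(ℓ : L), hmem⟩ : A) ∈ maximalIdeal A := by
    rw [mem_maximalIdeal, mem_nonunits_iff]
    intro hu
    have : (ℓ : L) ∉ A.nonunits := by
      rw [ValuationSubring.mem_nonunits_iff_exists_mem_maximalIdeal]
      rintro ⟨ha, hm⟩
      exact (mem_maximalIdeal _).mp hm hu
    exact this hA
  have h2 : residue A ⟨(ℓ : L), hmem⟩ = 0 := (residue_eq_zero_iff _).mpr h1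
  have h3 : (⟨(ℓ : L), hmem⟩ : A) = ((ℓ : ℕ) : A) := by
    apply Subtype.ext
    simp
  rw [h3, map_natCast] at h2
  exact h2

theorem charP_residueField {ℓ : ℕ} (hℓ : ℓ.Prime) (hA : A.LiesOverPrime ℓ) :
    CharP (ResidueField A) ℓ := by
  have h0 := natCast_residue_eq_zero A hA
  have h1 : ringChar (ResidueField A) ∣ ℓ := ringChar.dvd h0
  have h2 : ringChar (ResidueField A) ≠ 1 := CharP.ringChar_ne_one
  have h3 : ringChar (ResidueField A) = ℓ := by
    rcases (Nat.dvd_prime hℓ).mp h1 with h | h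
    · exact absurd h h2
    · exact h
  rw [← h3]
  exact ringChar.charP _

/-- roots of unity lie in every valuation subring. -/
theorem mem_of_pow_eq_one {z : L} {n : ℕ} (hn : n ≠ 0) (hz : z ^ n = 1) : z ∈ A := by
  rcases A.mem_or_inv_mem z with h | h
  · exact h
  · have h1 : z = (z⁻¹) ^ (n - 1) := by
      have hz0 : z ≠ 0 := by
        rintro rfl
        rw [zero_pow hn] at hz
        exact zero_ne_one hz
      have h2 : z ^ (n - 1) * z = 1 := by rw [← pow_succ, Nat.sub_one_add_one hn, hz]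
      rw [inv_pow]
      field_simp
      rw [mul_comm]
      exact h2
    rw [h1]
    exact pow_mem h _

end residue

section frob

variable {K L : Type*} [Field K] [Field L] [Algebra K L] (A : ValuationSubring L)
  {σ : L ≃ₐ[K] L} {ℓ : ℕ}

theorem residue_frob (h : A.IsFrobeniusAt σ ℓ) {x : L} (hx : x ∈ A) (hσx : σ x ∈ A) :
    residue A ⟨σ x, hσx⟩ = (residue A ⟨x, hx⟩) ^ ℓ := by
  have h2 := h.smul_residue_eq (residue A ⟨x, hx⟩)
  rw [← IsLocalRing.ResidueField.residue_smul] at h2
  rw [← h2]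
  rfl

/-- A Frobenius lift at a place over `q` fixing a primitive `n`-th root of unity (`q ∤ n`) forces
`q ≡ 1` modulo `n`. -/
theorem mod_eq_one_of_frobenius_fixes {q n : ℕ} (hq : q.Prime) (hn : 1 < n) (hqn : ¬ q ∣ n)
    (hA : A.LiesOverPrime q) (hσ : A.IsFrobeniusAt σ q) {z : L} (hz : IsPrimitiveRoot z n)
    (hfix : σ z = z) : q % n = 1 := by
  have hn0 : n ≠ 0 := by omega
  have hzA : z ∈ A := mem_of_pow_eq_one A hn0 hz.pow_eq_one
  have hchar : CharP (ResidueField A) q := charP_residueField A hq hA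
  have hnk : NeZero ((n : ℕ) : ResidueField A) := by
    refine ⟨fun h0 => hqn ?_⟩
    exact (CharP.cast_eq_zero_iff (ResidueField A) q n).mp h0
  have hnA : NeZero ((n : ℕ) : A) := by
    refine ⟨fun h0 => hnk.out ?_⟩
    have := congrArg (residue A) h0
    rwa [map_natCast, map_zero] at this
  have hzA' : IsPrimitiveRoot (⟨z, hzA⟩ : A) n :=
    (IsPrimitiveRoot.map_iff_of_injective (f := A.subtype) Subtype.val_injective).mp hz
  have hroot : (Polynomial.cyclotomic n A).IsRoot ⟨z, hzA⟩ :=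
    Polynomial.isRoot_cyclotomic_iff.mpr hzA'
  have hroot' := hroot.map (f := residue A)
  rw [Polynomial.map_cyclotomic, Polynomial.isRoot_cyclotomic_iff] at hroot'
  -- the Frobenius relation
  have hσz : σ z ∈ A := by rw [hfix]; exact hzA
  have h1 := residue_frob A hσ hzA hσz
  have h2 : residue A ⟨σ z, hσz⟩ = residue A ⟨z, hzA⟩ := by
    congr 1
    exact Subtype.ext hfix
  rw [h2] at h1
  have h3 : (residue A ⟨z, hzA⟩) ^ 1 = (residue A ⟨z, hzA⟩) ^ q := by rw [pow_one]; exact h1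
  rw [(hroot'.isOfFinOrder hn0).pow_eq_pow_iff_modEq, ← hroot'.eq_orderOf] at h3
  have h4 : q % n = 1 % n := h3.symm
  rw [h4]
  exact Nat.one_mod_eq_one.mpr (by omega)

end frob


/-! ### The group-theoretic step -/



/-- Goursat-type consequence of the group lemma: if `ρ : Γ → GL₂(𝔽₅)` has irreducible image with
surjective determinant and `χ : Γ → A` is a character to a group of exponent two, then some
`g ∈ ker χ` has `ρ g = -1`. -/
theorem exists_rho_eq_neg_one_of_killed {Γ : Type*} [Group Γ] (ρ : Γ →* G5) {A : Type}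
    [CommGroup A] (hA : ∀ a : A, a * a = 1) (χ : Γ →* A)
    (hNI : NoInvariantLine ρ.range) (hDO : DetOnto ρ.range)
    (hNM : NegOneMem) (hNK : NegOneKilled) :
    ∃ g : Γ, ρ g = -1 ∧ χ g = 1 := by
  classical
  set B : Subgroup A := ρ.ker.map χ with hB
  let φ : Γ →* A ⧸ B := (QuotientGroup.mk' B).comp χ
  have hker : ρ.ker ≤ φ.ker := by
    intro τ hτ
    rw [MonoidHom.mem_ker]
    show (QuotientGroup.mk' B) (χ τ) = 1
    rw [QuotientGroup.mk'_apply, QuotientGroup.eq_one_iff]
    exact ⟨τ, hτ, rfl⟩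
  let ψ : ρ.range →* A ⧸ B :=
    (QuotientGroup.lift ρ.ker φ hker).comp
      (QuotientGroup.quotientKerEquivRange ρ).symm.toMonoidHom
  have hA' : ∀ a : A ⧸ B, a * a = 1 := by
    intro a
    induction a using QuotientGroup.induction_on with
    | H a => rw [← QuotientGroup.mk_mul, hA, QuotientGroup.mk_one]
  have hm : (-1 : G5) ∈ ρ.range := hNM _ hNI hDO
  have key := hNK ρ.range hNI hDO hm hA' ψ
  obtain ⟨σ0, hσ0⟩ := MonoidHom.mem_range.mp hm
  have h1 : (QuotientGroup.quotientKerEquivRange ρ).symm ⟨-1, hm⟩ =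
      (σ0 : Γ ⧸ ρ.ker) := by
    rw [MulEquiv.symm_apply_eq]
    exact Subtype.ext hσ0.symm
  have h2 : ψ ⟨-1, hm⟩ = φ σ0 := by
    show (QuotientGroup.lift ρ.ker φ hker)
      ((QuotientGroup.quotientKerEquivRange ρ).symm ⟨-1, hm⟩) = φ σ0
    rw [h1]
    rfl
  rw [h2] at key
  have h3 : χ σ0 ∈ B := by
    rw [← QuotientGroup.eq_one_iff]
    exact key
  obtain ⟨τ, hτ, hτχ⟩ := h3
  refine ⟨σ0 * τ⁻¹, ?_, ?_⟩
  · rw [map_mul, map_inv, MonoidHom.mem_ker.mp hτ, hσ0, inv_one, mul_one]
  · rw [map_mul, map_inv, hτχ, mul_inv_cancel]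


/-! ### The mod `5` representation in a basis -/

section rep

variable (E : WeierstrassCurve ℚ) (b : Module.Basis (Fin 2) (ZMod 5) (E5 E))




/-- The Galois action on `E[5]` in the basis `b`, as matrices. -/
noncomputable def rhoMat : (Qbar ≃ₐ[ℚ] Qbar) →* Matrix (Fin 2) (Fin 2) (ZMod 5) :=
  ((LinearMap.toMatrixAlgEquiv b : Module.End (ZMod 5) (E5 E) ≃ₐ[ZMod 5] _) :
      Module.End (ZMod 5) (E5 E) →* _).comp
    (Affine.Point.galoisRepModuleEnd ℚ E.toAffine 5)

/-- The mod `5` representation in the basis `b`. -/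
noncomputable def rho : (Qbar ≃ₐ[ℚ] Qbar) →* G5 := (rhoMat E b).toHomUnits

theorem rho_val (σ : Qbar ≃ₐ[ℚ] Qbar) :
    ((rho E b σ : G5) : Matrix (Fin 2) (Fin 2) (ZMod 5)) =
      LinearMap.toMatrix b b (Affine.Point.galoisRepModuleEnd ℚ E.toAffine 5 σ) := rfl

theorem rho_mulVec (σ : Qbar ≃ₐ[ℚ] Qbar) (x : E5 E) :
    ((rho E b σ : G5) : Matrix (Fin 2) (Fin 2) (ZMod 5)).mulVec (b.equivFun x) =
      b.equivFun (σ • x) := by
  rw [rho_val]
  exact LinearMap.toMatrix_mulVec_repr b b _ x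

instance factPrimeFive : Fact (Nat.Prime 5) := ⟨by norm_num⟩

include b in
theorem finrank_E5 : Module.finrank (ZMod 5) (E5 E) = 2 := by
  rw [Module.finrank_eq_card_basis b]
  simp

theorem noInvariantLine_range
    (hirr : Affine.Point.GaloisRepIsIrreducible (K := Qbar) ℚ E.toAffine 5) :
    NoInvariantLine (rho E b).range := by
  intro v hv
  by_contra hcon
  push Not at hcon
  -- the vector of `E[5]` with coordinates `v`
  obtain ⟨x, rfl⟩ : ∃ x : E5 E, b.equivFun x = v := ⟨b.equivFun.symm v, b.equivFun.apply_symm_apply v⟩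
  have hx : x ≠ 0 := by
    rintro rfl
    exact hv (map_zero _)
  have hstab : Affine.Point.IsGaloisStable ℚ (Submodule.span (ZMod 5) {x}) := by
    intro σ y hy
    obtain ⟨a, rfl⟩ := Submodule.mem_span_singleton.mp hy
    obtain ⟨c, hc⟩ := hcon (rho E b σ) ⟨σ, rfl⟩
    rw [rho_mulVec] at hc
    have h1 : σ • x = c • x := by
      apply b.equivFun.injective
      rw [hc, map_smul]
    rw [smul_comm, h1]
    exact Submodule.smul_mem _ _ (Submodule.smul_mem _ _ (Submodule.mem_span_singleton_self x))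
  rcases hirr.2 _ hstab with h | h
  · rw [Submodule.span_singleton_eq_bot] at h
    exact hx h
  · have h1 : Module.finrank (ZMod 5) (Submodule.span (ZMod 5) {x}) = 1 :=
      finrank_span_singleton hx
    rw [h, finrank_top, finrank_E5 E b] at h1
    omega

/-- two powers of a primitive root agree iff the exponents agree in `ZMod n`. -/
theorem pow_eq_pow_iff_natCast {n : ℕ} (hn : n ≠ 0) {ζ : Qbar} (hζ : IsPrimitiveRoot ζ n)
    (k l : ℕ) : ζ ^ k = ζ ^ l ↔ (k : ZMod n) = (l : ZMod n) := by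
  rw [ZMod.natCast_eq_natCast_iff, (hζ.isOfFinOrder hn).pow_eq_pow_iff_modEq, ← hζ.eq_orderOf]

/-- Galois conjugates of a primitive root of unity. -/
theorem exists_galois_pow {n : ℕ} (hn : 0 < n) {ζ : Qbar} (hζ : IsPrimitiveRoot ζ n) {k : ℕ}
    (hk : k.Coprime n) : ∃ σ : Qbar ≃ₐ[ℚ] Qbar, σ ζ = ζ ^ k := by
  have hζk : IsPrimitiveRoot (ζ ^ k) n := hζ.pow_of_coprime k hk
  have hQG : IsGalois ℚ Qbar := Fermat.Agent.Lib.isGalois_algebraicClosure_rat
  have halg : IsAlgebraic ℚ ζ := Algebra.IsAlgebraic.isAlgebraic ζ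
  apply minpoly.exists_algEquiv_of_root' halg
  rw [← Polynomial.cyclotomic_eq_minpoly_rat hζ hn, Polynomial.aeval_def,
    Polynomial.eval₂_eq_eval_map, Polynomial.map_cyclotomic]
  exact hζk.isRoot_cyclotomic hn

theorem detOnto_range {ζ : Qbar} (hζ : IsPrimitiveRoot ζ 5) (hdet : HasCyclotomicDet E b ζ) :
    DetOnto (rho E b).range := by
  intro c
  obtain ⟨σ, hσ⟩ := exists_galois_pow (by norm_num) hζ (ZMod.val_coe_unit_coprime c)
  refine ⟨rho E b σ, ⟨σ, rfl⟩, ?_⟩
  obtain ⟨k, hk, hkdet⟩ := hdet σ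
  rw [hσ, pow_eq_pow_iff_natCast (by norm_num) hζ, ZMod.natCast_zmod_val] at hk
  ext
  show ((rho E b σ : G5) : Matrix (Fin 2) (Fin 2) (ZMod 5)).det = c
  rw [rho_val, hkdet, ← hk]


end rep

/-! ### Coordinates of points -/

section coordinates

variable (E : WeierstrassCurve ℚ)




/-- The coordinates of a point. -/
def coords : (E.toAffine⁄Qbar).Point → Set Qbar
  | .zero => ∅
  | .some x y _ => {x, y}

theorem coords_finite (P : (E.toAffine⁄Qbar).Point) : (coords E P).Finite := by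
  cases P with
  | zero => exact Set.finite_empty
  | some x y h => exact Set.toFinite ({x, y} : Set Qbar)


variable {E}

theorem smul_eq_smul_of_coords {σ τ : Qbar ≃ₐ[ℚ] Qbar} {P : (E.toAffine⁄Qbar).Point}
    (h : ∀ x ∈ coords E P, σ x = τ x) : σ • P = τ • P := by
  cases P with
  | zero => rfl
  | some x y hxy =>
    have hx : σ x = τ x := h x (by simp [coords])
    have hy : σ y = τ y := h y (by simp [coords])
    rw [Affine.Point.algEquiv_smul_def, Affine.Point.algEquiv_smul_def, Affine.Point.map_some,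
      Affine.Point.map_some]
    simp only [Affine.Point.some.injEq]
    exact ⟨hx, hy⟩

theorem coords_smul (σ : Qbar ≃ₐ[ℚ] Qbar) {P : (E.toAffine⁄Qbar).Point} {x : Qbar}
    (hx : x ∈ coords E P) : σ x ∈ coords E (σ • P) := by
  cases P with
  | zero => exact absurd hx (Set.notMem_empty x)
  | some a c hac =>
    rw [Affine.Point.algEquiv_smul_def, Affine.Point.map_some]
    simp only [coords, Set.mem_insert_iff, Set.mem_singleton_iff] at hx ⊢
    rcases hx with rfl | rfl
    · exact Or.inl rfl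
    · exact Or.inr rfl

theorem apply_eq_of_smul_eq {σ : Qbar ≃ₐ[ℚ] Qbar} {P : (E.toAffine⁄Qbar).Point}
    (h : σ • P = P) {x : Qbar} (hx : x ∈ coords E P) : σ x = x := by
  cases P with
  | zero => exact absurd hx (Set.notMem_empty x)
  | some a c hac =>
    rw [Affine.Point.algEquiv_smul_def, Affine.Point.map_some] at h
    simp only [Affine.Point.some.injEq] at h
    simp only [coords, Set.mem_insert_iff, Set.mem_singleton_iff] at hx
    rcases hx with rfl | rfl
    · exact h.1
    · exact h.2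

/-- The density output `σ` agrees with `g` on a subset `S` of `L` on which `g` is an
involution. -/
theorem eq_on_of_involution {L S : Set Qbar} (hSL : S ⊆ L) (g σ : Qbar ≃ₐ[ℚ] Qbar)
    (hg2 : ∀ x ∈ S, g (g x) = x) {k j : ℕ}
    (hk : ∀ x ∈ L, (σ ^ k) x = g x) (hj : ∀ x ∈ L, (g ^ j) x = σ x) :
    ∀ x ∈ S, σ x = g x := by
  have claimA : ∀ m : ℕ, ∀ x ∈ S, (g ^ m) x = x ∨ (g ^ m) x = g x := by
    intro m
    induction m with
    | zero => intro x _; exact Or.inl rfl
    | succ m ih =>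
      intro x hx
      rw [pow_succ', AlgEquiv.mul_apply]
      rcases ih x hx with h | h
      · rw [h]; exact Or.inr rfl
      · rw [h, hg2 x hx]; exact Or.inl rfl
  intro x hx
  rcases claimA j x hx with h | h
  · have h1 : σ x = x := by rw [← hj x (hSL hx), h]
    have h2 : ∀ m : ℕ, (σ ^ m) x = x := by
      intro m
      induction m with
      | zero => rfl
      | succ m ih => rw [pow_succ', AlgEquiv.mul_apply, ih, h1]
    rw [h1, ← hk x (hSL hx), h2]
  · rw [← hj x (hSL hx), h]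


end coordinates


/-! ### Bridging lemmas for the producers of the hypotheses -/

/-- `HasCyclotomicDet` from explicit matrices: it suffices to give, for each `σ`, an exponent `k`
and a matrix `M` of determinant `k` with `σ ζ = ζ ^ k` and `σ • b j = ∑ i, M i j • b i`. -/
theorem hasCyclotomicDet_of_matrix (E : WeierstrassCurve ℚ)
    (b : Module.Basis (Fin 2) (ZMod 5) (E5 E)) (ζ : Qbar)
    (h : ∀ σ : Qbar ≃ₐ[ℚ] Qbar, ∃ (k : ℕ) (M : Matrix (Fin 2) (Fin 2) (ZMod 5)),
      σ ζ = ζ ^ k ∧ (∀ j, σ • b j = ∑ i, M i j • b i) ∧ M.det = (k : ZMod 5)) :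
    HasCyclotomicDet E b ζ := by
  intro σ
  obtain ⟨k, M, hk, hM, hdet⟩ := h σ
  refine ⟨k, hk, ?_⟩
  have h1 : LinearMap.toMatrix b b (Affine.Point.galoisRepModuleEnd ℚ E.toAffine 5 σ) = M := by
    ext i j
    rw [LinearMap.toMatrix_apply, Affine.Point.galoisRepModuleEnd_apply, hM j,
      b.repr_sum_self]
  rw [h1, hdet]

/-- A `ZMod 5`-basis of `E[5]` from an additive isomorphism with `(ℤ/5)²`. -/
noncomputable def basisOfAddEquiv (E : WeierstrassCurve ℚ) (e : (Fin 2 → ZMod 5) ≃+ E5 E) :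
    Module.Basis (Fin 2) (ZMod 5) (E5 E) :=
  Module.Basis.ofEquivFun
    { (e.symm.toAddMonoidHom.toZModLinearMap 5) with
      invFun := e
      left_inv := e.apply_symm_apply
      right_inv := e.symm_apply_apply }

theorem basisOfAddEquiv_apply (E : WeierstrassCurve ℚ) (e : (Fin 2 → ZMod 5) ≃+ E5 E)
    (i : Fin 2) : basisOfAddEquiv E e i = e (Pi.single i 1) := by
  rw [basisOfAddEquiv, Module.Basis.coe_ofEquivFun]
  rfl

/-! ### The auxiliary prime -/

/-- **The density bridge.**  Given the group lemma and the Frobenius density theorem (two-sided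
existence form), the auxiliary prime exists. -/
theorem auxPrime (hFD : Fermat.Agent.Lib.FrobDensity.FrobGeneratorDense) (hNM : NegOneMem) (hNK : NegOneKilled) :
    AuxPrime := by
  intro E b ζ hζ hdet hirr bad
  have hQG : IsGalois ℚ Qbar := Fermat.Agent.Lib.isGalois_algebraicClosure_rat
  -- a primitive 24-th root of unity and the mod 24 cyclotomic character
  obtain ⟨ζ24, hζ24⟩ := HasEnoughRootsOfUnity.exists_primitiveRoot Qbar 24
  let χ : (Qbar ≃ₐ[ℚ] Qbar) →* (ZMod 24)ˣ := hζ24.autToPow ℚ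
  have hA2 : ∀ a : (ZMod 24)ˣ, a * a = 1 := by decide
  obtain ⟨g, hg1, hg2⟩ := exists_rho_eq_neg_one_of_killed (rho E b) hA2 χ
    (noInvariantLine_range E b hirr) (detOnto_range E b hζ hdet) hNM hNK
  -- `g` fixes `ζ24`
  have hgζ24 : g ζ24 = ζ24 := by
    have h1 := hζ24.autToPow_spec ℚ g
    have h2 : hζ24.autToPow ℚ g = 1 := hg2
    have h3 : (((1 : (ZMod 24)ˣ) : ZMod 24)).val = 1 := by decide
    rw [h2, h3, pow_one] at h1
    exact h1.symm
  -- the matrix of `g` is `-1`
  have hgmat : ((rho E b g : G5) : Matrix (Fin 2) (Fin 2) (ZMod 5)) = -1 := by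
    rw [hg1, Units.val_neg, Units.val_one]
  -- `g` acts as `-1` on `E[5]`
  have hgneg : ∀ x : E5 E, g • x = -x := by
    intro x
    apply b.equivFun.injective
    rw [← rho_mulVec, hgmat, Matrix.neg_mulVec, Matrix.one_mulVec, map_neg]
  -- `g` fixes `ζ`
  have hgζ : g ζ = ζ := by
    obtain ⟨k, hk, hkdet⟩ := hdet g
    have h1 : (k : ZMod 5) = ((1 : ℕ) : ZMod 5) := by
      rw [← hkdet, ← rho_val, hgmat, Matrix.det_neg, Matrix.det_one]
      simp
    rw [hk, (pow_eq_pow_iff_natCast (by norm_num) hζ k 1).mpr h1, pow_one]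
  -- the finite set of generators
  have hfinE5 : Finite (E5 E) := Finite.of_equiv _ b.equivFun.symm.toEquiv
  let T : Set (E.toAffine⁄Qbar).Point := {P | (5 : ℤ) • P = 0}
  have hTmem : ∀ P : (E.toAffine⁄Qbar).Point, P ∈ T ↔
      P ∈ Submodule.torsionBy ℤ (E.toAffine⁄Qbar).Point ((5 : ℕ) : ℤ) := by
    intro P
    rw [Submodule.mem_torsionBy_iff]
    rfl
  have hTfin : T.Finite := by
    have h1 : T = ((Submodule.torsionBy ℤ (E.toAffine⁄Qbar).Point ((5 : ℕ) : ℤ) :
        Submodule ℤ _) : Set (E.toAffine⁄Qbar).Point) := by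
      ext P
      exact hTmem P
    rw [h1]
    exact Set.toFinite _
  let S : Set Qbar := (⋃ P ∈ T, coords E P) ∪ {ζ, ζ24}
  have hSfin : S.Finite :=
    (hTfin.biUnion fun P _ => coords_finite E P).union (Set.toFinite _)
  have hSfin' : Finite S := hSfin
  let L : IntermediateField ℚ Qbar := IntermediateField.adjoin ℚ S
  have hfd : FiniteDimensional ℚ L :=
    IntermediateField.finiteDimensional_adjoin fun x _ => Algebra.IsIntegral.isIntegral x
  have hSL : S ⊆ (L : Set Qbar) := IntermediateField.subset_adjoin ℚ S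
  -- the action of `g` on points of `T`
  have hgT : ∀ P ∈ T, g • P = -P := by
    intro P hP
    have h1 := hgneg ⟨P, (hTmem P).mp hP⟩
    exact congrArg Subtype.val h1
  -- `g` is an involution on `S`
  have hginv : ∀ x ∈ S, g (g x) = x := by
    intro x hx
    rcases hx with hx | hx
    · simp only [Set.mem_iUnion] at hx
      obtain ⟨P, hP, hxP⟩ := hx
      have h1 : (g * g) • P = P := by
        rw [mul_smul, hgT P hP, smul_neg, hgT P hP, neg_neg]
      exact apply_eq_of_smul_eq h1 hxP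
    · rcases hx with rfl | hx
      · rw [hgζ, hgζ]
      · rw [Set.mem_singleton_iff] at hx
        rw [hx, hgζ24, hgζ24]
  -- apply the density theorem
  obtain ⟨q, hq, hqbad, A, hA, σ, hσ, ⟨k, hk⟩, ⟨j, hj⟩⟩ := hFD L hfd g (bad ∪ {2, 3, 5})
  have hσg : ∀ x ∈ S, σ x = g x := eq_on_of_involution hSL g σ hginv hk hj
  have hq2 : q ≠ 2 := fun h => hqbad (by simp [h])
  have hq3 : q ≠ 3 := fun h => hqbad (by simp [h])
  have hq5 : q ≠ 5 := fun h => hqbad (by simp [h])
  have hσζ : σ ζ = ζ := by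
    rw [hσg ζ (Or.inr (Or.inl rfl)), hgζ]
  have hσζ24 : σ ζ24 = ζ24 := by
    rw [hσg ζ24 (Or.inr (Or.inr rfl)), hgζ24]
  have hq24 : ¬ q ∣ 24 := by
    intro h
    have h1 : q ∣ 2 ^ 3 * 3 := h
    rcases (Nat.Prime.dvd_mul hq).mp h1 with h2 | h2
    · exact hq2 ((Nat.prime_dvd_prime_iff_eq hq Nat.prime_two).mp (hq.dvd_of_dvd_pow h2))
    · exact hq3 ((Nat.prime_dvd_prime_iff_eq hq Nat.prime_three).mp h2)
  have hq5' : ¬ q ∣ 5 := fun h =>
    hq5 ((Nat.prime_dvd_prime_iff_eq hq Nat.prime_five).mp h)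
  refine ⟨q, hq, fun h => hqbad (Finset.mem_union_left _ h),
    mod_eq_one_of_frobenius_fixes A hq (by norm_num) hq24 hA hσ hζ24 hσζ24,
    mod_eq_one_of_frobenius_fixes A hq (by norm_num) hq5' hA hσ hζ hσζ,
    A, hA, σ, hσ, ?_, ?_, ?_⟩
  · intro P hP
    have hPT : P ∈ T := hP
    rw [← hgT P hPT]
    apply smul_eq_smul_of_coords
    intro x hx
    apply hσg x
    refine Or.inl ?_
    simp only [Set.mem_iUnion]
    exact ⟨P, hPT, hx⟩
  · intro z hz
    obtain ⟨i, _, rfl⟩ := hζ24.eq_pow_of_pow_eq_one hz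
    rw [map_pow, hσζ24]
  · intro z hz
    obtain ⟨i, _, rfl⟩ := hζ.eq_pow_of_pow_eq_one hz
    rw [map_pow, hσζ]

end Fermat.Agent.S52.AuxPrime
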