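/-
helper9.  P-ELL / S52, package A2 (Klein parameter), part 1: pure algebra on the icosahedral forms.

Blueprint: note 362 (helper52).  Over an algebraically closed field `K` of characteristic zero,
every pair `(c₄, c₆)` with `c₄ ≠ 0`, `c₆ ≠ 0`, `c₄³ ≠ c₆²` is `(-H(v), -T(v))` for some
`v = (z, w) ∈ K²`, where `f, H, T` are Klein's icosahedral forms of degrees `12, 20, 30`
(`T² + H³ = 1728 f⁵`); then automatically `f(v) ≠ 0` (`exists_param`).

Method: a root `z₀` of the degree-60 polynomial `H(X,1)³ c₆² + T(X,1)² c₄³` (leading coefficient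
`c₄³ - c₆²`), then rescale `(z₀, 1)` by a tenth root of `μ = c₆ H(z₀,1) / (c₄ T(z₀,1))`.

Also: `c • v` and `v` have the same `(H, T)` only if `c¹⁰ = 1` (`pow_ten_eq_one_of_smul`), and the
covariant `v₁ = (∂f/∂w, -∂f/∂z)` (`cov1`, `cov2`) with Euler's identity `det (v, v₁) = -12 f(v)`.

The forms are defined here as plain functions `kf kH kT : K → K → K` (names chosen not to clash
with the forms file of package K1); they are definitionally polynomial expressions, so bridging
to any other presentation is `by unfold ...; ring`.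
-/
import Mathlib

set_option autoImplicit false

namespace Fermat.Agent.S52.Param

variable {K : Type*} [Field K]

/-- Klein's icosahedral form of degree 12. -/
def kf (z w : K) : K := z * w * (z ^ 10 + 11 * z ^ 5 * w ^ 5 - w ^ 10)

/-- Klein's icosahedral form of degree 20. -/
def kH (z w : K) : K :=
  -(z ^ 20 + w ^ 20) + 228 * (z ^ 15 * w ^ 5 - z ^ 5 * w ^ 15) - 494 * z ^ 10 * w ^ 10

/-- Klein's icosahedral form of degree 30. -/
def kT (z w : K) : K :=
  (z ^ 30 + w ^ 30) + 522 * (z ^ 25 * w ^ 5 - z ^ 5 * w ^ 25)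
    - 10005 * (z ^ 20 * w ^ 10 + z ^ 10 * w ^ 20)

theorem kT_sq_add_kH_cube (z w : K) : kT z w ^ 2 + kH z w ^ 3 = 1728 * kf z w ^ 5 := by
  unfold kT kH kf
  ring

theorem kH_smul (c z w : K) : kH (c * z) (c * w) = c ^ 20 * kH z w := by
  unfold kH; ring

theorem kT_smul (c z w : K) : kT (c * z) (c * w) = c ^ 30 * kT z w := by
  unfold kT; ring

theorem kf_smul (c z w : K) : kf (c * z) (c * w) = c ^ 12 * kf z w := by
  unfold kf; ring

/-- `H` and `f` have no common zero on the chart `w = 1` (the resultant is a power of `5`). -/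
theorem kH_ne_zero_of_kf_eq_zero [CharZero K] (z : K) (hf : kf z 1 = 0) : kH z 1 ≠ 0 := by
  intro hH
  unfold kf at hf
  unfold kH at hH
  simp only [one_pow, mul_one] at hf hH
  rcases mul_eq_zero.mp hf with hz | hg
  · rw [hz] at hH
    norm_num at hH
  · -- with `a = z^5`: `g = a^2 + 11 a - 1`, `H = -a^4 + 228 a^3 - 494 a^2 - 228 a - 1`
    have h5 : (3125 : K) = 0 := by
      linear_combination (exp := 1) (-(11 * z ^ 5 + 122)) * hH +
        (3125 * 121 - (11 * z ^ 5 + 122) * (z ^ 10 - 239 * z ^ 5 + 3124)) * hg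
    norm_num at h5

open Polynomial in
/-- `H(X, 1)` as a polynomial. -/
noncomputable def hPoly (K : Type*) [Field K] : Polynomial K :=
  -X ^ 20 + 228 * X ^ 15 - 494 * X ^ 10 - 228 * X ^ 5 - 1

open Polynomial in
/-- `T(X, 1)` as a polynomial. -/
noncomputable def tPoly (K : Type*) [Field K] : Polynomial K :=
  X ^ 30 + 522 * X ^ 25 - 10005 * X ^ 20 - 10005 * X ^ 10 - 522 * X ^ 5 + 1

theorem eval_hPoly (z : K) : (hPoly K).eval z = kH z 1 := by
  unfold hPoly kH
  simp only [Polynomial.eval_sub, Polynomial.eval_add, Polynomial.eval_neg, Polynomial.eval_mul,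
    Polynomial.eval_pow, Polynomial.eval_X, Polynomial.eval_one, Polynomial.eval_ofNat]
  ring

theorem eval_tPoly (z : K) : (tPoly K).eval z = kT z 1 := by
  unfold tPoly kT
  simp only [Polynomial.eval_sub, Polynomial.eval_add, Polynomial.eval_mul,
    Polynomial.eval_pow, Polynomial.eval_X, Polynomial.eval_one, Polynomial.eval_ofNat]
  ring

theorem natDegree_hPoly_le : (hPoly K).natDegree ≤ 20 := by
  unfold hPoly
  compute_degree

theorem natDegree_tPoly_le : (tPoly K).natDegree ≤ 30 := by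
  unfold tPoly
  compute_degree

theorem coeff_hPoly : (hPoly K).coeff 20 = -1 := by
  unfold hPoly
  simp [Polynomial.coeff_X_pow, Polynomial.coeff_one]

theorem coeff_tPoly : (tPoly K).coeff 30 = 1 := by
  unfold tPoly
  simp [Polynomial.coeff_X_pow, Polynomial.coeff_one]

open Polynomial in
/-- The degree-60 equation for the affine Klein parameter has a root. -/
theorem exists_affine_param [IsAlgClosed K] (c4 c6 : K) (hΔ : c4 ^ 3 - c6 ^ 2 ≠ 0) :
    ∃ z : K, kH z 1 ^ 3 * c6 ^ 2 + kT z 1 ^ 2 * c4 ^ 3 = 0 := by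
  set p : Polynomial K := hPoly K ^ 3 * C (c6 ^ 2) + tPoly K ^ 2 * C (c4 ^ 3) with hp
  have hcoeff : p.coeff 60 = c4 ^ 3 - c6 ^ 2 := by
    rw [hp, coeff_add, coeff_mul_C, coeff_mul_C,
      show (60 : ℕ) = 3 * 20 by norm_num, coeff_pow_of_natDegree_le natDegree_hPoly_le,
      show (3 * 20 : ℕ) = 2 * 30 by norm_num, coeff_pow_of_natDegree_le natDegree_tPoly_le,
      coeff_hPoly, coeff_tPoly]
    ring
  have hdeg : p.degree ≠ 0 := by
    intro h0
    have h1 : p.natDegree = 0 := natDegree_eq_zero_iff_degree_le_zero.mpr h0.le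
    have h2 : p.coeff 60 = 0 := coeff_eq_zero_of_natDegree_lt (by omega)
    exact hΔ (hcoeff ▸ h2)
  obtain ⟨z, hz⟩ := IsAlgClosed.exists_root p hdeg
  refine ⟨z, ?_⟩
  have h3 : p.eval z = kH z 1 ^ 3 * c6 ^ 2 + kT z 1 ^ 2 * c4 ^ 3 := by
    rw [hp]
    simp only [eval_add, eval_mul, eval_pow, eval_C, eval_hPoly, eval_tPoly]
  rw [← h3]
  exact hz

/-- **Klein parameter (existence).** Over an algebraically closed field of characteristic zero,
every pair `(c₄, c₆)` with `c₄ c₆ ≠ 0` and `c₄³ ≠ c₆²` is of the form `(-H(v), -T(v))`. -/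
theorem exists_param [IsAlgClosed K] [CharZero K] (c4 c6 : K) (h4 : c4 ≠ 0) (h6 : c6 ≠ 0)
    (hΔ : c4 ^ 3 - c6 ^ 2 ≠ 0) :
    ∃ z w : K, kH z w = -c4 ∧ kT z w = -c6 ∧ kf z w ≠ 0 := by
  obtain ⟨z0, hz0⟩ := exists_affine_param c4 c6 hΔ
  have hrel := kT_sq_add_kH_cube z0 (1 : K)
  -- `H(z0,1)` and `T(z0,1)` do not vanish
  have hHT : kH z0 1 ≠ 0 ∧ kT z0 1 ≠ 0 := by
    have key : ¬ (kH z0 1 = 0 ∧ kT z0 1 = 0) := by
      rintro ⟨hH, hT⟩
      have hf : kf z0 1 = 0 := by
        have h1 : (1728 : K) * kf z0 1 ^ 5 = 0 := by rw [← hrel, hH, hT]; ring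
        rcases mul_eq_zero.mp h1 with h | h
        · norm_num at h
        · exact pow_eq_zero_iff (by norm_num) |>.mp h
      exact kH_ne_zero_of_kf_eq_zero z0 hf hH
    constructor
    · intro hH
      apply key
      refine ⟨hH, ?_⟩
      rw [hH] at hz0
      have h1 : kT z0 1 ^ 2 * c4 ^ 3 = 0 := by linear_combination hz0
      rcases mul_eq_zero.mp h1 with h | h
      · exact pow_eq_zero_iff (by norm_num) |>.mp h
      · exact absurd (pow_eq_zero_iff (by norm_num) |>.mp h) h4
    · intro hT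
      apply key
      refine ⟨?_, hT⟩
      rw [hT] at hz0
      have h1 : kH z0 1 ^ 3 * c6 ^ 2 = 0 := by linear_combination hz0
      rcases mul_eq_zero.mp h1 with h | h
      · exact pow_eq_zero_iff (by norm_num) |>.mp h
      · exact absurd (pow_eq_zero_iff (by norm_num) |>.mp h) h6
  obtain ⟨hH, hT⟩ := hHT
  set H' := kH z0 1 with hH'
  set T' := kT z0 1 with hT'
  -- `μ = λ^10`
  set μ : K := (c6 * H') / (c4 * T') with hμ
  have hμ2 : μ ^ 2 * H' = -c4 := by
    rw [hμ]
    field_simp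
    linear_combination hz0
  have hμ3 : μ ^ 3 * T' = -c6 := by
    rw [hμ]
    field_simp
    linear_combination hz0
  obtain ⟨lam, hlam⟩ := IsAlgClosed.exists_pow_nat_eq μ (n := 10) (by norm_num)
  refine ⟨lam * z0, lam * 1, ?_, ?_, ?_⟩
  · rw [kH_smul, show lam ^ 20 = (lam ^ 10) ^ 2 by ring, hlam, hμ2]
  · rw [kT_smul, show lam ^ 30 = (lam ^ 10) ^ 3 by ring, hlam, hμ3]
  · intro hf
    have h1 := kT_sq_add_kH_cube (lam * z0) (lam * 1)
    rw [hf, kH_smul, kT_smul, show lam ^ 20 = (lam ^ 10) ^ 2 by ring,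
      show lam ^ 30 = (lam ^ 10) ^ 3 by ring, hlam, hμ2, hμ3] at h1
    apply hΔ
    linear_combination -h1

/-- If `c • v` has the same `H` and `T` as `v` (both nonzero), then `c ^ 10 = 1`. -/
theorem pow_ten_eq_one_of_smul {c z w : K} (hH : kH z w ≠ 0) (hT : kT z w ≠ 0)
    (h1 : kH (c * z) (c * w) = kH z w) (h2 : kT (c * z) (c * w) = kT z w) : c ^ 10 = 1 := by
  rw [kH_smul] at h1
  rw [kT_smul] at h2
  have h20 : c ^ 20 = 1 := by
    have : (c ^ 20 - 1) * kH z w = 0 := by linear_combination h1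
    rcases mul_eq_zero.mp this with h | h
    · linear_combination h
    · exact absurd h hH
  have h30 : c ^ 30 = 1 := by
    have : (c ^ 30 - 1) * kT z w = 0 := by linear_combination h2
    rcases mul_eq_zero.mp this with h | h
    · linear_combination h
    · exact absurd h hT
  calc c ^ 10 = c ^ 30 * (c ^ 20)⁻¹ := by
        have hc : c ≠ 0 := by
          rintro rfl
          norm_num at h20
        field_simp
    _ = 1 := by rw [h30, h20]; norm_num

/-! ### The covariant `v ↦ (∂f/∂w, -∂f/∂z)` -/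

/-- First coordinate of the covariant `v₁ = (∂f/∂w, -∂f/∂z)` of degree `11`. -/
def cov1 (z w : K) : K := z ^ 11 + 66 * z ^ 6 * w ^ 5 - 11 * z * w ^ 10

/-- Second coordinate of the covariant `v₁ = (∂f/∂w, -∂f/∂z)` of degree `11`. -/
def cov2 (z w : K) : K := -(11 * z ^ 10 * w) - 66 * z ^ 5 * w ^ 6 + w ^ 11

/-- Euler's identity: `det (v, v₁(v)) = -12 f(v)`. -/
theorem det_cov (z w : K) : z * cov2 z w - w * cov1 z w = -12 * kf z w := by
  unfold cov1 cov2 kf; ring

theorem cov1_smul (c z w : K) : cov1 (c * z) (c * w) = c ^ 11 * cov1 z w := by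
  unfold cov1; ring

theorem cov2_smul (c z w : K) : cov2 (c * z) (c * w) = c ^ 11 * cov2 z w := by
  unfold cov2; ring

/-- The covariant is the first-order term of `f` along a line: the coefficient of `t` in
`f (z + t a, w + t b)` is `a * (-cov2) + b * cov1`. We record the exact polynomial identity
`f(s v + t v₁)` is only needed through its consequences, proved where they are used. -/
theorem cov_scalar {c : K} (hc : c ^ 10 = 1) (z w : K) :
    cov1 (c * z) (c * w) = c * cov1 z w ∧ cov2 (c * z) (c * w) = c * cov2 z w := by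
  rw [cov1_smul, cov2_smul, show c ^ 11 = c ^ 10 * c by ring, hc, one_mul]
  exact ⟨rfl, rfl⟩

end Fermat.Agent.S52.Param
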