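/-
helper2.  P-ELL / S52, package C2c (the cusp): blueprint note 362 (helper52), step (C2).

Hypothesis-style on the names of `Klein/Forms.lean` (`fF gF tF TF wf1 wf2`); the same statement on
the names of `Param.lean` (`kf kT cov1 cov2`) is `cusp_param` at the end.

Let `q ≥ 5` be a prime, `A` a valuation subring of `L ⊇ ℚ` over `q`, `φ` a Frobenius lift at `A`
acting on the Klein parameter `v₀ = (z₀, w₀)` by `φ v₀ = -ω v₀` with `ω ∈ μ₅` (it acts as `-1` on
`E[5]`), `v₀` integral at `A` with `f(v₀)` a unit, and `v₁ = (∂f/∂w, -∂f/∂z)(v₀)`.  Then there is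
a residue class `s⋆` modulo `q²` such that for all integers `s ≡ s⋆`, `t ≡ 1` modulo `q²` the vector
`v = s v₀ + t v₁` satisfies:

* `T(v)` (`= -c₆'`) is a non-square modulo `q`;
* `f(v)/f(v₀)` has `q`-adic valuation exactly `1` (so `v_q(Δ') = 5`).

These are the two hypotheses of `Irr3`.  Proof: the slope `ρ = z₁/z₀` is fixed by `φ`, so it is
congruent to an integer `-s₀` modulo the maximal ideal; near `s₀` the first coordinate of `v` is
in the maximal ideal, the second one `W` is a unit (Euler's identity `det (v₀, v₁) = -12 f(v₀)`),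
`f(v) = Z · unit`, `T(v) ≡ W³⁰` and `W^q ≡ -ω W`, whence `W¹⁵ ∉ 𝔽_q`.  The exact valuation is
obtained by comparing `s₀` and `s₀ + q` (no derivative is needed).
-/
import Mathlib
import Fermat.Prelude.Def_EllipticCurve_FrobeniusTrace
import Fermat.Agent.S52.Klein.Forms
import Fermat.Agent.S52.Param
import Fermat.Agent.Lib.FrobeniusValuation
import Fermat.Agent.Lib.EC.ReductionTorsion
import Fermat.Agent.Lib.EC.FrobCharEq.FrobPoly

set_option autoImplicit false
set_option linter.unusedSectionVars false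

namespace Fermat.Agent.S52.Cusp

open Fermat.Agent.S52.Klein

section NonSquare

/-- In a field of odd characteristic `q`, if `x ≠ 0` satisfies `x ^ q = -ω x` with `ω ^ 5 = 1`, then
`x ^ 30` (which lies in the prime field) is not a square in the prime field. -/
theorem not_isSquare_of_pow_eq {κ : Type*} [Field κ] {q : ℕ} [Fact q.Prime] [CharP κ q]
    (hq2 : q ≠ 2) {x ω : κ} (hx : x ≠ 0) (hω : ω ^ 5 = 1) (hfrob : x ^ q = -ω * x) {n : ℤ}
    (hn : (n : κ) = x ^ 30) : ¬ IsSquare ((n : ℤ) : ZMod q) := by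
  rintro ⟨r, hr⟩
  have hqodd : Odd q := (Fact.out : q.Prime).odd_of_ne_two hq2
  have hcast : (n : κ) = (ZMod.castHom (dvd_refl q) κ r) ^ 2 := by
    have := congrArg (ZMod.castHom (dvd_refl q) κ) hr
    simpa [sq] using this
  set ρ := ZMod.castHom (dvd_refl q) κ r with hρ
  have hρq : ρ ^ q = ρ := by rw [hρ, ← map_pow, ZMod.pow_card]
  have h15 : (x ^ 15) ^ 2 = ρ ^ 2 := by rw [← hcast, hn]; ring
  have hcases : x ^ 15 = ρ ∨ x ^ 15 = -ρ := sq_eq_sq_iff_eq_or_eq_neg.1 h15
  have hq15 : (x ^ 15) ^ q = x ^ 15 := by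
    rcases hcases with h | h
    · rw [h, hρq]
    · rw [h, neg_pow, hρq, hqodd.neg_one_pow]; ring
  have hq15' : (x ^ 15) ^ q = -x ^ 15 := by
    have hω15 : ω ^ 15 = 1 := by
      calc ω ^ 15 = (ω ^ 5) ^ 3 := by ring
        _ = 1 := by rw [hω, one_pow]
    calc (x ^ 15) ^ q = (x ^ q) ^ 15 := by rw [← pow_mul, ← pow_mul, mul_comm]
      _ = (-ω * x) ^ 15 := by rw [hfrob]
      _ = -(ω ^ 15 * x ^ 15) := by ring
      _ = -x ^ 15 := by rw [hω15, one_mul]
  have h2 : (2 : κ) * x ^ 15 = 0 := by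
    have := hq15.symm.trans hq15'
    linear_combination this
  have h2ne : (2 : κ) ≠ 0 := by
    intro h
    have : ((2 : ℕ) : κ) = 0 := by exact_mod_cast h
    rw [CharP.cast_eq_zero_iff κ q] at this
    have hq : q.Prime := Fact.out
    exact hq2 ((Nat.prime_dvd_prime_iff_eq hq Nat.prime_two).1 this)
  rcases mul_eq_zero.1 h2 with h | h
  · exact h2ne h
  · exact hx (pow_eq_zero_iff (by norm_num) |>.1 h)

end NonSquare

section Rat

variable {L : Type*} [Field L] [CharZero L] (A : ValuationSubring L) {q : ℕ} (hq : q.Prime)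
  (hA : (q : L) ∈ A.nonunits)

theorem valuation_intCast_le_one (a : ℤ) : A.valuation (a : L) ≤ 1 :=
  (A.valuation_le_one_iff _).2 (Lib.mem_valuationSubring_of_isIntegral A isIntegral_algebraMap)

include hq hA in
theorem valuation_intCast_eq_one {a : ℤ} (ha : ¬ (q : ℤ) ∣ a) : A.valuation (a : L) = 1 := by
  apply le_antisymm (valuation_intCast_le_one A a)
  rw [← not_lt]
  intro hlt
  exact Lib.intCast_not_mem_nonunits A hq hA ha (A.mem_nonunits_iff.2 hlt)

include hA in
theorem valuation_intCast_lt_one {a : ℤ} (ha : (q : ℤ) ∣ a) : A.valuation (a : L) < 1 := by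
  obtain ⟨a', rfl⟩ := ha
  push_cast
  rw [map_mul]
  calc A.valuation (q : L) * A.valuation (a' : L) ≤ A.valuation (q : L) * 1 := by
        gcongr
        exact valuation_intCast_le_one A a'
    _ < 1 := by rw [mul_one]; exact A.mem_nonunits_iff.1 hA

include hq hA in
theorem not_dvd_den {r : ℚ} (hr : A.valuation (r : L) ≤ 1) : ¬ (q : ℤ) ∣ (r.den : ℤ) := by
  intro hden
  have hnum : ¬ (q : ℤ) ∣ r.num := by
    intro hnum
    have h1 : (q : ℤ) ∣ Int.gcd r.num r.den := Int.dvd_coe_gcd hnum hden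
    have h2 : Int.gcd r.num r.den = 1 := r.reduced
    rw [h2] at h1
    have := Int.le_of_dvd one_pos h1
    have hq2 := hq.two_le
    omega
  have hva : A.valuation ((r.num : ℤ) : L) = 1 := valuation_intCast_eq_one A hq hA hnum
  have hvb : A.valuation (((r.den : ℤ)) : L) < 1 := valuation_intCast_lt_one A hA hden
  have hb0 : (((r.den : ℤ)) : L) ≠ 0 := by
    have := r.den_ne_zero
    exact_mod_cast this
  have hr' : (r : L) * ((r.den : ℤ) : L) = ((r.num : ℤ) : L) := by
    have : (r : L) = (r.num : L) / (r.den : L) := Rat.cast_def r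
    rw [this]
    push_cast
    field_simp
  have := congrArg A.valuation hr'
  rw [map_mul, hva] at this
  have hlt : A.valuation (r : L) * A.valuation (((r.den : ℤ)) : L) < 1 := by
    rw [mul_comm]
    exact mul_lt_one_of_lt_of_le hvb hr
  rw [this] at hlt
  exact lt_irrefl _ hlt

include hq hA in
theorem valuation_ratCast {r : ℚ} (hr : A.valuation (r : L) ≤ 1) :
    A.valuation (r : L) = A.valuation ((r.num : ℤ) : L) := by
  have hden := not_dvd_den A hq hA hr
  have hvb : A.valuation (((r.den : ℤ)) : L) = 1 := valuation_intCast_eq_one A hq hA hden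
  have hr' : (r : L) * ((r.den : ℤ) : L) = ((r.num : ℤ) : L) := by
    have : (r : L) = (r.num : L) / (r.den : L) := Rat.cast_def r
    have hb0 : ((r.den : L)) ≠ 0 := by
      have := r.den_ne_zero
      exact_mod_cast this
    rw [this]
    push_cast
    field_simp
  have := congrArg A.valuation hr'
  rwa [map_mul, hvb, mul_one] at this

include hq hA in
/-- a rational number which is a unit of `A` has `q`-adic valuation `0`. -/
theorem padicValRat_eq_zero_of_valuation_eq_one {r : ℚ} (hr : A.valuation (r : L) = 1) :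
    padicValRat q r = 0 := by
  have hden := not_dvd_den A hq hA hr.le
  have hnum : ¬ (q : ℤ) ∣ r.num := by
    intro hnum
    have := valuation_intCast_lt_one (L := L) A hA hnum
    rw [← valuation_ratCast A hq hA hr.le, hr] at this
    exact lt_irrefl _ this
  have : Fact q.Prime := ⟨hq⟩
  rw [padicValRat, padicValInt.eq_zero_of_not_dvd hnum,
    padicValNat.eq_zero_of_not_dvd (by exact_mod_cast hden)]
  simp

include hq hA in
/-- a rational number in the maximal ideal of `A` is `q` times a rational number of `A`. -/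
theorem exists_eq_mul_of_valuation_lt_one {r : ℚ} (hr : A.valuation (r : L) < 1) :
    ∃ r' : ℚ, r = q * r' ∧ A.valuation (r' : L) ≤ 1 := by
  have hden := not_dvd_den A hq hA hr.le
  have hnum : (q : ℤ) ∣ r.num := by
    by_contra hnum
    have := valuation_intCast_eq_one (L := L) A hq hA hnum
    rw [← valuation_ratCast A hq hA hr.le] at this
    rw [this] at hr
    exact lt_irrefl _ hr
  obtain ⟨a', ha'⟩ := hnum
  have hb0 : (r.den : ℚ) ≠ 0 := by exact_mod_cast r.den_ne_zero
  refine ⟨(a' : ℚ) / r.den, ?_, ?_⟩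
  · conv_lhs => rw [← Rat.num_div_den r, ha']
    push_cast
    ring
  · have hvb : A.valuation (((r.den : ℤ)) : L) = 1 := valuation_intCast_eq_one A hq hA hden
    have : (((a' : ℚ) / r.den : ℚ) : L) = (a' : L) / ((r.den : ℤ) : L) := by push_cast; rfl
    rw [this, map_div₀, hvb, div_one]
    exact valuation_intCast_le_one A a'

end Rat

section Local

open IsLocalRing Fermat.Agent.Lib.EC.ReductionTorsion

variable {L : Type*} [Field L] (A : ValuationSubring L)

theorem mem_of_eq_subtype {x : L} (y : A) (h : x = A.subtype y) : x ∈ A := h ▸ y.2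

/-- in a valuation ring, a product of two integral elements which is a unit has unit factors. -/
theorem valuation_eq_one_of_mul {a b : L} (ha : A.valuation a ≤ 1) (hb : A.valuation b ≤ 1)
    (hab : A.valuation (a * b) = 1) : A.valuation a = 1 ∧ A.valuation b = 1 := by
  rw [map_mul] at hab
  constructor
  · apply le_antisymm ha
    rw [← hab]
    calc A.valuation a * A.valuation b ≤ A.valuation a * 1 := by gcongr
      _ = A.valuation a := mul_one _
  · apply le_antisymm hb
    rw [← hab]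
    calc A.valuation a * A.valuation b ≤ 1 * A.valuation b := by gcongr
      _ = A.valuation b := one_mul _

theorem wf1_mem {z w : L} (hz : z ∈ A) (hw : w ∈ A) : wf1 z w ∈ A := by
  lift z to A using hz
  lift w to A using hw
  refine mem_of_eq_subtype A (z * ((z ^ 5) ^ 2 + 66 * z ^ 5 * w ^ 5 - 11 * (w ^ 5) ^ 2)) ?_
  unfold wf1
  simp only [map_mul, map_add, map_sub, map_pow, map_ofNat, ValuationSubring.subtype_apply]

theorem wf2_mem {z w : L} (hz : z ∈ A) (hw : w ∈ A) : wf2 z w ∈ A := by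
  lift z to A using hz
  lift w to A using hw
  refine mem_of_eq_subtype A (-w * (11 * (z ^ 5) ^ 2 + 66 * z ^ 5 * w ^ 5 - (w ^ 5) ^ 2)) ?_
  unfold wf2
  simp only [map_mul, map_add, map_sub, map_pow, map_neg, map_ofNat,
    ValuationSubring.subtype_apply]

theorem gF_mem {a b : L} (ha : a ∈ A) (hb : b ∈ A) : gF a b ∈ A := by
  lift a to A using ha
  lift b to A using hb
  refine mem_of_eq_subtype A (-b^2 + 11*a*b + a^2) ?_
  unfold gF
  simp only [map_mul, map_add, map_pow, map_neg, map_ofNat, ValuationSubring.subtype_apply]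

theorem det_identity (z w : L) : z * wf2 z w - w * wf1 z w = -12 * fF z w := by
  unfold wf1 wf2 fF gF
  ring

theorem wf1_smul (c z w : L) : wf1 (c * z) (c * w) = c ^ 11 * wf1 z w := by
  unfold wf1; ring

theorem wf2_smul (c z w : L) : wf2 (c * z) (c * w) = c ^ 11 * wf2 z w := by
  unfold wf2; ring

theorem map_wf1 {M F : Type*} [Field M] [FunLike F L M] [RingHomClass F L M] (φ : F) (z w : L) :
    φ (wf1 z w) = wf1 (φ z) (φ w) := by
  unfold wf1
  simp only [map_mul, map_add, map_sub, map_pow, map_ofNat]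

theorem map_wf2 {M F : Type*} [Field M] [FunLike F L M] [RingHomClass F L M] (φ : F) (z w : L) :
    φ (wf2 z w) = wf2 (φ z) (φ w) := by
  unfold wf2
  simp only [map_mul, map_add, map_sub, map_pow, map_neg, map_ofNat]

/-- (F1) if `f(z, w)` is a unit then so are `z` and `w`. -/
theorem units_of_fF {z w : L} (hz : z ∈ A) (hw : w ∈ A) (hf : A.valuation (fF z w) = 1) :
    A.valuation z = 1 ∧ A.valuation w = 1 := by
  have hg : gF (z ^ 5) (w ^ 5) ∈ A := gF_mem A (pow_mem hz 5) (pow_mem hw 5)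
  have h1 : fF z w = z * (w * gF (z ^ 5) (w ^ 5)) := by unfold fF; ring
  rw [h1] at hf
  obtain ⟨h2, h3⟩ := valuation_eq_one_of_mul A ((A.valuation_le_one_iff _).2 hz)
    ((A.valuation_le_one_iff _).2 (mul_mem hw hg)) hf
  exact ⟨h2, (valuation_eq_one_of_mul A ((A.valuation_le_one_iff _).2 hw)
    ((A.valuation_le_one_iff _).2 hg) h3).1⟩

/-- (F7a) at a cusp `Z ≡ 0`, `W` a unit: `v(f(Z, W)) = v(Z)`. -/
theorem valuation_fF_of_cusp {Z W : L} (hZ : A.valuation Z < 1) (hW : A.valuation W = 1) :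
    A.valuation (fF Z W) = A.valuation Z := by
  have hZm : Z ∈ A := (A.valuation_le_one_iff _).1 hZ.le
  have hWm : W ∈ A := (A.valuation_le_one_iff _).1 hW.le
  have hg : gF (Z ^ 5) (W ^ 5) = -W ^ 10 + Z * (Z ^ 4 * (11 * W ^ 5 + Z ^ 5)) := by
    unfold gF; ring
  have hE : Z ^ 4 * (11 * W ^ 5 + Z ^ 5) ∈ A := by
    lift Z to A using hZm
    lift W to A using hWm
    refine mem_of_eq_subtype A (Z ^ 4 * (11 * W ^ 5 + Z ^ 5)) ?_
    simp only [map_mul, map_add, map_pow, map_ofNat, ValuationSubring.subtype_apply]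
  have h1 : A.valuation (Z * (Z ^ 4 * (11 * W ^ 5 + Z ^ 5))) < 1 := by
    rw [map_mul]
    exact mul_lt_one_of_lt_of_le hZ ((A.valuation_le_one_iff _).2 hE)
  have h2 : A.valuation (-W ^ 10) = 1 := by rw [Valuation.map_neg, map_pow, hW, one_pow]
  have h3 : A.valuation (gF (Z ^ 5) (W ^ 5)) = 1 := by
    rw [hg, Valuation.map_add_eq_of_lt_left _ (by rw [h2]; exact h1), h2]
  unfold fF
  rw [map_mul, map_mul, hW, h3, mul_one, mul_one]

/-- (F7b) at a cusp `Z ≡ 0`: `T(Z, W) ≡ W ^ 30`. -/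
theorem valuation_TF_sub_of_cusp {Z W : L} (hZ : A.valuation Z < 1) (hWm : W ∈ A) :
    A.valuation (TF Z W - W ^ 30) < 1 := by
  have hZm : Z ∈ A := (A.valuation_le_one_iff _).1 hZ.le
  have h : TF Z W - W ^ 30 = Z * (Z ^ 4 * (-522 * W ^ 25 - 10005 * Z ^ 5 * W ^ 20
      - 10005 * Z ^ 15 * W ^ 10 + 522 * Z ^ 20 * W ^ 5 + Z ^ 25)) := by
    unfold TF tF; ring
  have hE : Z ^ 4 * (-522 * W ^ 25 - 10005 * Z ^ 5 * W ^ 20
      - 10005 * Z ^ 15 * W ^ 10 + 522 * Z ^ 20 * W ^ 5 + Z ^ 25) ∈ A := by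
    lift Z to A using hZm
    lift W to A using hWm
    refine mem_of_eq_subtype A (Z ^ 4 * (-522 * W ^ 25 - 10005 * Z ^ 5 * W ^ 20
      - 10005 * Z ^ 15 * W ^ 10 + 522 * Z ^ 20 * W ^ 5 + Z ^ 25)) ?_
    simp only [map_mul, map_add, map_sub, map_neg, map_pow, map_ofNat,
      ValuationSubring.subtype_apply]
  rw [h, map_mul]
  exact mul_lt_one_of_lt_of_le hZ ((A.valuation_le_one_iff _).2 hE)

/-- (F6) if `Z ≡ 0` and `det (v₀, (Z, W))` is a unit then `W` is a unit. -/
theorem valuation_eq_one_of_det {z0 w0 Z W d : L} (hz0 : z0 ∈ A) (hw0 : w0 ∈ A) (hW : W ∈ A)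
    (hZ : A.valuation Z < 1) (hdet : z0 * W - w0 * Z = d) (hd : A.valuation d = 1) :
    A.valuation W = 1 := by
  by_contra hne
  have hW' : A.valuation W < 1 := lt_of_le_of_ne ((A.valuation_le_one_iff _).2 hW) hne
  have : A.valuation d < 1 := by
    rw [← hdet]
    refine lt_of_le_of_lt (Valuation.map_sub _ _ _) (max_lt ?_ ?_)
    · rw [map_mul, mul_comm]
      exact mul_lt_one_of_lt_of_le hW' ((A.valuation_le_one_iff _).2 hz0)
    · rw [map_mul, mul_comm]
      exact mul_lt_one_of_lt_of_le hZ ((A.valuation_le_one_iff _).2 hw0)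
  rw [hd] at this
  exact lt_irrefl _ this


section Frob

variable [Algebra ℚ L] {q : ℕ} [Fact q.Prime]

/-- (F5) an element of `A` fixed by a Frobenius lift is congruent to an integer. -/
theorem exists_int_add_lt_one (hA : A.LiesOverPrime q) {φ : L ≃ₐ[ℚ] L}
    (hφ : A.IsFrobeniusAt φ q) {ρ : L} (hρ : ρ ∈ A) (hφρ : φ ρ = ρ) :
    ∃ s0 : ℤ, A.valuation ((s0 : L) + ρ) < 1 := by
  have : CharP (ResidueField A) q := charP_residueField A Fact.out hA
  let _ := ZMod.algebra (ResidueField A) q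
  have hφρm : φ ρ ∈ A := (frob_mem_iff A hφ).2 hρ
  have h1 := residue_frob A hφ hρ hφρm
  have h2 : (⟨φ ρ, hφρm⟩ : A) = ⟨ρ, hρ⟩ := Subtype.ext hφρ
  rw [h2] at h1
  obtain ⟨α, hα⟩ := Fermat.Agent.Lib.EC.FrobCharEq.exists_algebraMap_of_pow_eq h1.symm
  refine ⟨-(α.val : ℤ), ?_⟩
  have h3 : ((-(α.val : ℤ) : ℤ) : L) + ρ = (((-(α.val : ℤ) : ℤ) : A) + ⟨ρ, hρ⟩ : A) := by
    push_cast
    rfl
  rw [h3, ← A.valuation_lt_one_iff, ← residue_eq_zero_iff, map_add, hα, map_intCast]
  have h4 : ((α.val : ℕ) : ZMod q) = α := ZMod.natCast_zmod_val α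
  have h5 : algebraMap (ZMod q) (ResidueField A) α = ((α.val : ℕ) : ResidueField A) := by
    conv_lhs => rw [← h4]
    rw [map_natCast]
  rw [h5]
  push_cast
  ring

end Frob


section Main

variable [CharZero L] [Algebra ℚ L] {q : ℕ} [Fact q.Prime]

theorem not_dvd_twelve (hq5 : 5 ≤ q) : ¬ (q : ℤ) ∣ 12 := by
  intro h
  have hp : q.Prime := Fact.out
  have h1 : q ∣ 12 := Int.natCast_dvd_natCast.1 (by exact_mod_cast h)
  have h2 := Nat.le_of_dvd (by norm_num) h1
  interval_cases q <;> first | omega | (norm_num at hp)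

/-- (K) the local picture at a point of the family close to the cusp `z = 0`. -/
theorem cusp_key (hq5 : 5 ≤ q) (hA : A.LiesOverPrime q) {z0 w0 : L} (hz0 : z0 ∈ A)
    (hw0 : w0 ∈ A) (hf0 : A.valuation (fF z0 w0) = 1) {s t : ℤ} (ht : ¬ (q : ℤ) ∣ t)
    (hs : A.valuation ((s : L) + t * (wf1 z0 w0 / z0)) < 1) :
    A.valuation ((s : L) * w0 + t * wf2 z0 w0) = 1 ∧
    A.valuation (fF (s * z0 + t * wf1 z0 w0) (s * w0 + t * wf2 z0 w0) / fF z0 w0)
      = A.valuation ((s : L) + t * (wf1 z0 w0 / z0)) ∧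
    A.valuation (TF (s * z0 + t * wf1 z0 w0) (s * w0 + t * wf2 z0 w0)
      - (s * w0 + t * wf2 z0 w0) ^ 30) < 1 := by
  have hq : q.Prime := Fact.out
  obtain ⟨hz0u, hw0u⟩ := units_of_fF A hz0 hw0 hf0
  have hz0ne : z0 ≠ 0 := by
    rintro rfl
    simp at hz0u
  have hz1 : wf1 z0 w0 ∈ A := wf1_mem A hz0 hw0
  have hw1 : wf2 z0 w0 ∈ A := wf2_mem A hz0 hw0
  have hZeq : (s : L) * z0 + t * wf1 z0 w0 = z0 * ((s : L) + t * (wf1 z0 w0 / z0)) := by
    field_simp
  have hZv : A.valuation ((s : L) * z0 + t * wf1 z0 w0)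
      = A.valuation ((s : L) + t * (wf1 z0 w0 / z0)) := by
    rw [hZeq, map_mul, hz0u, one_mul]
  have hZlt : A.valuation ((s : L) * z0 + t * wf1 z0 w0) < 1 := hZv ▸ hs
  have hsm : (s : L) ∈ A := (A.valuation_le_one_iff _).1 (valuation_intCast_le_one A s)
  have htm : (t : L) ∈ A := (A.valuation_le_one_iff _).1 (valuation_intCast_le_one A t)
  have hWm : (s : L) * w0 + t * wf2 z0 w0 ∈ A := add_mem (mul_mem hsm hw0) (mul_mem htm hw1)
  have hdet : z0 * ((s : L) * w0 + t * wf2 z0 w0) - w0 * ((s : L) * z0 + t * wf1 z0 w0)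
      = t * (-12 * fF z0 w0) := by
    have := det_identity z0 w0
    linear_combination (t : L) * this
  have h12 : A.valuation (-12 : L) = 1 := by
    rw [Valuation.map_neg]
    have : (12 : L) = ((12 : ℤ) : L) := by norm_num
    rw [this]
    exact valuation_intCast_eq_one A hq hA (not_dvd_twelve hq5)
  have hd : A.valuation ((t : L) * (-12 * fF z0 w0)) = 1 := by
    rw [map_mul, map_mul, valuation_intCast_eq_one A hq hA ht, h12, hf0, one_mul, one_mul]
  have hWu := valuation_eq_one_of_det A hz0 hw0 hWm hZlt hdet hd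
  refine ⟨hWu, ?_, valuation_TF_sub_of_cusp A hZlt hWm⟩
  rw [map_div₀, hf0, div_one, valuation_fF_of_cusp A hZlt hWu, hZv]

/-- **C2c (the cusp).**  Let `q ≥ 5` be a prime, `A` a valuation subring of `L` over `q`, `φ` a
Frobenius lift at `A` with `φ v₀ = -ω v₀` (`ω ∈ μ₅`) where `v₀ = (z₀, w₀)` is `A`-integral with
`f(v₀)` a unit, and let `v₁ = (wf1 v₀, wf2 v₀)`.  If the normalised values `f(s v₀ + v₁)/f(v₀)` are
rational, there is a residue class `s⋆` modulo `q²` such that for all integers `s ≡ s⋆`, `t ≡ 1`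
modulo `q²`, with `v = s v₀ + t v₁`: every integer equal to `T(v)` is a non-square modulo `q`, and
every rational number equal to `f(v)/f(v₀)` has `q`-adic valuation exactly `1`. -/
theorem cusp (hq5 : 5 ≤ q) (hA : A.LiesOverPrime q) {φ : L ≃ₐ[ℚ] L}
    (hφ : A.IsFrobeniusAt φ q) {z0 w0 ω : L} (hz0 : z0 ∈ A) (hw0 : w0 ∈ A)
    (hf0 : A.valuation (fF z0 w0) = 1) (hω : ω ^ 5 = 1) (hφz : φ z0 = -ω * z0)
    (hφw : φ w0 = -ω * w0)
    (hrat : ∀ s : ℤ, ∃ r : ℚ,
      (r : L) = fF (s * z0 + wf1 z0 w0) (s * w0 + wf2 z0 w0) / fF z0 w0) :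
    ∃ s' : ℤ, ∀ s t : ℤ, s ≡ s' [ZMOD (q : ℤ) ^ 2] → t ≡ 1 [ZMOD (q : ℤ) ^ 2] →
      (∀ n : ℤ, (n : L) = TF (s * z0 + t * wf1 z0 w0) (s * w0 + t * wf2 z0 w0) →
        ¬ IsSquare ((n : ℤ) : ZMod q)) ∧
      (∀ r : ℚ, (r : L) = fF (s * z0 + t * wf1 z0 w0) (s * w0 + t * wf2 z0 w0) / fF z0 w0 →
        padicValRat q r = 1) := by
  have hq : q.Prime := Fact.out
  have hvq : A.valuation (q : L) < 1 := A.mem_nonunits_iff.1 hA
  have hq0 : (q : L) ≠ 0 := by exact_mod_cast hq.ne_zero
  have hvq0 : A.valuation (q : L) ≠ 0 := (A.valuation.ne_zero_iff).2 hq0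
  obtain ⟨hz0u, hw0u⟩ := units_of_fF A hz0 hw0 hf0
  have hz0ne : z0 ≠ 0 := by
    rintro rfl
    simp at hz0u
  have hz1 : wf1 z0 w0 ∈ A := wf1_mem A hz0 hw0
  have hw1 : wf2 z0 w0 ∈ A := wf2_mem A hz0 hw0
  -- the root of unity
  have hω0 : ω ≠ 0 := by
    rintro rfl
    norm_num at hω
  have hω10 : ω ^ 10 = 1 := by
    calc ω ^ 10 = (ω ^ 5) ^ 2 := by ring
      _ = 1 := by rw [hω, one_pow]
  have hωm : ω ∈ A := by
    rcases A.mem_or_inv_mem ω with h | h
    · exact h
    · have : ω = (ω⁻¹) ^ 4 := by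
        field_simp
        linear_combination hω
      rw [this]
      exact pow_mem h 4
  -- the Frobenius on `v₁`
  have h11 : (-ω) ^ 11 = -ω := by
    calc (-ω) ^ 11 = -(ω ^ 10 * ω) := by ring
      _ = -ω := by rw [hω10, one_mul]
  have hφz1 : φ (wf1 z0 w0) = -ω * wf1 z0 w0 := by
    rw [map_wf1, hφz, hφw, wf1_smul, h11]
  have hφw1 : φ (wf2 z0 w0) = -ω * wf2 z0 w0 := by
    rw [map_wf2, hφz, hφw, wf2_smul, h11]
  -- the slope
  set ρ : L := wf1 z0 w0 / z0 with hρdef
  have hρ : ρ ∈ A := by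
    rw [← A.valuation_le_one_iff, hρdef, map_div₀, hz0u, div_one]
    exact (A.valuation_le_one_iff _).2 hz1
  have hφρ : φ ρ = ρ := by
    rw [hρdef, map_div₀, hφz1, hφz]
    field_simp
  obtain ⟨s0, hs0⟩ := exists_int_add_lt_one A hA hφ hρ hφρ
  -- the exact valuation at `s0`
  have hone : ¬ (q : ℤ) ∣ 1 := by
    intro h
    have h1 : q ∣ 1 := Int.natCast_dvd_natCast.1 (by exact_mod_cast h)
    exact hq.one_lt.ne' (Nat.dvd_one.1 h1)
  have hK0 := cusp_key A hq5 hA hz0 hw0 hf0 (s := s0) (t := 1) hone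
    (by simpa only [Int.cast_one, one_mul] using hs0)
  simp only [Int.cast_one, one_mul] at hK0
  obtain ⟨r0, hr0⟩ := hrat s0
  have hr0v : A.valuation (r0 : L) = A.valuation ((s0 : L) + ρ) := by rw [hr0, hK0.2.1]
  obtain ⟨r0', hr0eq, hr0'⟩ := exists_eq_mul_of_valuation_lt_one A hq hA (hr0v ▸ hs0)
  have hs0v : A.valuation ((s0 : L) + ρ) = A.valuation (q : L) * A.valuation (r0' : L) := by
    rw [← hr0v, hr0eq]
    push_cast
    rw [map_mul]
  obtain ⟨s', hs'⟩ : ∃ s' : ℤ, A.valuation ((s' : L) + ρ) = A.valuation (q : L) := by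
    by_cases h1 : A.valuation (r0' : L) = 1
    · exact ⟨s0, by rw [hs0v, h1, mul_one]⟩
    · have hlt : A.valuation (r0' : L) < 1 := lt_of_le_of_ne hr0' h1
      have hlt' : A.valuation ((s0 : L) + ρ) < A.valuation (q : L) := by
        rw [hs0v]
        calc A.valuation (q : L) * A.valuation (r0' : L) < A.valuation (q : L) * 1 :=
              mul_lt_mul_of_pos_left hlt (zero_lt_iff.2 hvq0)
          _ = A.valuation (q : L) := mul_one _
      refine ⟨s0 + q, ?_⟩
      have : ((s0 + q : ℤ) : L) + ρ = (q : L) + ((s0 : L) + ρ) := by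
        push_cast
        ring
      rw [this, Valuation.map_add_eq_of_lt_left _ hlt']
  refine ⟨s', fun s t hs ht => ?_⟩
  obtain ⟨a, ha⟩ := Int.modEq_iff_dvd.1 hs.symm
  obtain ⟨b, hb⟩ := Int.modEq_iff_dvd.1 ht.symm
  have hsL : (s : L) = s' + (q : L) ^ 2 * a := by
    have := congrArg (Int.cast : ℤ → L) ha
    push_cast at this
    linear_combination this
  have htL : (t : L) = 1 + (q : L) ^ 2 * b := by
    have := congrArg (Int.cast : ℤ → L) hb
    push_cast at this
    linear_combination this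
  have htq : ¬ (q : ℤ) ∣ t := by
    intro h
    apply hone
    have h2 : (q : ℤ) ∣ t - 1 := ⟨q * b, by rw [hb]; ring⟩
    have := dvd_sub h h2
    simpa using this
  have habm : (a : L) + b * ρ ∈ A :=
    add_mem ((A.valuation_le_one_iff _).1 (valuation_intCast_le_one A a))
      (mul_mem ((A.valuation_le_one_iff _).1 (valuation_intCast_le_one A b)) hρ)
  have hst : A.valuation ((s : L) + t * ρ) = A.valuation (q : L) := by
    have h1 : (s : L) + t * ρ = ((s' : L) + ρ) + (q : L) ^ 2 * ((a : L) + b * ρ) := by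
      rw [hsL, htL]
      ring
    have h2 : A.valuation ((q : L) ^ 2 * ((a : L) + b * ρ)) < A.valuation ((s' : L) + ρ) := by
      rw [hs', map_mul, map_pow]
      calc A.valuation (q : L) ^ 2 * A.valuation ((a : L) + b * ρ)
          ≤ A.valuation (q : L) ^ 2 * 1 := by
            gcongr
            exact (A.valuation_le_one_iff _).2 habm
        _ = A.valuation (q : L) * A.valuation (q : L) := by rw [mul_one, sq]
        _ < A.valuation (q : L) * 1 := mul_lt_mul_of_pos_left hvq (zero_lt_iff.2 hvq0)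
        _ = A.valuation (q : L) := mul_one _
    rw [h1, Valuation.map_add_eq_of_lt_left _ h2, hs']
  obtain ⟨hWu, hfv, hTv⟩ := cusp_key A hq5 hA hz0 hw0 hf0 htq (hst ▸ hvq)
  constructor
  · -- the non-square
    intro n hn
    have : CharP (ResidueField A) q := charP_residueField A hq hA
    have hWm : (s : L) * w0 + t * wf2 z0 w0 ∈ A := (A.valuation_le_one_iff _).1 hWu.le
    have hx : residue A ⟨_, hWm⟩ ≠ 0 := by
      intro h
      rw [residue_eq_zero_iff, A.valuation_lt_one_iff] at h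
      exact lt_irrefl _ (hWu ▸ h)
    have hωbar : (residue A ⟨ω, hωm⟩) ^ 5 = 1 := by
      rw [← map_pow]
      have : (⟨ω, hωm⟩ : A) ^ 5 = 1 := Subtype.ext (by push_cast; exact hω)
      rw [this, map_one]
    have hφW : φ ((s : L) * w0 + t * wf2 z0 w0) = -ω * ((s : L) * w0 + t * wf2 z0 w0) := by
      rw [map_add, map_mul, map_mul, map_intCast, map_intCast, hφw, hφw1]
      ring
    have hφWm : φ ((s : L) * w0 + t * wf2 z0 w0) ∈ A := (frob_mem_iff A hφ).2 hWm
    have hfrob : (residue A ⟨_, hWm⟩) ^ q = -(residue A ⟨ω, hωm⟩) * residue A ⟨_, hWm⟩ := by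
      rw [← residue_frob A hφ hWm hφWm, ← map_neg, ← map_mul]
      congr 1
      exact Subtype.ext hφW
    have hn' : ((n : ℤ) : ResidueField A) = (residue A ⟨_, hWm⟩) ^ 30 := by
      have h0 : residue A ((n : A) - ⟨_, hWm⟩ ^ 30) = 0 := by
        rw [residue_eq_zero_iff, A.valuation_lt_one_iff]
        push_cast
        rw [hn]
        exact hTv
      rw [map_sub, map_intCast, map_pow, sub_eq_zero] at h0
      exact h0
    have hq2 : q ≠ 2 := by omega
    exact not_isSquare_of_pow_eq hq2 hx hωbar hfrob hn'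
  · -- the exact valuation
    intro r hr
    have hvr : A.valuation (r : L) = A.valuation (q : L) := by rw [hr, hfv, hst]
    have hr0 : r ≠ 0 := by
      rintro rfl
      rw [Rat.cast_zero, map_zero] at hvr
      exact hvq0 hvr.symm
    have hqQ : (q : ℚ) ≠ 0 := by exact_mod_cast hq.ne_zero
    have hr' : A.valuation (((r / q : ℚ)) : L) = 1 := by
      push_cast
      rw [map_div₀, hvr, div_self hvq0]
    have h0 := padicValRat_eq_zero_of_valuation_eq_one A hq hA hr'
    have hmul : r = (q : ℚ) * (r / q) := by field_simp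
    have hne : r / q ≠ 0 := div_ne_zero hr0 hqQ
    rw [hmul, padicValRat.mul hqQ hne, h0, padicValRat.self hq.one_lt, add_zero]

end Main

end Local

section Bridge

open Fermat.Agent.S52.Param

variable {K : Type*} [Field K]

theorem kf_eq_fF (z w : K) : kf z w = fF z w := by unfold kf fF gF; ring

theorem kH_eq_HF (z w : K) : kH z w = HF z w := by unfold kH HF hF; ring

theorem kT_eq_TF (z w : K) : kT z w = TF z w := by unfold kT TF tF; ring

theorem cov1_eq_wf1 (z w : K) : cov1 z w = wf1 z w := by unfold cov1 wf1; ring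

theorem cov2_eq_wf2 (z w : K) : cov2 z w = wf2 z w := by unfold cov2 wf2; ring

variable {L : Type*} [Field L] (A : ValuationSubring L) [CharZero L] [Algebra ℚ L] {q : ℕ}
  [Fact q.Prime]

/-- `cusp` on the names of `Param.lean`. -/
theorem cusp_param (hq5 : 5 ≤ q) (hA : A.LiesOverPrime q) {φ : L ≃ₐ[ℚ] L}
    (hφ : A.IsFrobeniusAt φ q) {z0 w0 ω : L} (hz0 : z0 ∈ A) (hw0 : w0 ∈ A)
    (hf0 : A.valuation (kf z0 w0) = 1) (hω : ω ^ 5 = 1) (hφz : φ z0 = -ω * z0)
    (hφw : φ w0 = -ω * w0)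
    (hrat : ∀ s : ℤ, ∃ r : ℚ,
      (r : L) = kf (s * z0 + cov1 z0 w0) (s * w0 + cov2 z0 w0) / kf z0 w0) :
    ∃ s' : ℤ, ∀ s t : ℤ, s ≡ s' [ZMOD (q : ℤ) ^ 2] → t ≡ 1 [ZMOD (q : ℤ) ^ 2] →
      (∀ n : ℤ, (n : L) = kT (s * z0 + t * cov1 z0 w0) (s * w0 + t * cov2 z0 w0) →
        ¬ IsSquare ((n : ℤ) : ZMod q)) ∧
      (∀ r : ℚ, (r : L) = kf (s * z0 + t * cov1 z0 w0) (s * w0 + t * cov2 z0 w0) / kf z0 w0 →
        padicValRat q r = 1) := by
  simp only [kf_eq_fF, kT_eq_TF, cov1_eq_wf1, cov2_eq_wf2] at hf0 hrat ⊢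
  exact cusp A hq5 hA hφ hz0 hw0 hf0 hω hφz hφw hrat

end Bridge


end Fermat.Agent.S52.Cusp
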