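import Mathlib
import Fermat.Agent.S52.Param
import Fermat.Agent.S52.FamilyDescent

/-!
helper51 (P-ELL / S52, package A3 `Family`).  The twisted family `v(s, t) = s v₀ + t v₁`,
`v₁ = (∂f/∂w, -∂f/∂z)(v₀)`, hypothesis-style on the names of `Param.lean` (helper9).

* `KleinAdm a b c d`: the matrix `!![a, b; c, d]` leaves `kH`, `kT` invariant, `kf` invariant up to a
  constant and commutes with the covariant `(cov1, cov2)`.  Closed under products
  (`KleinAdm.mul`), contains the scalars `c` with `c ^ 10 = 1` (`KleinAdm.scalar`) and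
  `diag(ζ³, ζ²)`, `ζ ^ 5 = 1` (`KleinAdm.diag`).
* `GalKlein z₀ w₀`: the expected output of A2: every `σ ∈ Gal(ℚ̄/ℚ)` acts on `v₀ = (z₀, w₀)` by
  an admissible matrix.
* `galois_family`: then `σ` acts on every `v(s, t)`, `s t : ℚ`, by the **same** matrix.
* `exists_int_forms`: there are `D ≠ 0` and `Q₄ Q₆ Q_f ∈ ℤ[s, t]` with
  `D * kH (v(s,t)) = Q₄(s,t)`, `D * kT (v(s,t)) = Q₆(s,t)`, `D * kf (v(s,t)) = kf v₀ * Q_f(s,t)`.
-/

set_option autoImplicit false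

open MvPolynomial

namespace Fermat.Agent.S52.Family

open Fermat.Agent.S52.Param Fermat.Agent.S52.FamilyDescent

/-! ### Ring-generic forms -/

section generic

variable {R S : Type*} [CommRing R] [CommRing S]

/-- `kf` over a commutative ring. -/
def rf (z w : R) : R := z * w * (z ^ 10 + 11 * z ^ 5 * w ^ 5 - w ^ 10)

/-- `kH` over a commutative ring. -/
def rH (z w : R) : R :=
  -(z ^ 20 + w ^ 20) + 228 * (z ^ 15 * w ^ 5 - z ^ 5 * w ^ 15) - 494 * z ^ 10 * w ^ 10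

/-- `kT` over a commutative ring. -/
def rT (z w : R) : R :=
  (z ^ 30 + w ^ 30) + 522 * (z ^ 25 * w ^ 5 - z ^ 5 * w ^ 25)
    - 10005 * (z ^ 20 * w ^ 10 + z ^ 10 * w ^ 20)

/-- `cov1` over a commutative ring. -/
def rc1 (z w : R) : R := z ^ 11 + 66 * z ^ 6 * w ^ 5 - 11 * z * w ^ 10

/-- `cov2` over a commutative ring. -/
def rc2 (z w : R) : R := -(11 * z ^ 10 * w) - 66 * z ^ 5 * w ^ 6 + w ^ 11

theorem map_rf (φ : R →+* S) (z w : R) : φ (rf z w) = rf (φ z) (φ w) := by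
  simp only [rf, map_mul, map_add, map_sub, map_pow, map_ofNat]

theorem map_rH (φ : R →+* S) (z w : R) : φ (rH z w) = rH (φ z) (φ w) := by
  simp only [rH, map_mul, map_add, map_sub, map_neg, map_pow, map_ofNat]

theorem map_rT (φ : R →+* S) (z w : R) : φ (rT z w) = rT (φ z) (φ w) := by
  simp only [rT, map_mul, map_add, map_sub, map_pow, map_ofNat]

theorem map_rc1 (φ : R →+* S) (z w : R) : φ (rc1 z w) = rc1 (φ z) (φ w) := by
  simp only [rc1, map_mul, map_add, map_sub, map_pow, map_ofNat]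

theorem map_rc2 (φ : R →+* S) (z w : R) : φ (rc2 z w) = rc2 (φ z) (φ w) := by
  simp only [rc2, map_mul, map_add, map_sub, map_neg, map_pow, map_ofNat]

end generic

section field

variable {K : Type*} [Field K]

theorem rf_eq (z w : K) : rf z w = kf z w := rfl
theorem rH_eq (z w : K) : rH z w = kH z w := rfl
theorem rT_eq (z w : K) : rT z w = kT z w := rfl
theorem rc1_eq (z w : K) : rc1 z w = cov1 z w := rfl
theorem rc2_eq (z w : K) : rc2 z w = cov2 z w := rfl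

/-! ### Admissible matrices -/

/-- The matrix `!![a, b; c, d]` is a symmetry of Klein's forms compatible with the gradient
covariant. -/
structure KleinAdm (a b c d : K) : Prop where
  kH_eq : ∀ z w : K, kH (a * z + b * w) (c * z + d * w) = kH z w
  kT_eq : ∀ z w : K, kT (a * z + b * w) (c * z + d * w) = kT z w
  kf_eq : ∃ ε : K, ∀ z w : K, kf (a * z + b * w) (c * z + d * w) = ε * kf z w
  cov1_eq : ∀ z w : K,
    cov1 (a * z + b * w) (c * z + d * w) = a * cov1 z w + b * cov2 z w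
  cov2_eq : ∀ z w : K,
    cov2 (a * z + b * w) (c * z + d * w) = c * cov1 z w + d * cov2 z w

theorem KleinAdm.one : KleinAdm (1 : K) 0 0 1 where
  kH_eq z w := by simp
  kT_eq z w := by simp
  kf_eq := ⟨1, fun z w => by simp⟩
  cov1_eq z w := by simp
  cov2_eq z w := by simp

/-- Admissible matrices are closed under products. -/
theorem KleinAdm.mul {a b c d a' b' c' d' : K} (h : KleinAdm a b c d)
    (h' : KleinAdm a' b' c' d') :
    KleinAdm (a * a' + b * c') (a * b' + b * d') (c * a' + d * c') (c * b' + d * d') := by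
  have e1 : ∀ z w : K, (a * a' + b * c') * z + (a * b' + b * d') * w =
      a * (a' * z + b' * w) + b * (c' * z + d' * w) := fun z w => by ring
  have e2 : ∀ z w : K, (c * a' + d * c') * z + (c * b' + d * d') * w =
      c * (a' * z + b' * w) + d * (c' * z + d' * w) := fun z w => by ring
  obtain ⟨ε, hε⟩ := h.kf_eq
  obtain ⟨ε', hε'⟩ := h'.kf_eq
  refine ⟨fun z w => ?_, fun z w => ?_, ⟨ε * ε', fun z w => ?_⟩, fun z w => ?_, fun z w => ?_⟩
  · rw [e1, e2, h.kH_eq, h'.kH_eq]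
  · rw [e1, e2, h.kT_eq, h'.kT_eq]
  · rw [e1, e2, hε, hε', mul_assoc]
  · rw [e1, e2, h.cov1_eq, h'.cov1_eq, h'.cov2_eq]
    ring
  · rw [e1, e2, h.cov2_eq, h'.cov1_eq, h'.cov2_eq]
    ring

/-- Scalars in `μ₁₀` are admissible. -/
theorem KleinAdm.scalar {c : K} (hc : c ^ 10 = 1) : KleinAdm c 0 0 c := by
  have e1 : ∀ z w : K, c * z + 0 * w = c * z := fun z w => by ring
  have e2 : ∀ z w : K, 0 * z + c * w = c * w := fun z w => by ring
  refine ⟨fun z w => ?_, fun z w => ?_, ⟨c ^ 2, fun z w => ?_⟩, fun z w => ?_, fun z w => ?_⟩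
  · rw [e1, e2, kH_smul, show c ^ 20 = (c ^ 10) ^ 2 by ring, hc, one_pow, one_mul]
  · rw [e1, e2, kT_smul, show c ^ 30 = (c ^ 10) ^ 3 by ring, hc, one_pow, one_mul]
  · rw [e1, e2, kf_smul, show c ^ 12 = c ^ 10 * c ^ 2 by ring, hc, one_mul]
  · rw [e1, e2, (cov_scalar hc z w).1]
    ring
  · rw [e1, e2, (cov_scalar hc z w).2]
    ring

/-- `diag(ζ³, ζ²)` with `ζ ^ 5 = 1` is admissible. -/
theorem KleinAdm.diag {ζ : K} (hζ : ζ ^ 5 = 1) : KleinAdm (ζ ^ 3) 0 0 (ζ ^ 2) := by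
  have e1 : ∀ z w : K, ζ ^ 3 * z + 0 * w = ζ ^ 3 * z := fun z w => by ring
  have e2 : ∀ z w : K, 0 * z + ζ ^ 2 * w = ζ ^ 2 * w := fun z w => by ring
  have h10 : ζ ^ 10 = 1 := by rw [show ζ ^ 10 = (ζ ^ 5) ^ 2 by ring, hζ, one_pow]
  have h15 : ζ ^ 15 = 1 := by rw [show ζ ^ 15 = (ζ ^ 5) ^ 3 by ring, hζ, one_pow]
  have hz : ∀ z : K, (ζ ^ 3 * z) ^ 5 = z ^ 5 := fun z => by
    rw [mul_pow, ← pow_mul, h15, one_mul]
  have hw : ∀ w : K, (ζ ^ 2 * w) ^ 5 = w ^ 5 := fun w => by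
    rw [mul_pow, ← pow_mul, h10, one_mul]
  have hH : ∀ x y : K, kH x y = -((x ^ 5) ^ 4 + (y ^ 5) ^ 4) +
      228 * ((x ^ 5) ^ 3 * y ^ 5 - x ^ 5 * (y ^ 5) ^ 3) - 494 * (x ^ 5) ^ 2 * (y ^ 5) ^ 2 :=
    fun x y => by unfold kH; ring
  have hT : ∀ x y : K, kT x y = ((x ^ 5) ^ 6 + (y ^ 5) ^ 6) +
      522 * ((x ^ 5) ^ 5 * y ^ 5 - x ^ 5 * (y ^ 5) ^ 5) -
      10005 * ((x ^ 5) ^ 4 * (y ^ 5) ^ 2 + (x ^ 5) ^ 2 * (y ^ 5) ^ 4) :=
    fun x y => by unfold kT; ring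
  have hf : ∀ x y : K, kf x y = (x * y) * ((x ^ 5) ^ 2 + 11 * x ^ 5 * y ^ 5 - (y ^ 5) ^ 2) :=
    fun x y => by unfold kf; ring
  have hc1 : ∀ x y : K, cov1 x y = x * ((x ^ 5) ^ 2 + 66 * x ^ 5 * y ^ 5 - 11 * (y ^ 5) ^ 2) :=
    fun x y => by unfold cov1; ring
  have hc2 : ∀ x y : K, cov2 x y = y * (-(11 * (x ^ 5) ^ 2) - 66 * x ^ 5 * y ^ 5 + (y ^ 5) ^ 2) :=
    fun x y => by unfold cov2; ring
  have hzw : ∀ z w : K, ζ ^ 3 * z * (ζ ^ 2 * w) = z * w := fun z w => by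
    rw [show ζ ^ 3 * z * (ζ ^ 2 * w) = ζ ^ 5 * (z * w) by ring, hζ, one_mul]
  refine ⟨fun z w => ?_, fun z w => ?_, ⟨1, fun z w => ?_⟩, fun z w => ?_, fun z w => ?_⟩
  · rw [e1, e2, hH, hz, hw, ← hH]
  · rw [e1, e2, hT, hz, hw, ← hT]
  · rw [e1, e2, hf, hz, hw, hzw, ← hf, one_mul]
  · rw [e1, e2, hc1, hz, hw, hc1 z w]
    ring
  · rw [e1, e2, hc2, hz, hw, hc2 z w]
    ring

end field


/-! ### The family and the Galois action -/

section family

variable (z0 w0 : Qbar)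

/-- First coordinate of `v(s, t) = s v₀ + t v₁`. -/
noncomputable def vz (s t : Qbar) : Qbar := s * z0 + t * cov1 z0 w0

/-- Second coordinate of `v(s, t) = s v₀ + t v₁`. -/
noncomputable def vw (s t : Qbar) : Qbar := s * w0 + t * cov2 z0 w0

theorem vz_one_zero : vz z0 w0 1 0 = z0 := by simp [vz]

theorem vw_one_zero : vw z0 w0 1 0 = w0 := by simp [vw]

/-- The expected output of A2: every Galois automorphism acts on `v₀` by an admissible matrix. -/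
def GalKlein : Prop :=
  ∀ σ : Qbar ≃ₐ[ℚ] Qbar, ∃ a b c d : Qbar,
    σ z0 = a * z0 + b * w0 ∧ σ w0 = c * z0 + d * w0 ∧ KleinAdm a b c d

variable {z0 w0}

theorem algEquiv_cov1 (σ : Qbar ≃ₐ[ℚ] Qbar) (z w : Qbar) :
    σ (cov1 z w) = cov1 (σ z) (σ w) := map_rc1 (σ : Qbar →+* Qbar) z w

theorem algEquiv_cov2 (σ : Qbar ≃ₐ[ℚ] Qbar) (z w : Qbar) :
    σ (cov2 z w) = cov2 (σ z) (σ w) := map_rc2 (σ : Qbar →+* Qbar) z w

theorem algEquiv_kH (σ : Qbar ≃ₐ[ℚ] Qbar) (z w : Qbar) :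
    σ (kH z w) = kH (σ z) (σ w) := map_rH (σ : Qbar →+* Qbar) z w

theorem algEquiv_kT (σ : Qbar ≃ₐ[ℚ] Qbar) (z w : Qbar) :
    σ (kT z w) = kT (σ z) (σ w) := map_rT (σ : Qbar →+* Qbar) z w

theorem algEquiv_kf (σ : Qbar ≃ₐ[ℚ] Qbar) (z w : Qbar) :
    σ (kf z w) = kf (σ z) (σ w) := map_rf (σ : Qbar →+* Qbar) z w

/-- If `σ` acts on `v₀` by the admissible matrix `!![a, b; c, d]`, then it acts on every
`v(s, t)`, `s t : ℚ`, by the same matrix. -/
theorem galois_family {σ : Qbar ≃ₐ[ℚ] Qbar} {a b c d : Qbar}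
    (hz : σ z0 = a * z0 + b * w0) (hw : σ w0 = c * z0 + d * w0) (hadm : KleinAdm a b c d)
    (s t : ℚ) :
    σ (vz z0 w0 s t) = a * vz z0 w0 s t + b * vw z0 w0 s t ∧
      σ (vw z0 w0 s t) = c * vz z0 w0 s t + d * vw z0 w0 s t := by
  have hs : σ (s : Qbar) = s := map_ratCast σ s
  have ht : σ (t : Qbar) = t := map_ratCast σ t
  have h1 : σ (cov1 z0 w0) = a * cov1 z0 w0 + b * cov2 z0 w0 := by
    rw [algEquiv_cov1, hz, hw, hadm.cov1_eq]
  have h2 : σ (cov2 z0 w0) = c * cov1 z0 w0 + d * cov2 z0 w0 := by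
    rw [algEquiv_cov2, hz, hw, hadm.cov2_eq]
  constructor
  · simp only [vz, vw, map_add, map_mul, hs, ht, hz, h1]
    ring
  · simp only [vz, vw, map_add, map_mul, hs, ht, hw, h2]
    ring

/-- The values of `kH`, `kT` on the family at rational parameters are Galois-invariant, and those
of `kf` are multiplied by a constant independent of `(s, t)`. -/
theorem galois_forms {σ : Qbar ≃ₐ[ℚ] Qbar} {a b c d : Qbar}
    (hz : σ z0 = a * z0 + b * w0) (hw : σ w0 = c * z0 + d * w0) (hadm : KleinAdm a b c d) :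
    (∀ s t : ℚ, σ (kH (vz z0 w0 s t) (vw z0 w0 s t)) = kH (vz z0 w0 s t) (vw z0 w0 s t)) ∧
    (∀ s t : ℚ, σ (kT (vz z0 w0 s t) (vw z0 w0 s t)) = kT (vz z0 w0 s t) (vw z0 w0 s t)) ∧
    ∃ ε : Qbar, ∀ s t : ℚ,
      σ (kf (vz z0 w0 s t) (vw z0 w0 s t)) = ε * kf (vz z0 w0 s t) (vw z0 w0 s t) := by
  obtain ⟨ε, hε⟩ := hadm.kf_eq
  refine ⟨fun s t => ?_, fun s t => ?_, ⟨ε, fun s t => ?_⟩⟩
  · obtain ⟨h1, h2⟩ := galois_family hz hw hadm s t
    rw [algEquiv_kH, h1, h2, hadm.kH_eq]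
  · obtain ⟨h1, h2⟩ := galois_family hz hw hadm s t
    rw [algEquiv_kT, h1, h2, hadm.kT_eq]
  · obtain ⟨h1, h2⟩ := galois_family hz hw hadm s t
    rw [algEquiv_kf, h1, h2, hε]

end family

/-! ### Rationality: integer forms for `kH`, `kT`, `kf` on the family -/

section poly

variable (z0 w0 : Qbar)

/-- `vz` as a polynomial in `s = X 0`, `t = X 1`. -/
noncomputable def pz : MvPolynomial (Fin 2) Qbar := X 0 * C z0 + X 1 * C (cov1 z0 w0)

/-- `vw` as a polynomial in `s = X 0`, `t = X 1`. -/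
noncomputable def pw : MvPolynomial (Fin 2) Qbar := X 0 * C w0 + X 1 * C (cov2 z0 w0)

theorem eval_pz (x : Fin 2 → Qbar) : eval x (pz z0 w0) = vz z0 w0 (x 0) (x 1) := by
  simp [pz, vz]

theorem eval_pw (x : Fin 2 → Qbar) : eval x (pw z0 w0) = vw z0 w0 (x 0) (x 1) := by
  simp [pw, vw]

theorem eval_rH_p (x : Fin 2 → Qbar) : eval x (rH (pz z0 w0) (pw z0 w0)) =
    kH (vz z0 w0 (x 0) (x 1)) (vw z0 w0 (x 0) (x 1)) := by
  rw [map_rH (eval x), eval_pz, eval_pw, rH_eq]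

theorem eval_rT_p (x : Fin 2 → Qbar) : eval x (rT (pz z0 w0) (pw z0 w0)) =
    kT (vz z0 w0 (x 0) (x 1)) (vw z0 w0 (x 0) (x 1)) := by
  rw [map_rT (eval x), eval_pz, eval_pw, rT_eq]

theorem eval_rf_p (x : Fin 2 → Qbar) : eval x (rf (pz z0 w0) (pw z0 w0)) =
    kf (vz z0 w0 (x 0) (x 1)) (vw z0 w0 (x 0) (x 1)) := by
  rw [map_rf (eval x), eval_pz, eval_pw, rf_eq]

variable {z0 w0}

theorem evalQbar_intCast₂ (Q : MvPolynomial (Fin 2) ℤ) (s t : ℤ) :
    evalQbar ![(s : Qbar), (t : Qbar)] Q = ((eval ![s, t] Q : ℤ) : Qbar) := by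
  rw [← evalQbar_intCast]
  congr 1
  funext i
  fin_cases i <;> rfl

/-- **Integer forms on the family.**  If the Galois group acts on `v₀` by admissible matrices and
`kf v₀ ≠ 0`, then, up to a common nonzero integer factor `D`, the functions
`(s, t) ↦ kH (v(s,t))`, `kT (v(s,t))`, `kf (v(s,t)) / kf v₀` are integer polynomials. -/
theorem exists_int_forms (hf0 : kf z0 w0 ≠ 0) (hG : GalKlein z0 w0) :
    ∃ (D : ℤ) (Q4 Q6 Qf : MvPolynomial (Fin 2) ℤ), D ≠ 0 ∧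
      (∀ s t : Qbar, (D : Qbar) * kH (vz z0 w0 s t) (vw z0 w0 s t) = evalQbar ![s, t] Q4) ∧
      (∀ s t : Qbar, (D : Qbar) * kT (vz z0 w0 s t) (vw z0 w0 s t) = evalQbar ![s, t] Q6) ∧
      (∀ s t : Qbar, (D : Qbar) * kf (vz z0 w0 s t) (vw z0 w0 s t) =
        kf z0 w0 * evalQbar ![s, t] Qf) := by
  -- the three descents
  obtain ⟨D1, Q4', hD1, h4⟩ := exists_int_of_eval_fixed (rH (pz z0 w0) (pw z0 w0)) (by
    intro σ x
    obtain ⟨a, b, c, d, hz, hw, hadm⟩ := hG σ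
    rw [eval_rH_p]
    simp only [eq_ratCast]
    exact (galois_forms hz hw hadm).1 (x 0) (x 1))
  obtain ⟨D2, Q6', hD2, h6⟩ := exists_int_of_eval_fixed (rT (pz z0 w0) (pw z0 w0)) (by
    intro σ x
    obtain ⟨a, b, c, d, hz, hw, hadm⟩ := hG σ
    rw [eval_rT_p]
    simp only [eq_ratCast]
    exact (galois_forms hz hw hadm).2.1 (x 0) (x 1))
  obtain ⟨D3, Qf', hD3, hf⟩ := exists_int_of_eval_fixed
    (C (kf z0 w0)⁻¹ * rf (pz z0 w0) (pw z0 w0)) (by
    intro σ x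
    obtain ⟨a, b, c, d, hz, hw, hadm⟩ := hG σ
    obtain ⟨ε, hε⟩ := (galois_forms hz hw hadm).2.2
    have h10 : σ (kf z0 w0) = ε * kf z0 w0 := by
      have := hε 1 0
      simpa [vz_one_zero, vw_one_zero] using this
    have hε0 : ε ≠ 0 := by
      rintro rfl
      rw [zero_mul] at h10
      exact hf0 ((map_eq_zero σ).mp h10)
    rw [map_mul, eval_C, eval_rf_p]
    simp only [eq_ratCast]
    rw [map_mul, map_inv₀, h10, hε (x 0) (x 1)]
    field_simp)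
  refine ⟨D1 * D2 * D3, C (D2 * D3) * Q4', C (D1 * D3) * Q6', C (D1 * D2) * Qf',
    mul_ne_zero (mul_ne_zero hD1 hD2) hD3, fun s t => ?_, fun s t => ?_, fun s t => ?_⟩
  · have h := h4 ![s, t]
    rw [eval_rH_p] at h
    simp only [Matrix.cons_val_zero, Matrix.cons_val_one] at h
    simp only [evalQbar] at h ⊢
    rw [map_mul, map_C, map_mul, eval_C, ← h]
    simp only [eq_intCast, Int.cast_mul]
    ring
  · have h := h6 ![s, t]
    rw [eval_rT_p] at h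
    simp only [Matrix.cons_val_zero, Matrix.cons_val_one] at h
    simp only [evalQbar] at h ⊢
    rw [map_mul, map_C, map_mul, eval_C, ← h]
    simp only [eq_intCast, Int.cast_mul]
    ring
  · have h := hf ![s, t]
    rw [map_mul, eval_C, eval_rf_p] at h
    simp only [Matrix.cons_val_zero, Matrix.cons_val_one] at h
    simp only [evalQbar] at h ⊢
    rw [map_mul, map_C, map_mul, eval_C, ← h]
    simp only [eq_intCast, Int.cast_mul]
    field_simp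

/-- Integrality of the values of a form on the family under congruence conditions: if
`D * F(s,t) = Q(s,t)` with `Q ∈ ℤ[s,t]` and `F(1,0) = -c` with `c ∈ ℤ`, then for all integers
`(s, t) ≡ (1, 0)` modulo `D * M` the value `F(s,t)` is `-c'` for an integer `c' ≡ c` modulo `M`. -/
theorem exists_int_value {F : Qbar → Qbar → Qbar} {c D : ℤ} (hD : D ≠ 0)
    {Q : MvPolynomial (Fin 2) ℤ}
    (hQ : ∀ s t : Qbar, (D : Qbar) * F s t = evalQbar ![s, t] Q) (h0 : F 1 0 = -(c : Qbar))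
    (M : ℤ) {s t : ℤ} (hs : s ≡ 1 [ZMOD D * M]) (ht : t ≡ 0 [ZMOD D * M]) :
    ∃ c' : ℤ, F s t = -(c' : Qbar) ∧ c' ≡ c [ZMOD M] ∧ eval ![s, t] Q = -(D * c') := by
  have e0 : eval ![(1 : ℤ), 0] Q = -(D * c) := by
    have h1 := evalQbar_intCast₂ Q 1 0
    rw [Int.cast_one, Int.cast_zero, ← hQ 1 0, h0] at h1
    have h2 : ((eval ![(1 : ℤ), 0] Q : ℤ) : Qbar) = ((-(D * c) : ℤ) : Qbar) := by
      rw [← h1]
      push_cast
      ring
    exact Int.cast_injective h2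
  have hcong : eval ![s, t] Q ≡ eval ![(1 : ℤ), 0] Q [ZMOD D * M] := by
    apply eval_int_congr
    intro i
    fin_cases i
    · exact hs
    · exact ht
  obtain ⟨k, hk⟩ := hcong.dvd
  refine ⟨c + M * k, ?_, ?_, ?_⟩
  · have h3 : eval ![s, t] Q = -(D * (c + M * k)) := by
      rw [e0] at hk
      linear_combination -hk
    have h4 := hQ s t
    rw [evalQbar_intCast₂, h3] at h4
    have hD' : (D : Qbar) ≠ 0 := by exact_mod_cast hD
    apply mul_left_cancel₀ hD'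
    rw [h4]
    push_cast
    ring
  · exact (Int.modEq_iff_dvd.mpr ⟨-k, by ring⟩)
  · rw [e0] at hk
    linear_combination -hk

/-- Integrality of `c₄' = -kH (v(s,t))` and `c₆' = -kT (v(s,t))` for `(s, t) ≡ (1, 0)` modulo
`D * M`, with `c₄' ≡ c₄`, `c₆' ≡ c₆` modulo `M`. -/
theorem exists_int_c4_c6 {c4 c6 D : ℤ} (h4 : kH z0 w0 = -(c4 : Qbar))
    (h6 : kT z0 w0 = -(c6 : Qbar)) (hD : D ≠ 0) {Q4 Q6 : MvPolynomial (Fin 2) ℤ}
    (hQ4 : ∀ s t : Qbar, (D : Qbar) * kH (vz z0 w0 s t) (vw z0 w0 s t) = evalQbar ![s, t] Q4)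
    (hQ6 : ∀ s t : Qbar, (D : Qbar) * kT (vz z0 w0 s t) (vw z0 w0 s t) = evalQbar ![s, t] Q6)
    (M : ℤ) {s t : ℤ} (hs : s ≡ 1 [ZMOD D * M]) (ht : t ≡ 0 [ZMOD D * M]) :
    ∃ c4' c6' : ℤ, kH (vz z0 w0 s t) (vw z0 w0 s t) = -(c4' : Qbar) ∧
      kT (vz z0 w0 s t) (vw z0 w0 s t) = -(c6' : Qbar) ∧
      c4' ≡ c4 [ZMOD M] ∧ c6' ≡ c6 [ZMOD M] ∧
      eval ![s, t] Q4 = -(D * c4') ∧ eval ![s, t] Q6 = -(D * c6') := by
  obtain ⟨c4', e1, e2, e3⟩ := exists_int_value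
    (F := fun s t => kH (vz z0 w0 s t) (vw z0 w0 s t)) hD hQ4
    (by simp only [vz_one_zero, vw_one_zero]; exact h4) M hs ht
  obtain ⟨c6', e4, e5, e6⟩ := exists_int_value
    (F := fun s t => kT (vz z0 w0 s t) (vw z0 w0 s t)) hD hQ6
    (by simp only [vz_one_zero, vw_one_zero]; exact h6) M hs ht
  exact ⟨c4', c6', e1, e4, e2, e5, e3, e6⟩

/-- The discriminant relation on the family: `c₄'³ - c₆'² = -1728 kf (v(s,t))⁵`. -/
theorem c4_cube_sub_c6_sq (s t : Qbar) :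
    (-kH (vz z0 w0 s t) (vw z0 w0 s t)) ^ 3 - (-kT (vz z0 w0 s t) (vw z0 w0 s t)) ^ 2 =
      -1728 * kf (vz z0 w0 s t) (vw z0 w0 s t) ^ 5 := by
  have := kT_sq_add_kH_cube (vz z0 w0 s t) (vw z0 w0 s t)
  linear_combination -this

end poly

end Fermat.Agent.S52.Family
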