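import Mathlib
import Fermat.Agent.S52.GroupLemmaSpec

/-!
# The group lemma for S52

An irreducible subgroup `H` of `GL₂(𝔽₅)` with surjective determinant contains `-1`; in fact `-1`
is a product of squares of elements of `H`, so it is killed by every homomorphism from `H` to a
group of exponent two.

Proof: if `-1` is not a product of squares, an element `h` of determinant `2` yields `g = h ^ 15`
with `g ^ 4 = 1` and `det g = 3`; after conjugation `g = diag (α, β)` with `α = ± 1`, `β = ± 2`.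
All commutators of `H` lie in the subgroup `N` generated by squares, have determinant one and
(as `-1 ∉ N`) odd order, i.e. trace `2` or `-1`.  Applied to the commutators with `g` and `g ^ 2`
this forces every element of `H` to be triangular in the eigenbasis of `g`, which contradicts
irreducibility.
-/

set_option autoImplicit false

namespace Fermat.Agent.S52.GroupLemma

open Matrix Fermat.Agent.S52.GroupLemmaSpec

abbrev M2 := Matrix (Fin 2) (Fin 2) (ZMod 5)

instance factPrimeFive : Fact (Nat.Prime 5) := ⟨Nat.prime_five⟩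

/-! ### brute force facts about `2 × 2` matrices over `F_5` -/

set_option maxRecDepth 100000 in
theorem inv2_entries : ∀ a b c d : ZMod 5, a * d - b * c = 1 → a * a + b * c = 1 →
    a * b + b * d = 0 → c * a + d * c = 0 → c * b + d * d = 1 →
    (a = 1 ∧ b = 0 ∧ c = 0 ∧ d = 1) ∨ (a = 4 ∧ b = 0 ∧ c = 0 ∧ d = 4) := by
  decide

set_option maxRecDepth 100000 in
theorem factA_entries : ∀ a b c d : ZMod 5, a * d - b * c = 1 →
    (a + d = 2 ∨ a + d = 4 ∨ (!![a, b; c, d] : M2) ^ 2 = -1 ∨
      (!![a, b; c, d] : M2) ^ 3 = -1 ∨ (!![a, b; c, d] : M2) ^ 5 = -1) := by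
  decide

theorem trace_comm_diag (a b c d α β αi βi x : ZMod 5) :
    ((!![a, b; c, d] : M2) * !![α, 0; 0, β] * (x • !![d, -b; -c, a]) * !![αi, 0; 0, βi]).trace
      = x * ((a * α * d - b * β * c) * αi + (-(c * α * b) + d * β * a) * βi) := by
  simp [Matrix.trace_fin_two]
  ring

set_option maxRecDepth 100000 in
theorem core_arith : ∀ a b c d : ZMod 5, a * d - b * c ≠ 0 →
    ((a * d - b * c) ^ 3 * (2 * (a * d)) = 2 ∨ (a * d - b * c) ^ 3 * (2 * (a * d)) = 4) →
    ((a * d - b * c) ^ 3 * (2 * (a * d + b * c)) = 2 ∨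
      (a * d - b * c) ^ 3 * (2 * (a * d + b * c)) = 4) →
    b * c = 0 := by
  decide

set_option maxRecDepth 100000 in
theorem inv_eq_pow_three : ∀ x : ZMod 5, x ≠ 0 → x * x ^ 3 = 1 := by
  decide

/-! ### coercions -/

theorem coe_eta (x : G5) :
    (x : M2) = !![(x : M2) 0 0, (x : M2) 0 1; (x : M2) 1 0, (x : M2) 1 1] :=
  Matrix.eta_fin_two _

theorem det_coe (x : G5) :
    (x : M2).det = (x : M2) 0 0 * (x : M2) 1 1 - (x : M2) 0 1 * (x : M2) 1 0 :=
  Matrix.det_fin_two _

theorem coe_neg_one : ((-1 : G5) : M2) = -1 := by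
  rw [Units.val_neg, Units.val_one]

/-- an involution of determinant one is `± 1` -/
theorem eq_one_or_neg_one (x : G5) (hx : x * x = 1) (hd : (x : M2).det = 1) :
    x = 1 ∨ x = -1 := by
  have hM : (x : M2) * (x : M2) = 1 := by
    rw [← Units.val_mul, hx, Units.val_one]
  have h00 := congrFun (congrFun hM 0) 0
  have h01 := congrFun (congrFun hM 0) 1
  have h10 := congrFun (congrFun hM 1) 0
  have h11 := congrFun (congrFun hM 1) 1
  simp only [Matrix.mul_apply, Fin.sum_univ_two, Matrix.one_apply_eq, Matrix.one_apply_ne,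
    ne_eq, not_false_eq_true, zero_ne_one, one_ne_zero] at h00 h01 h10 h11
  rw [det_coe] at hd
  rcases inv2_entries _ _ _ _ hd h00 h01 h10 h11 with ⟨ha, hb, hc, hd'⟩ | ⟨ha, hb, hc, hd'⟩
  · left
    apply Units.ext
    rw [coe_eta x, ha, hb, hc, hd', Units.val_one, Matrix.one_fin_two]
  · right
    apply Units.ext
    rw [coe_eta x, ha, hb, hc, hd', coe_neg_one, Matrix.one_fin_two]
    ext i j
    fin_cases i <;> fin_cases j <;> simp <;> decide

/-- elements of determinant one in a subgroup not containing `-1` have trace `2` or `-1` -/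
theorem trace_of_mem (N : Subgroup G5) (hN : (-1 : G5) ∉ N) (x : G5) (hx : x ∈ N)
    (hd : (x : M2).det = 1) : (x : M2).trace = 2 ∨ (x : M2).trace = 4 := by
  rw [det_coe] at hd
  have key : ∀ n : ℕ, (!![(x : M2) 0 0, (x : M2) 0 1; (x : M2) 1 0, (x : M2) 1 1] : M2) ^ n = -1 →
      False := by
    intro n hn
    apply hN
    have : x ^ n = -1 := by
      apply Units.ext
      rw [Units.val_pow_eq_pow_val, coe_neg_one, coe_eta x]
      exact hn
    rw [← this]
    exact pow_mem hx n
  rcases factA_entries _ _ _ _ hd with h | h | h | h | h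
  · left
    rw [Matrix.trace_fin_two]
    exact h
  · right
    rw [Matrix.trace_fin_two]
    exact h
  · exact (key 2 h).elim
  · exact (key 3 h).elim
  · exact (key 5 h).elim

/-! ### an element of order four -/

theorem card_G5 : Nat.card G5 = 480 := by
  have h := Matrix.card_GL_field (𝔽 := ZMod 5) 2
  rw [Fin.prod_univ_two, ZMod.card] at h
  rw [show Nat.card G5 = Nat.card (GL (Fin 2) (ZMod 5)) from rfl, h]
  norm_num

theorem pow_480 (x : G5) : x ^ 480 = 1 := by
  rw [← card_G5]
  exact pow_card_eq_one'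

theorem det_pow (x : G5) (n : ℕ) : ((x ^ n : G5) : M2).det = (x : M2).det ^ n := by
  rw [Units.val_pow_eq_pow_val, Matrix.det_pow]

/-- the hypotheses shared by the main argument: `N` contains all squares of `H` and `-1 ∉ N` -/
structure Setup (H N : Subgroup G5) : Prop where
  sq_mem : ∀ h ∈ H, h * h ∈ N
  irr : NoInvariantLine H
  neg : (-1 : G5) ∉ N

theorem Setup.eq_one_of_sq {H N : Subgroup G5} (S : Setup H N) (y : G5) (hy : y ∈ H)
    (hyy : (y * y) * (y * y) = 1) (hd : ((y * y : G5) : M2).det = 1) : y * y = 1 := by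
  rcases eq_one_or_neg_one (y * y) hyy hd with h | h
  · exact h
  · exfalso
    apply S.neg
    rw [← h]
    exact S.sq_mem y hy

theorem Setup.exists_order_four {H N : Subgroup G5} (S : Setup H N) (hdet : DetOnto H) :
    ∃ g ∈ H, g ^ 4 = 1 ∧ (g : M2).det = 3 := by
  obtain ⟨h, hh, hdh⟩ := hdet (Units.mk0 (2 : ZMod 5) (by decide))
  have hdh' : (h : M2).det = 2 := by
    have := congrArg Units.val hdh
    simpa using this
  refine ⟨h ^ 15, pow_mem hh 15, ?_, ?_⟩
  · set g := h ^ 15 with hg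
    have hgH : g ∈ H := pow_mem hh 15
    have hdg : (g : M2).det = 3 := by
      rw [hg, det_pow, hdh']
      decide
    have h32 : g ^ 32 = 1 := by
      rw [hg, ← pow_mul]
      exact pow_480 h
    -- g ^ 16 = 1
    have h16 : g ^ 16 = 1 := by
      have := S.eq_one_of_sq (g ^ 8) (pow_mem hgH 8)
        (by rw [← pow_add, ← pow_add]; exact h32)
        (by rw [← pow_add, det_pow, hdg]; decide)
      rwa [← pow_add] at this
    have h8 : g ^ 8 = 1 := by
      have := S.eq_one_of_sq (g ^ 4) (pow_mem hgH 4)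
        (by rw [← pow_add, ← pow_add]; exact h16)
        (by rw [← pow_add, det_pow, hdg]; decide)
      rwa [← pow_add] at this
    have h4 : g ^ 4 = 1 := by
      have := S.eq_one_of_sq (g ^ 2) (pow_mem hgH 2)
        (by rw [← pow_add, ← pow_add]; exact h8)
        (by rw [← pow_add, det_pow, hdg]; decide)
      rwa [← pow_add] at this
    exact h4
  · rw [det_pow, hdh']
    decide

/-! ### the core: a diagonal element of order four -/

theorem mul_adj (a b c d : ZMod 5) (hδ : a * d - b * c ≠ 0) :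
    (!![a, b; c, d] : M2) * ((a * d - b * c) ^ 3 • !![d, -b; -c, a]) = 1 := by
  have h := inv_eq_pow_three _ hδ
  ext i j
  fin_cases i <;> fin_cases j <;>
    simp [Matrix.mul_apply, Fin.sum_univ_two] <;> first | ring1 | linear_combination h

theorem coe_inv_eq (k : G5) :
    ((k⁻¹ : G5) : M2) = ((k : M2) 0 0 * (k : M2) 1 1 - (k : M2) 0 1 * (k : M2) 1 0) ^ 3 •
      !![(k : M2) 1 1, -(k : M2) 0 1; -(k : M2) 1 0, (k : M2) 0 0] := by
  have hδ : (k : M2) 0 0 * (k : M2) 1 1 - (k : M2) 0 1 * (k : M2) 1 0 ≠ 0 := by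
    rw [← det_coe]
    exact Matrix.GeneralLinearGroup.det_ne_zero k
  rw [Matrix.GeneralLinearGroup.coe_inv]
  apply Matrix.inv_eq_right_inv
  conv_lhs => rw [coe_eta k]
  exact mul_adj _ _ _ _ hδ

theorem Setup.commutator_mem {H N : Subgroup G5} (S : Setup H N) {x y : G5} (hx : x ∈ H)
    (hy : y ∈ H) : x * y * x⁻¹ * y⁻¹ ∈ N := by
  have h : x * y * x⁻¹ * y⁻¹ = (x * x) * ((x⁻¹ * y) * (x⁻¹ * y)) * (y⁻¹ * y⁻¹) := by group
  rw [h]
  exact N.mul_mem (N.mul_mem (S.sq_mem x hx) (S.sq_mem _ (H.mul_mem (H.inv_mem hx) hy)))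
    (S.sq_mem _ (H.inv_mem hy))

theorem det_commutator (x y : G5) : ((x * y * x⁻¹ * y⁻¹ : G5) : M2).det = 1 := by
  have h : Matrix.GeneralLinearGroup.det (x * y * x⁻¹ * y⁻¹) = 1 := by
    rw [map_mul, map_mul, map_mul, map_inv, map_inv]
    rw [mul_comm (Matrix.GeneralLinearGroup.det x), mul_inv_cancel_right, mul_inv_cancel]
  rw [← Matrix.GeneralLinearGroup.val_det_apply, h, Units.val_one]

theorem Setup.false_of_diag {H N : Subgroup G5} (S : Setup H N) (α β : ZMod 5)
    (hα : α = 1 ∨ α = 4) (hβ : β = 2 ∨ β = 3) (D : G5) (hD : (D : M2) = !![α, 0; 0, β])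
    (hDH : D ∈ H) : False := by
  have hαα : α * α = 1 := by rcases hα with rfl | rfl <;> decide
  have hββ : β * β = -1 := by rcases hβ with rfl | rfl <;> decide
  -- the inverse of `D`
  have hDinv : ((D⁻¹ : G5) : M2) = !![α, 0; 0, -β] := by
    rw [Matrix.GeneralLinearGroup.coe_inv]
    apply Matrix.inv_eq_right_inv
    rw [hD]
    ext i j
    fin_cases i <;> fin_cases j <;> simp [Matrix.mul_apply, Fin.sum_univ_two, hαα, hββ]
  -- `ι = D * D`
  have hι : ((D * D : G5) : M2) = !![1, 0; 0, -1] := by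
    rw [Units.val_mul, hD]
    ext i j
    fin_cases i <;> fin_cases j <;> simp [Matrix.mul_apply, Fin.sum_univ_two, hαα, hββ]
  have hιinv : (((D * D)⁻¹ : G5) : M2) = !![1, 0; 0, -1] := by
    rw [Matrix.GeneralLinearGroup.coe_inv]
    apply Matrix.inv_eq_right_inv
    rw [hι]
    ext i j
    fin_cases i <;> fin_cases j <;> simp [Matrix.mul_apply, Fin.sum_univ_two]
  have hιH : D * D ∈ H := H.mul_mem hDH hDH
  -- every element of `H` is triangular
  have tri : ∀ k ∈ H, (k : M2) 0 1 * (k : M2) 1 0 = 0 := by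
    intro k hk
    have hδ : (k : M2) 0 0 * (k : M2) 1 1 - (k : M2) 0 1 * (k : M2) 1 0 ≠ 0 := by
      rw [← det_coe]
      exact Matrix.GeneralLinearGroup.det_ne_zero k
    have h1 := trace_of_mem N S.neg _ (S.commutator_mem hk hDH) (det_commutator k D)
    have h2 := trace_of_mem N S.neg _ (S.commutator_mem hk hιH) (det_commutator k (D * D))
    rw [Units.val_mul, Units.val_mul, Units.val_mul, hDinv, coe_inv_eq k, hD] at h1
    rw [Units.val_mul (k * (D * D) * k⁻¹), Units.val_mul (k * (D * D)), Units.val_mul k, hιinv,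
      coe_inv_eq k, hι] at h2
    conv at h1 => rw [coe_eta k]
    conv at h2 => rw [coe_eta k]
    simp only [Matrix.of_apply, Matrix.cons_val', Matrix.cons_val_zero, Matrix.cons_val_one,
      Matrix.cons_val_fin_one] at h1 h2
    rw [trace_comm_diag] at h1 h2
    apply core_arith _ _ _ _ hδ
    · have e : ((k : M2) 0 0 * α * (k : M2) 1 1 - (k : M2) 0 1 * β * (k : M2) 1 0) * α +
          (-((k : M2) 1 0 * α * (k : M2) 0 1) + (k : M2) 1 1 * β * (k : M2) 0 0) * -β
          = 2 * ((k : M2) 0 0 * (k : M2) 1 1) := by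
        linear_combination ((k : M2) 0 0 * (k : M2) 1 1) * hαα
          - ((k : M2) 0 0 * (k : M2) 1 1) * hββ
      rwa [e] at h1
    · have e : ((k : M2) 0 0 * 1 * (k : M2) 1 1 - (k : M2) 0 1 * -1 * (k : M2) 1 0) * 1 +
          (-((k : M2) 1 0 * 1 * (k : M2) 0 1) + (k : M2) 1 1 * -1 * (k : M2) 0 0) * -1
          = 2 * ((k : M2) 0 0 * (k : M2) 1 1 + (k : M2) 0 1 * (k : M2) 1 0) := by
        ring
      rwa [e] at h2
  -- an element moving the first basis line, and one moving the second
  obtain ⟨k₁, hk₁, h₁⟩ := S.irr ![1, 0] (by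
    intro h
    have := congrFun h 0
    simp at this)
  obtain ⟨k₂, hk₂, h₂⟩ := S.irr ![0, 1] (by
    intro h
    have := congrFun h 1
    simp at this)
  have hc₁ : (k₁ : M2) 1 0 ≠ 0 := by
    intro h0
    apply h₁ ((k₁ : M2) 0 0)
    ext i
    fin_cases i <;> simp [Matrix.mulVec, dotProduct, Fin.sum_univ_two, h0]
  have hb₂ : (k₂ : M2) 0 1 ≠ 0 := by
    intro h0
    apply h₂ ((k₂ : M2) 1 1)
    ext i
    fin_cases i <;> simp [Matrix.mulVec, dotProduct, Fin.sum_univ_two, h0]
  have hb₁ : (k₁ : M2) 0 1 = 0 := by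
    rcases mul_eq_zero.mp (tri k₁ hk₁) with h | h
    · exact h
    · exact absurd h hc₁
  have hc₂ : (k₂ : M2) 1 0 = 0 := by
    rcases mul_eq_zero.mp (tri k₂ hk₂) with h | h
    · exact absurd h hb₂
    · exact h
  have ha₁ : (k₁ : M2) 0 0 ≠ 0 := by
    intro h0
    have := Matrix.GeneralLinearGroup.det_ne_zero k₁
    rw [det_coe, h0, hb₁] at this
    simp at this
  have ha₂ : (k₂ : M2) 0 0 ≠ 0 := by
    intro h0
    have := Matrix.GeneralLinearGroup.det_ne_zero k₂
    rw [det_coe, h0, hc₂] at this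
    simp at this
  have h12 := tri (k₁ * k₂) (H.mul_mem hk₁ hk₂)
  rw [Units.val_mul] at h12
  simp only [Matrix.mul_apply, Fin.sum_univ_two, hb₁, hc₂, zero_mul, mul_zero, add_zero] at h12
  have : (k₁ : M2) 0 0 * (k₂ : M2) 0 1 * ((k₁ : M2) 1 0 * (k₂ : M2) 0 0) ≠ 0 :=
    mul_ne_zero (mul_ne_zero ha₁ hb₂) (mul_ne_zero hc₁ ha₂)
  exact this h12

/-! ### diagonalisation and transport -/

set_option maxRecDepth 100000 in
theorem diag_entries : ∀ a b c d : ZMod 5, a * d - b * c = 3 → (!![a, b; c, d] : M2) ^ 4 = 1 →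
    ∃ α β : ZMod 5, (α = 1 ∨ α = 4) ∧ (β = 2 ∨ β = 3) ∧ ∃ i j : Bool,
      (bif i then a - β else b) * (bif j then c else d - α)
        - (bif j then a - α else b) * (bif i then c else d - β) ≠ 0 ∧
      (!![a, b; c, d] : M2) *
          !![bif i then a - β else b, bif j then a - α else b;
            bif i then c else d - β, bif j then c else d - α]
        = !![bif i then a - β else b, bif j then a - α else b;
            bif i then c else d - β, bif j then c else d - α] * !![α, 0; 0, β] := by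
  decide

theorem exists_diag (g : G5) (hg4 : g ^ 4 = 1) (hdet : (g : M2).det = 3) :
    ∃ (P D : G5) (α β : ZMod 5), (α = 1 ∨ α = 4) ∧ (β = 2 ∨ β = 3) ∧
      (D : M2) = !![α, 0; 0, β] ∧ P * D * P⁻¹ = g := by
  obtain ⟨a, b, c, d, hg⟩ : ∃ a b c d : ZMod 5, (g : M2) = !![a, b; c, d] :=
    ⟨_, _, _, _, coe_eta g⟩
  have hdet' : a * d - b * c = 3 := by
    rw [hg, Matrix.det_fin_two_of] at hdet
    exact hdet
  have h4 : (!![a, b; c, d] : M2) ^ 4 = 1 := by
    rw [← hg, ← Units.val_pow_eq_pow_val, hg4, Units.val_one]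
  obtain ⟨α, β, hα, hβ, i, j, hne, heq⟩ := diag_entries _ _ _ _ hdet' h4
  have hαβ : (!![α, 0; 0, β] : M2).det ≠ 0 := by
    rw [Matrix.det_fin_two_of]
    rcases hα with rfl | rfl <;> rcases hβ with rfl | rfl <;> decide
  refine ⟨Matrix.GeneralLinearGroup.mkOfDetNeZero _ (by rw [Matrix.det_fin_two_of]; exact hne),
    Matrix.GeneralLinearGroup.mkOfDetNeZero _ hαβ, α, β, hα, hβ, rfl, ?_⟩
  rw [mul_inv_eq_iff_eq_mul]
  apply Units.ext
  rw [Units.val_mul, Units.val_mul, hg]
  exact heq.symm

/-- conjugating a `Setup` -/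
theorem Setup.conj {H N : Subgroup G5} (S : Setup H N) (P : G5) :
    Setup (H.comap (MulAut.conj P).toMonoidHom) (N.comap (MulAut.conj P).toMonoidHom) where
  sq_mem := by
    intro x hx
    rw [Subgroup.mem_comap] at hx ⊢
    rw [map_mul]
    exact S.sq_mem _ hx
  neg := by
    intro h
    rw [Subgroup.mem_comap] at h
    apply S.neg
    have : (MulAut.conj P).toMonoidHom (-1 : G5) = -1 := by
      show P * (-1) * P⁻¹ = -1
      rw [mul_neg, mul_one, neg_mul, mul_inv_cancel]
    rwa [this] at h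
  irr := by
    intro v hv
    have hw : (P : M2).mulVec v ≠ 0 := by
      intro h0
      apply hv
      have := congrArg ((P⁻¹ : G5) : M2).mulVec h0
      rwa [Matrix.mulVec_mulVec, ← Units.val_mul, inv_mul_cancel, Units.val_one,
        Matrix.one_mulVec, Matrix.mulVec_zero] at this
    obtain ⟨h, hh, hne⟩ := S.irr _ hw
    refine ⟨P⁻¹ * h * P, ?_, fun c hc => hne c ?_⟩
    · rw [Subgroup.mem_comap]
      show P * (P⁻¹ * h * P) * P⁻¹ ∈ H
      have : P * (P⁻¹ * h * P) * P⁻¹ = h := by group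
      rwa [this]
    · rw [Units.val_mul, Units.val_mul, ← Matrix.mulVec_mulVec, ← Matrix.mulVec_mulVec] at hc
      have := congrArg (P : M2).mulVec hc
      rwa [Matrix.mulVec_mulVec, ← Units.val_mul, mul_inv_cancel, Units.val_one,
        Matrix.one_mulVec, Matrix.mulVec_smul] at this

/-- the main lemma in its strong form: `-1` is a product of squares of elements of `H` -/
theorem Setup.false {H N : Subgroup G5} (S : Setup H N) (hdet : DetOnto H) : False := by
  obtain ⟨g, hgH, hg4, hgdet⟩ := S.exists_order_four hdet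
  obtain ⟨P, D, α, β, hα, hβ, hD, hPD⟩ := exists_diag g hg4 hgdet
  refine (S.conj P).false_of_diag α β hα hβ D hD ?_
  rw [Subgroup.mem_comap]
  show P * D * P⁻¹ ∈ H
  rwa [hPD]

/-- the subgroup generated by the squares of the elements of `H` -/
def squares (H : Subgroup G5) : Subgroup G5 :=
  Subgroup.closure {x | ∃ h ∈ H, x = h * h}

theorem squares_le (H : Subgroup G5) : squares H ≤ H := by
  rw [squares, Subgroup.closure_le]
  rintro x ⟨h, hh, rfl⟩
  exact H.mul_mem hh hh

theorem neg_one_mem_squares (H : Subgroup G5) (hirr : NoInvariantLine H) (hdet : DetOnto H) :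
    (-1 : G5) ∈ squares H := by
  by_contra hneg
  exact Setup.false (H := H) (N := squares H)
    ⟨fun h hh => Subgroup.subset_closure ⟨h, hh, rfl⟩, hirr, hneg⟩ hdet

theorem negOneMem : NegOneMem := fun H hirr hdet =>
  squares_le H (neg_one_mem_squares H hirr hdet)

theorem negOneKilled : NegOneKilled := by
  intro H hirr hdet hm A _ hA χ
  -- `χ` kills the squares
  have key : ∀ x : G5, x ∈ squares H → ∀ hx : x ∈ H, χ ⟨x, hx⟩ = 1 := by
    intro x hx
    induction hx using Subgroup.closure_induction with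
    | mem x hx =>
      obtain ⟨h, hh, rfl⟩ := hx
      intro hx'
      have : (⟨h * h, hx'⟩ : H) = ⟨h, hh⟩ * ⟨h, hh⟩ := rfl
      rw [this, map_mul]
      exact hA _
    | one =>
      intro hx'
      exact map_one χ
    | mul x y hx hy ihx ihy =>
      intro hxy
      have hxH := squares_le H hx
      have hyH := squares_le H hy
      have : (⟨x * y, hxy⟩ : H) = ⟨x, hxH⟩ * ⟨y, hyH⟩ := rfl
      rw [this, map_mul, ihx hxH, ihy hyH, one_mul]
    | inv x hx ihx =>
      intro hx'
      have hxH := squares_le H hx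
      have : (⟨x⁻¹, hx'⟩ : H) = (⟨x, hxH⟩ : H)⁻¹ := rfl
      rw [this, map_inv, ihx hxH, inv_one]
  exact key _ (neg_one_mem_squares H hirr hdet) hm

end Fermat.Agent.S52.GroupLemma
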