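import Mathlib
import Fermat.Prelude.Def_FLTPrelim_Modularity

/-!
# P-ELL / S52, package C0: a semistable integral model has `c₄ ≠ 0` and `c₆ ≠ 0` (helper60)
-/

set_option autoImplicit false

namespace Fermat.Agent.S52.J0J1728

open WeierstrassCurve

/-- an integer without prime divisors is a unit. -/
theorem isUnit_of_forall_prime_not_dvd {n : ℤ} (h : ∀ p : ℕ, p.Prime → ¬ (p : ℤ) ∣ n) :
    n = 1 ∨ n = -1 := by
  by_contra hne
  have hna : n.natAbs ≠ 1 := by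
    intro h1
    rcases Int.natAbs_eq n with h2 | h2 <;> rw [h1] at h2 <;> omega
  obtain ⟨p, hp, hpd⟩ := Nat.exists_prime_and_dvd hna
  exact h p hp (Int.natCast_dvd.mpr hpd)

theorem Δ_eq_of_c₄_eq_zero (W : WeierstrassCurve ℤ) (hW : W.IsSemistableModel) (h : W.c₄ = 0) :
    W.Δ = 1 ∨ W.Δ = -1 :=
  isUnit_of_forall_prime_not_dvd fun p hp hpd => hW p hp hpd (h ▸ dvd_zero _)

theorem c₄_ne_zero (W : WeierstrassCurve ℤ) (hW : W.IsSemistableModel) : W.c₄ ≠ 0 := by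
  intro h
  have hrel := W.c_relation
  rw [h] at hrel
  have h6 : W.c₆ ^ 2 = 1728 ∨ W.c₆ ^ 2 = -1728 := by
    rcases Δ_eq_of_c₄_eq_zero W hW h with h1 | h1 <;> rw [h1] at hrel
    · right; linarith
    · left; linarith
  rcases h6 with h6 | h6
  · have h1 : W.c₆.natAbs ^ 2 = 1728 := by
      have := congrArg Int.natAbs h6
      rwa [Int.natAbs_pow] at this
    have h2 : W.c₆.natAbs < 42 := by
      by_contra hge
      have : 42 ^ 2 ≤ W.c₆.natAbs ^ 2 := Nat.pow_le_pow_left (not_lt.mp hge) 2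
      omega
    interval_cases W.c₆.natAbs <;> omega
  · have := sq_nonneg W.c₆
    omega

theorem c₆_ne_zero (W : WeierstrassCurve ℤ) (hW : W.IsSemistableModel) : W.c₆ ≠ 0 := by
  intro h
  have hrel := W.c_relation
  rw [h] at hrel
  have hΔ : W.Δ = 1 ∨ W.Δ = -1 := by
    refine isUnit_of_forall_prime_not_dvd fun p hp hpd => hW p hp hpd ?_
    have h1 : (p : ℤ) ∣ W.c₄ ^ 3 := by
      have : W.c₄ ^ 3 = 1728 * W.Δ := by linarith
      rw [this]
      exact Dvd.dvd.mul_left hpd _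
    exact Int.Prime.dvd_pow' hp h1
  have h4 : W.c₄ = 12 ∨ W.c₄ = -12 := by
    rcases hΔ with h1 | h1 <;> rw [h1] at hrel
    · left
      have h3 : W.c₄ ^ 3 = 12 ^ 3 := by linarith
      exact (Odd.strictMono_pow (by decide : Odd 3)).injective h3
    · right
      have h3 : W.c₄ ^ 3 = (-12) ^ 3 := by linarith
      exact (Odd.strictMono_pow (by decide : Odd 3)).injective h3
  have hc : W.c₄ = (W.a₁ ^ 2 + 4 * W.a₂) ^ 2 - 24 * (2 * W.a₄ + W.a₁ * W.a₃) := by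
    rw [WeierstrassCurve.c₄, WeierstrassCurve.b₂, WeierstrassCurve.b₄]
  rw [hc] at h4
  rcases Int.even_or_odd' W.a₁ with ⟨m, hm | hm⟩
  · have e : (W.a₁ ^ 2 + 4 * W.a₂) ^ 2 = 16 * (m ^ 2 + W.a₂) ^ 2 := by rw [hm]; ring
    rw [e] at h4
    generalize (m ^ 2 + W.a₂) ^ 2 = X at h4
    generalize W.a₁ * W.a₃ = Y at h4
    omega
  · have e : (W.a₁ ^ 2 + 4 * W.a₂) ^ 2 =
        16 * (m ^ 2 + m + W.a₂) ^ 2 + 8 * (m ^ 2 + m + W.a₂) + 1 := by rw [hm]; ring
    rw [e] at h4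
    generalize (m ^ 2 + m + W.a₂) ^ 2 = X at h4
    generalize m ^ 2 + m + W.a₂ = Z at h4
    generalize W.a₁ * W.a₃ = Y at h4
    omega

end Fermat.Agent.S52.J0J1728
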