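import Mathlib
import Fermat.Agent.S52.Klein.Forms

/-!
# S52, package C1 (local part): the Klein family has semistable reduction away from `30 Δ`

helper10.  `K` a field with a valuation subring `A` in which `2, 3, 5` are units (a place of `ℚ̄`
over a prime `p ∉ {2, 3, 5}`).  For `v₀ = (z₀, w₀) ∈ K²` with `f(v₀)` a unit and `H(v₀)` integral:

* `v₀` is integral and primitive (`mem_of_unit_fF`);
* for integral `s, t`, not both nonunits, `v = s v₀ + t v₁` (`v₁ = (wf1 v₀, wf2 v₀)` the gradient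
  covariant) is integral and primitive (`family_primitive`), because `det (v₀, v₁) = -12 f(v₀)`;
* `f(v)` and `H(v)` are not both nonunits (`not_nonunits_fF_HF`): Bezout certificates
  `U g + V h = 5⁵ b⁵`, `U' g + V' h = 5⁵ a⁵` for `f = z w g(z⁵, w⁵)`, `H = h(z⁵, w⁵)`.

Consequence for integers (`not_dvd_c4_of_dvd_Δ`): if `H(v) = -c₄'`, `T(v) = -c₆'`,
`c₄'³ - c₆'² = 1728 Δ'` then `p ∣ Δ' → ¬ p ∣ c₄'`.
-/

set_option autoImplicit false

namespace Fermat.Agent.S52.SemistableLocal

open Fermat.Agent.S52.Klein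

section Algebra

variable {K : Type*} [Field K]

theorem bezout_b (a b : K) :
    (-3003*b^3 - 5206*a*b^2 + 2507*a^2*b - 11*a^3) * gF a b + (-122*b - 11*a) * hF a b =
      3125 * b^5 := by
  unfold gF hF; ring

theorem bezout_a (a b : K) :
    (-11*b^3 - 2507*a*b^2 - 5206*a^2*b + 3003*a^3) * gF a b + (11*b - 122*a) * hF a b =
      3125 * a^5 := by
  unfold gF hF; ring

theorem hF_eq_b (a b : K) :
    hF a b = -b^4 + a * (-228*b^3 - 494*a*b^2 + 228*a^2*b - a^3) := by
  unfold hF; ring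

theorem hF_eq_a (a b : K) :
    hF a b = -a^4 + b * (-b^3 - 228*a*b^2 - 494*a^2*b + 228*a^3) := by
  unfold hF; ring

/-- Klein's relation `T² + H³ = 1728 f⁵`. -/
theorem klein_relation (z w : K) : TF z w ^ 2 + HF z w ^ 3 = 1728 * fF z w ^ 5 := by
  unfold TF HF fF tF hF gF; ring

/-- Euler: `det (v, ∇f(v)) = -12 f(v)`. -/
theorem det_wf (z w : K) : z * wf2 z w - w * wf1 z w = -12 * fF z w := by
  unfold wf1 wf2 fF gF; ring

/-- `f` and `H` have no common zero except `(0, 0)` in characteristic `≠ 5`. -/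
theorem eq_zero_of_fF_HF (h5 : (5 : K) ≠ 0) {z w : K} (hf : fF z w = 0) (hH : HF z w = 0) :
    z = 0 ∧ w = 0 := by
  have h3125 : (3125 : K) ≠ 0 := by
    have : (3125 : K) = 5 ^ 5 := by norm_num
    rw [this]; exact pow_ne_zero 5 h5
  unfold HF at hH
  by_cases hz : z = 0
  · refine ⟨hz, ?_⟩
    rw [hz, hF_eq_b] at hH
    simpa using hH
  by_cases hw : w = 0
  · refine ⟨?_, hw⟩
    rw [hw, hF_eq_a] at hH
    simpa using hH
  exfalso
  unfold fF at hf
  have hg : gF (z ^ 5) (w ^ 5) = 0 := by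
    rcases mul_eq_zero.mp hf with h | h
    · rcases mul_eq_zero.mp h with h | h
      · exact absurd h hz
      · exact absurd h hw
    · exact h
  have := bezout_b (z ^ 5) (w ^ 5)
  rw [hg, hH, mul_zero, mul_zero, add_zero] at this
  rcases mul_eq_zero.mp this.symm with h | h
  · exact h3125 h
  · exact hw (pow_eq_zero_iff (by norm_num) |>.mp (pow_eq_zero_iff (by norm_num) |>.mp h))

end Algebra

section Valuation

variable {K : Type*} [Field K] (A : ValuationSubring K)

theorem valuation_eq_one_of_mem_of_not_nonunits {x : K} (hx : x ∈ A) (hn : x ∉ A.nonunits) :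
    A.valuation x = 1 := by
  rw [A.mem_nonunits_iff, not_lt] at hn
  exact le_antisymm ((A.valuation_le_one_iff x).mpr hx) hn

/-- **Key local fact**: at a primitive integral vector, `f` and `H` are not both nonunits
(`5` a unit of `A`). -/
theorem not_nonunits_fF_HF (h5 : A.valuation (5 : K) = 1) {z w : K} (hz : z ∈ A) (hw : w ∈ A)
    (hprim : ¬ (z ∈ A.nonunits ∧ w ∈ A.nonunits)) :
    ¬ (fF z w ∈ A.nonunits ∧ HF z w ∈ A.nonunits) := by
  rintro ⟨hf, hH⟩
  rw [A.mem_nonunits_iff] at hf hH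
  have hz' : A.valuation z ≤ 1 := (A.valuation_le_one_iff z).mpr hz
  have hw' : A.valuation w ≤ 1 := (A.valuation_le_one_iff w).mpr hw
  have ha : z ^ 5 ∈ A := pow_mem hz 5
  have hb : w ^ 5 ∈ A := pow_mem hw 5
  unfold HF at hH
  by_cases hzn : A.valuation z < 1
  · -- `z` nonunit, so `w` is a unit and `H ≡ -w^20`
    have hw1 : A.valuation w = 1 := by
      by_contra h
      exact hprim ⟨(A.mem_nonunits_iff).mpr hzn, (A.mem_nonunits_iff).mpr (lt_of_le_of_ne hw' h)⟩
    have hR : (-228*(w^5)^3 - 494*(z^5)*(w^5)^2 + 228*(z^5)^2*(w^5) - (z^5)^3) ∈ A := by aesop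
    have h1 : A.valuation (z ^ 5 * (-228*(w^5)^3 - 494*(z^5)*(w^5)^2 + 228*(z^5)^2*(w^5)
        - (z^5)^3)) < 1 := by
      rw [map_mul, map_pow]
      calc A.valuation z ^ 5 * A.valuation _ ≤ A.valuation z ^ 5 * 1 :=
            mul_le_mul_right ((A.valuation_le_one_iff _).mpr hR) _
        _ = A.valuation z ^ 5 := mul_one _
        _ < 1 := pow_lt_one₀ zero_le hzn (by norm_num)
    have h2 : A.valuation (-(w ^ 5) ^ 4) = 1 := by
      rw [Valuation.map_neg, map_pow, map_pow, hw1, one_pow, one_pow]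
    rw [hF_eq_b, Valuation.map_add_eq_of_lt_left _ (by rw [h2]; exact h1), h2] at hH
    exact lt_irrefl _ hH
  by_cases hwn : A.valuation w < 1
  · have hz1 : A.valuation z = 1 := le_antisymm hz' (not_lt.mp hzn)
    have hR : (-(w^5)^3 - 228*(z^5)*(w^5)^2 - 494*(z^5)^2*(w^5) + 228*(z^5)^3) ∈ A := by aesop
    have h1 : A.valuation (w ^ 5 * (-(w^5)^3 - 228*(z^5)*(w^5)^2 - 494*(z^5)^2*(w^5)
        + 228*(z^5)^3)) < 1 := by
      rw [map_mul, map_pow]
      calc A.valuation w ^ 5 * A.valuation _ ≤ A.valuation w ^ 5 * 1 :=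
            mul_le_mul_right ((A.valuation_le_one_iff _).mpr hR) _
        _ = A.valuation w ^ 5 := mul_one _
        _ < 1 := pow_lt_one₀ zero_le hwn (by norm_num)
    have h2 : A.valuation (-(z ^ 5) ^ 4) = 1 := by
      rw [Valuation.map_neg, map_pow, map_pow, hz1, one_pow, one_pow]
    rw [hF_eq_a, Valuation.map_add_eq_of_lt_left _ (by rw [h2]; exact h1), h2] at hH
    exact lt_irrefl _ hH
  · -- both units: `g` is a nonunit, contradiction with the Bezout certificate
    have hz1 : A.valuation z = 1 := le_antisymm hz' (not_lt.mp hzn)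
    have hw1 : A.valuation w = 1 := le_antisymm hw' (not_lt.mp hwn)
    have hg : A.valuation (gF (z ^ 5) (w ^ 5)) < 1 := by
      unfold fF at hf
      rwa [map_mul, map_mul, hz1, hw1, one_mul, one_mul] at hf
    have hU : (-3003*(w^5)^3 - 5206*(z^5)*(w^5)^2 + 2507*(z^5)^2*(w^5) - 11*(z^5)^3) ∈ A := by
      aesop
    have hV : (-122*(w^5) - 11*(z^5)) ∈ A := by aesop
    have h1 : A.valuation ((-3003*(w^5)^3 - 5206*(z^5)*(w^5)^2 + 2507*(z^5)^2*(w^5)
        - 11*(z^5)^3) * gF (z ^ 5) (w ^ 5)) < 1 := by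
      rw [map_mul]
      calc _ ≤ 1 * A.valuation (gF (z ^ 5) (w ^ 5)) :=
            mul_le_mul_left ((A.valuation_le_one_iff _).mpr hU) _
        _ = _ := one_mul _
        _ < 1 := hg
    have h2 : A.valuation ((-122*(w^5) - 11*(z^5)) * hF (z ^ 5) (w ^ 5)) < 1 := by
      rw [map_mul]
      calc _ ≤ 1 * A.valuation (hF (z ^ 5) (w ^ 5)) :=
            mul_le_mul_left ((A.valuation_le_one_iff _).mpr hV) _
        _ = _ := one_mul _
        _ < 1 := hH
    have h3 := Valuation.map_add_lt _ h1 h2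
    rw [bezout_b, map_mul, map_pow, map_pow, hw1, one_pow, one_pow, mul_one] at h3
    have h4 : A.valuation (3125 : K) = 1 := by
      have : (3125 : K) = 5 ^ 5 := by norm_num
      rw [this, map_pow, h5, one_pow]
    rw [h4] at h3
    exact lt_irrefl _ h3

theorem fF_smul (c z w : K) : fF (c * z) (c * w) = c ^ 12 * fF z w := by
  unfold fF gF; ring

theorem HF_smul (c z w : K) : HF (c * z) (c * w) = c ^ 20 * HF z w := by
  unfold HF hF; ring

/-- If `f(v₀)` is a unit and `H(v₀)` is integral then `v₀` is integral and primitive. -/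
theorem mem_of_unit_fF (h5 : A.valuation (5 : K) = 1) {z w : K}
    (hf : A.valuation (fF z w) = 1) (hH : HF z w ∈ A) :
    z ∈ A ∧ w ∈ A ∧ ¬ (z ∈ A.nonunits ∧ w ∈ A.nonunits) := by
  have hH' : A.valuation (HF z w) ≤ 1 := (A.valuation_le_one_iff _).mpr hH
  have hint : z ∈ A ∧ w ∈ A := by
    by_contra hcon
    -- `c` = the coordinate of larger valuation, `1 < v c`
    obtain ⟨c, hc1, hzc, hwc, hone⟩ : ∃ c : K, 1 < A.valuation c ∧
        A.valuation z ≤ A.valuation c ∧ A.valuation w ≤ A.valuation c ∧ (c = z ∨ c = w) := by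
      rcases le_total (A.valuation z) (A.valuation w) with h | h
      · refine ⟨w, ?_, h, le_rfl, Or.inr rfl⟩
        by_contra hw1
        rw [not_lt] at hw1
        exact hcon ⟨(A.valuation_le_one_iff _).mp (h.trans hw1),
          (A.valuation_le_one_iff _).mp hw1⟩
      · refine ⟨z, ?_, le_rfl, h, Or.inl rfl⟩
        by_contra hz1
        rw [not_lt] at hz1
        exact hcon ⟨(A.valuation_le_one_iff _).mp hz1,
          (A.valuation_le_one_iff _).mp (h.trans hz1)⟩
    have hc0 : c ≠ 0 := by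
      rintro rfl
      rw [map_zero] at hc1
      exact absurd hc1 (not_lt.mpr zero_le_one)
    have hvc0 : 0 < A.valuation c := lt_trans zero_lt_one hc1
    have hu1 : z / c ∈ A := by
      rw [← A.valuation_le_one_iff, map_div₀]
      exact div_le_one_of_le₀ hzc zero_le
    have hu2 : w / c ∈ A := by
      rw [← A.valuation_le_one_iff, map_div₀]
      exact div_le_one_of_le₀ hwc zero_le
    have hprim : ¬ (z / c ∈ A.nonunits ∧ w / c ∈ A.nonunits) := by
      rintro ⟨h1, h2⟩
      rw [A.mem_nonunits_iff] at h1 h2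
      rcases hone with rfl | rfl
      · rw [div_self hc0, map_one] at h1
        exact lt_irrefl _ h1
      · rw [div_self hc0, map_one] at h2
        exact lt_irrefl _ h2
    have e1 : fF z w = c ^ 12 * fF (z / c) (w / c) := by
      rw [← fF_smul, mul_div_cancel₀ _ hc0, mul_div_cancel₀ _ hc0]
    have e2 : HF z w = c ^ 20 * HF (z / c) (w / c) := by
      rw [← HF_smul, mul_div_cancel₀ _ hc0, mul_div_cancel₀ _ hc0]
    have hpow : ∀ n : ℕ, n ≠ 0 → 1 < A.valuation c ^ n := fun n hn => one_lt_pow₀ hc1 hn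
    apply not_nonunits_fF_HF A h5 hu1 hu2 hprim
    constructor
    · rw [A.mem_nonunits_iff]
      have h12 := hpow 12 (by norm_num)
      rw [e1, map_mul, map_pow] at hf
      by_contra hge
      rw [not_lt] at hge
      have : 1 < A.valuation c ^ 12 * A.valuation (fF (z / c) (w / c)) :=
        lt_of_lt_of_le h12 (le_mul_of_one_le_right zero_le hge)
      rw [hf] at this
      exact lt_irrefl _ this
    · rw [A.mem_nonunits_iff]
      have h20 := hpow 20 (by norm_num)
      rw [e2, map_mul, map_pow] at hH'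
      by_contra hge
      rw [not_lt] at hge
      have : 1 < A.valuation c ^ 20 * A.valuation (HF (z / c) (w / c)) :=
        lt_of_lt_of_le h20 (le_mul_of_one_le_right zero_le hge)
      exact lt_irrefl _ (lt_of_lt_of_le this hH')
  refine ⟨hint.1, hint.2, ?_⟩
  rintro ⟨h1, h2⟩
  rw [A.mem_nonunits_iff] at h1
  have hg : gF (z ^ 5) (w ^ 5) ∈ A := by
    have ha : z ^ 5 ∈ A := pow_mem hint.1 5
    have hb : w ^ 5 ∈ A := pow_mem hint.2 5
    unfold gF
    aesop
  have : A.valuation (fF z w) < 1 := by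
    unfold fF
    rw [map_mul, map_mul]
    calc A.valuation z * A.valuation w * A.valuation (gF (z ^ 5) (w ^ 5))
        ≤ A.valuation z * 1 * 1 :=
          mul_le_mul' (mul_le_mul' le_rfl ((A.valuation_le_one_iff _).mpr hint.2))
            ((A.valuation_le_one_iff _).mpr hg)
      _ = A.valuation z := by rw [mul_one, mul_one]
      _ < 1 := h1
  rw [hf] at this
  exact lt_irrefl _ this

/-- **The family stays primitive**: `v = s v₀ + t ∇f(v₀)` is integral and primitive when `s, t` are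
integral and not both nonunits (`2, 3` units of `A`, `f(v₀)` a unit). -/
theorem family_primitive (h2 : A.valuation (2 : K) = 1) (h3 : A.valuation (3 : K) = 1)
    {z w : K} (hz : z ∈ A) (hw : w ∈ A) (hf : A.valuation (fF z w) = 1) {s t : K} (hs : s ∈ A)
    (ht : t ∈ A) (hst : ¬ (s ∈ A.nonunits ∧ t ∈ A.nonunits)) :
    s * z + t * wf1 z w ∈ A ∧ s * w + t * wf2 z w ∈ A ∧
      ¬ (s * z + t * wf1 z w ∈ A.nonunits ∧ s * w + t * wf2 z w ∈ A.nonunits) := by
  have h1 : wf1 z w ∈ A := by unfold wf1; aesop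
  have h2' : wf2 z w ∈ A := by unfold wf2; aesop
  have hP : s * z + t * wf1 z w ∈ A := by aesop
  have hQ : s * w + t * wf2 z w ∈ A := by aesop
  refine ⟨hP, hQ, ?_⟩
  rintro ⟨hPn, hQn⟩
  rw [A.mem_nonunits_iff] at hPn hQn
  have hdet : A.valuation (-12 * fF z w) = 1 := by
    have : (-12 : K) = -(2 ^ 2 * 3) := by norm_num
    rw [map_mul, this, Valuation.map_neg, map_mul, map_pow, h2, h3, hf]
    simp
  have lt_of : ∀ x y a b : K, a ∈ A → b ∈ A → A.valuation x < 1 → A.valuation y < 1 →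
      A.valuation (x * a - y * b) < 1 := by
    intro x y a b ha hb hx hy
    refine Valuation.map_sub_lt _ ?_ ?_
    · rw [map_mul]
      calc _ ≤ A.valuation x * 1 := mul_le_mul' le_rfl ((A.valuation_le_one_iff _).mpr ha)
        _ = _ := mul_one _
        _ < 1 := hx
    · rw [map_mul]
      calc _ ≤ A.valuation y * 1 := mul_le_mul' le_rfl ((A.valuation_le_one_iff _).mpr hb)
        _ = _ := mul_one _
        _ < 1 := hy
  apply hst
  constructor
  · rw [A.mem_nonunits_iff]
    have e : (s * z + t * wf1 z w) * wf2 z w - (s * w + t * wf2 z w) * wf1 z w =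
        s * (-12 * fF z w) := by rw [← det_wf]; ring
    have := lt_of _ _ _ _ h2' h1 hPn hQn
    rwa [e, map_mul, hdet, mul_one] at this
  · rw [A.mem_nonunits_iff]
    have e : (s * w + t * wf2 z w) * z - (s * z + t * wf1 z w) * w =
        t * (-12 * fF z w) := by rw [← det_wf]; ring
    have := lt_of _ _ _ _ hz hw hQn hPn
    rwa [e, map_mul, hdet, mul_one] at this

end Valuation

section Integers

variable {K : Type*} [Field K] (A : ValuationSubring K) {p : ℕ}

theorem intCast_mem_nonunits_of_dvd (hpA : (p : K) ∈ A.nonunits) {n : ℤ} (hn : (p : ℤ) ∣ n) :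
    (n : K) ∈ A.nonunits := by
  obtain ⟨m, rfl⟩ := hn
  rw [A.mem_nonunits_iff] at hpA ⊢
  push_cast
  rw [map_mul]
  calc _ ≤ A.valuation (p : K) * 1 :=
        mul_le_mul' le_rfl ((A.valuation_le_one_iff _).mpr (intCast_mem A m))
    _ = _ := mul_one _
    _ < 1 := hpA

theorem dvd_of_intCast_mem_nonunits (hp : p.Prime) (hpA : (p : K) ∈ A.nonunits) {n : ℤ}
    (hn : (n : K) ∈ A.nonunits) : (p : ℤ) ∣ n := by
  by_contra hnd
  have hcop : IsCoprime (p : ℤ) n :=
    (Nat.prime_iff_prime_int.mp hp).irreducible.coprime_iff_not_dvd.mpr hnd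
  obtain ⟨u, w, huw⟩ := hcop
  have h1 : ((u * p + w * n : ℤ) : K) = 1 := by rw [huw]; simp
  rw [A.mem_nonunits_iff] at hpA hn
  have h2 : A.valuation ((u * p + w * n : ℤ) : K) < 1 := by
    push_cast
    refine Valuation.map_add_lt _ ?_ ?_
    · rw [map_mul]
      calc _ ≤ 1 * A.valuation (p : K) :=
            mul_le_mul' ((A.valuation_le_one_iff _).mpr (intCast_mem A u)) le_rfl
        _ = _ := one_mul _
        _ < 1 := hpA
    · rw [map_mul]
      calc _ ≤ 1 * A.valuation (n : K) :=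
            mul_le_mul' ((A.valuation_le_one_iff _).mpr (intCast_mem A w)) le_rfl
        _ = _ := one_mul _
        _ < 1 := hn
  rw [h1, map_one] at h2
  exact lt_irrefl _ h2

theorem intCast_mem_nonunits_iff (hp : p.Prime) (hpA : (p : K) ∈ A.nonunits) (n : ℤ) :
    (n : K) ∈ A.nonunits ↔ (p : ℤ) ∣ n :=
  ⟨dvd_of_intCast_mem_nonunits A hp hpA, intCast_mem_nonunits_of_dvd A hpA⟩

theorem valuation_intCast_eq_one (hp : p.Prime) (hpA : (p : K) ∈ A.nonunits) {n : ℤ}
    (hn : ¬ (p : ℤ) ∣ n) : A.valuation (n : K) = 1 :=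
  valuation_eq_one_of_mem_of_not_nonunits A (intCast_mem A n)
    (fun h => hn (dvd_of_intCast_mem_nonunits A hp hpA h))

/-- `f(v₀)⁵ = -Δ` when `H(v₀) = -c₄`, `T(v₀) = -c₆`, `c₄³ - c₆² = 1728 Δ` (`1728 ≠ 0` in `K`). -/
theorem fF_pow_five (h1728 : (1728 : K) ≠ 0) {z w : K} {c4 c6 Δ : ℤ}
    (hH : HF z w = -(c4 : K)) (hT : TF z w = -(c6 : K)) (hΔ : c4 ^ 3 - c6 ^ 2 = 1728 * Δ) :
    fF z w ^ 5 = -(Δ : K) := by
  have h := klein_relation z w
  rw [hH, hT] at h
  have hΔ' : (c4 : K) ^ 3 - (c6 : K) ^ 2 = 1728 * (Δ : K) := by exact_mod_cast congrArg (Int.cast : ℤ → K) hΔ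
  apply mul_left_cancel₀ h1728
  linear_combination -h - hΔ'

/-- **C1, local part.**  `A` a valuation subring of `K` over a prime `p ∉ {2, 3, 5}`;
`v₀ = (z₀, w₀)` a Klein parameter of an integral curve with `p ∤ Δ`; `(s, t)` integers not both
divisible by `p`, and `c₄', c₆', Δ'` the integral invariants at `v = s v₀ + t ∇f(v₀)`.  Then the new
curve is semistable at `p`: `p ∣ Δ' → ¬ p ∣ c₄'`.  Moreover `v₀` and `v` are integral and primitive,
and `f(v₀)` is a unit. -/
theorem not_dvd_c4_of_dvd_Δ (hp : p.Prime) (hp2 : p ≠ 2) (hp3 : p ≠ 3) (hp5 : p ≠ 5)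
    (hpA : (p : K) ∈ A.nonunits) {z0 w0 : K} {c4 c6 Δ : ℤ}
    (hH : HF z0 w0 = -(c4 : K)) (hT : TF z0 w0 = -(c6 : K))
    (hΔ : c4 ^ 3 - c6 ^ 2 = 1728 * Δ) (hpΔ : ¬ (p : ℤ) ∣ Δ)
    {s t : ℤ} (hst : ¬ ((p : ℤ) ∣ s ∧ (p : ℤ) ∣ t)) {c4' c6' Δ' : ℤ}
    (hH' : HF (s * z0 + t * wf1 z0 w0) (s * w0 + t * wf2 z0 w0) = -(c4' : K))
    (hT' : TF (s * z0 + t * wf1 z0 w0) (s * w0 + t * wf2 z0 w0) = -(c6' : K))
    (hΔ' : c4' ^ 3 - c6' ^ 2 = 1728 * Δ') :
    (z0 ∈ A ∧ w0 ∈ A ∧ A.valuation (fF z0 w0) = 1) ∧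
      ((p : ℤ) ∣ Δ' → ¬ (p : ℤ) ∣ c4') := by
  have hnd : ∀ m : ℕ, m.Prime → p ≠ m → ¬ (p : ℤ) ∣ (m : ℤ) := by
    intro m hm hne hdvd
    have := (Nat.prime_dvd_prime_iff_eq hp hm).mp (by exact_mod_cast hdvd)
    exact hne this
  have h2 : A.valuation (2 : K) = 1 := by
    have := valuation_intCast_eq_one A hp hpA (n := 2) (hnd 2 Nat.prime_two hp2)
    simpa using this
  have h3 : A.valuation (3 : K) = 1 := by
    have := valuation_intCast_eq_one A hp hpA (n := 3) (hnd 3 Nat.prime_three hp3)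
    simpa using this
  have h5 : A.valuation (5 : K) = 1 := by
    have := valuation_intCast_eq_one A hp hpA (n := 5) (hnd 5 Nat.prime_five hp5)
    simpa using this
  have h1728 : (1728 : K) ≠ 0 := by
    have : (1728 : K) = 2 ^ 6 * 3 ^ 3 := by norm_num
    intro h0
    have hv : A.valuation (1728 : K) = 1 := by rw [this, map_mul, map_pow, map_pow, h2, h3]; simp
    rw [h0, map_zero] at hv
    exact zero_ne_one hv
  -- `f(v₀)` is a unit
  have hf5 := fF_pow_five h1728 hH hT hΔ
  have hf : A.valuation (fF z0 w0) = 1 := by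
    have : A.valuation (fF z0 w0) ^ 5 = 1 := by
      rw [← map_pow, hf5, Valuation.map_neg]
      exact valuation_intCast_eq_one A hp hpA hpΔ
    exact (pow_eq_one_iff.mp this).resolve_right (by norm_num)
  have hHA : HF z0 w0 ∈ A := by rw [hH]; exact neg_mem (intCast_mem A c4)
  obtain ⟨hz, hw, -⟩ := mem_of_unit_fF A h5 hf hHA
  refine ⟨⟨hz, hw, hf⟩, fun hΔ'p hc4'p => ?_⟩
  have hst' : ¬ ((s : K) ∈ A.nonunits ∧ (t : K) ∈ A.nonunits) := fun h =>
    hst ⟨dvd_of_intCast_mem_nonunits A hp hpA h.1, dvd_of_intCast_mem_nonunits A hp hpA h.2⟩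
  obtain ⟨hP, hQ, hprim⟩ := family_primitive A h2 h3 hz hw hf (intCast_mem A s) (intCast_mem A t)
    hst'
  apply not_nonunits_fF_HF A h5 hP hQ hprim
  constructor
  · -- `f(v)⁵ = -Δ'` is a nonunit
    have hf5' := fF_pow_five h1728 hH' hT' hΔ'
    have hlt : A.valuation (fF (s * z0 + t * wf1 z0 w0) (s * w0 + t * wf2 z0 w0)) ^ 5 < 1 := by
      rw [← map_pow, hf5', Valuation.map_neg, ← A.mem_nonunits_iff]
      exact intCast_mem_nonunits_of_dvd A hpA hΔ'p
    rw [A.mem_nonunits_iff]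
    by_contra hge
    rw [not_lt] at hge
    exact absurd hlt (not_lt.mpr (one_le_pow₀ hge))
  · rw [hH']
    exact neg_mem (intCast_mem_nonunits_of_dvd A hpA hc4'p) |> fun h => by
      simpa using h

end Integers

end Fermat.Agent.S52.SemistableLocal
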