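import Mathlib
import Fermat.Agent.S52.SemistableLocal
import Fermat.Agent.S52.AssemblySpec
import Fermat.Agent.Lib.EC.FunctionField.Places

/-!
# S52, package C1: the members of the Klein family are semistable away from `30 Δ_W`

helper10.  `familySemistable` proves `AssemblySpec.FamilySemistable W z0 w0` for every Klein
parameter `(z0, w0)` of `W`, from the local lemma `SemistableLocal.not_dvd_c4_of_dvd_Δ` at a
valuation subring of `ℚ̄` over `p`.
-/

set_option autoImplicit false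

namespace Fermat.Agent.S52.Semistable

open WeierstrassCurve Fermat.Agent.S52.Klein Fermat.Agent.S52.AssemblySpec
  Fermat.Agent.S52.SemistableLocal

local notation "Qbar" => AlgebraicClosure ℚ

/-- A valuation subring of `ℚ̄` in which the prime `p` is a nonunit. -/
theorem exists_valuationSubring_over {p : ℕ} (hp : p.Prime) :
    ∃ A : ValuationSubring Qbar, ((p : ℕ) : Qbar) ∈ A.nonunits := by
  have hI : Ideal.span {(p : ℤ)} ≠ ⊤ := by
    rw [Ne, Ideal.span_singleton_eq_top]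
    exact (Nat.prime_iff_prime_int.mp hp).not_isUnit
  obtain ⟨A, -, hA⟩ := Fermat.Agent.Lib.EC.Places.exists_valuationSubring_center
    (Int.castRingHom Qbar) (RingHom.injective_int _) (Ideal.span {(p : ℤ)}) hI
  refine ⟨A, ?_⟩
  have := hA (p : ℤ) (Ideal.subset_span rfl)
  simpa using this

/-- **C1.**  For every Klein parameter of `W`, the members of the family with coprime `(s, t)` are
semistable at all primes not dividing `30 Δ_W`. -/
theorem familySemistable (W : WeierstrassCurve ℤ) (z0 w0 : Qbar) (hK : IsKleinParam W z0 w0) :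
    FamilySemistable W z0 w0 := by
  intro s t hst W' hB p hp hp30 hpΔ'
  obtain ⟨A, hpA⟩ := exists_valuationSubring_over hp
  have hne : ∀ m : ℕ, (m : ℤ) ∣ 30 → p ≠ m := by
    rintro m hm rfl
    exact hp30 (Dvd.dvd.mul_right hm _)
  have hpΔ : ¬ (p : ℤ) ∣ W.Δ := fun h => hp30 (Dvd.dvd.mul_left h _)
  have hst' : ¬ ((p : ℤ) ∣ s ∧ (p : ℤ) ∣ t) := fun h =>
    (Nat.prime_iff_prime_int.mp hp).not_isUnit (hst.isUnit_of_dvd' h.1 h.2)
  have hrel : ∀ V : WeierstrassCurve ℤ, V.c₄ ^ 3 - V.c₆ ^ 2 = 1728 * V.Δ :=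
    fun V => V.c_relation.symm
  have hH' : HF ((s : Qbar) * z0 + (t : Qbar) * wf1 z0 w0) ((s : Qbar) * w0 + (t : Qbar) * wf2 z0 w0)
      = -((W'.c₄ : ℤ) : Qbar) := by
    have := hB.1
    unfold vz vw at this
    rw [this, neg_neg]
  have hT' : TF ((s : Qbar) * z0 + (t : Qbar) * wf1 z0 w0) ((s : Qbar) * w0 + (t : Qbar) * wf2 z0 w0)
      = -((W'.c₆ : ℤ) : Qbar) := by
    have := hB.2
    unfold vz vw at this
    rw [this, neg_neg]
  exact (not_dvd_c4_of_dvd_Δ A hp (hne 2 (by norm_num)) (hne 3 (by norm_num))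
    (hne 5 (by norm_num)) hpA hK.1 hK.2 (hrel W) hpΔ hst' hH' hT' (hrel W')).2 hpΔ'

/-- By-product for the other packages: a Klein parameter of `W` is integral at every place of `ℚ̄`
over a prime `p ∤ 30 Δ_W`, and `f(v₀)` is a unit there. -/
theorem kleinParam_integral (W : WeierstrassCurve ℤ) (z0 w0 : Qbar) (hK : IsKleinParam W z0 w0)
    {p : ℕ} (hp : p.Prime) (hp30 : ¬ (p : ℤ) ∣ 30 * W.Δ) (A : ValuationSubring Qbar)
    (hpA : ((p : ℕ) : Qbar) ∈ A.nonunits) :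
    z0 ∈ A ∧ w0 ∈ A ∧ A.valuation (fF z0 w0) = 1 := by
  have hne : ∀ m : ℕ, (m : ℤ) ∣ 30 → p ≠ m := by
    rintro m hm rfl
    exact hp30 (Dvd.dvd.mul_right hm _)
  have hpΔ : ¬ (p : ℤ) ∣ W.Δ := fun h => hp30 (Dvd.dvd.mul_left h _)
  have hst' : ¬ ((p : ℤ) ∣ (1 : ℤ) ∧ (p : ℤ) ∣ (0 : ℤ)) := fun h =>
    (Nat.prime_iff_prime_int.mp hp).not_isUnit (isUnit_of_dvd_one h.1)
  have hH' : HF (((1 : ℤ) : Qbar) * z0 + ((0 : ℤ) : Qbar) * wf1 z0 w0)
      (((1 : ℤ) : Qbar) * w0 + ((0 : ℤ) : Qbar) * wf2 z0 w0) = -((W.c₄ : ℤ) : Qbar) := by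
    simpa using hK.1
  have hT' : TF (((1 : ℤ) : Qbar) * z0 + ((0 : ℤ) : Qbar) * wf1 z0 w0)
      (((1 : ℤ) : Qbar) * w0 + ((0 : ℤ) : Qbar) * wf2 z0 w0) = -((W.c₆ : ℤ) : Qbar) := by
    simpa using hK.2
  exact (not_dvd_c4_of_dvd_Δ A hp (hne 2 (by norm_num)) (hne 3 (by norm_num))
    (hne 5 (by norm_num)) hpA hK.1 hK.2 W.c_relation.symm hpΔ hst' hH' hT'
    W.c_relation.symm).1

end Fermat.Agent.S52.Semistable
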