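import Mathlib
import Fermat.Prelude.Def_FLTPrelim_Modularity

set_option autoImplicit false

namespace Fermat.Agent.S52.ModelSpec

open WeierstrassCurve

/-- C0: semistable models have `c₄ ≠ 0` and `c₆ ≠ 0`. -/
def C4C6NeZero : Prop :=
  ∀ W : WeierstrassCurve ℤ, W.Δ ≠ 0 → W.IsSemistableModel → W.c₄ ≠ 0 ∧ W.c₆ ≠ 0

/-- Model: integral model with prescribed `c₄, c₆` congruent to those of `W` modulo 1728. -/
def ExistsModel : Prop :=
  ∀ (W : WeierstrassCurve ℤ) (c4' c6' : ℤ), c4' ≡ W.c₄ [ZMOD 1728] → c6' ≡ W.c₆ [ZMOD 1728] →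
    ∃ W' : WeierstrassCurve ℤ, W'.c₄ = c4' ∧ W'.c₆ = c6' ∧
      W'.a₁ = W.a₁ ∧ W'.a₂ = W.a₂ ∧ W'.a₃ = W.a₃

/-- the short model of `W` over `ℚ` and the explicit variable change. -/
def ShortModel : Prop :=
  ∀ W : WeierstrassCurve ℤ, ∃ C : VariableChange ℚ,
    C • (W.map (Int.castRingHom ℚ)) =
      (⟨0, 0, 0, -27 * (W.c₄ : ℚ), -54 * (W.c₆ : ℚ)⟩ : WeierstrassCurve ℚ)

end Fermat.Agent.S52.ModelSpec
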