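import Mathlib
import Fermat.Agent.S52.ModelSpec

/-!
# S52 work package `Model`: elementary facts about integral Weierstrass models

* `c4c6NeZero`: a semistable integral model with `Δ ≠ 0` has `c₄ ≠ 0` and `c₆ ≠ 0`;
* `existsModel`: `c₄, c₆` can be changed modulo `1728` keeping `a₁, a₂, a₃`;
* `shortModel`: the explicit change of variables to `y² = x³ - 27 c₄ x - 54 c₆` over `ℚ`.
-/

set_option autoImplicit false

namespace Fermat.Agent.S52.Model

open WeierstrassCurve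

/-! ### (a) `c₄ ≠ 0` and `c₆ ≠ 0` for semistable models -/

/-- An integer without prime divisors is `±1`. -/
lemma natAbs_eq_one_of_no_prime_dvd {n : ℤ} (h : ∀ p : ℕ, p.Prime → ¬ (p : ℤ) ∣ n) :
    n.natAbs = 1 := by
  by_contra hne
  obtain ⟨p, hp, hpd⟩ := Nat.exists_prime_and_dvd hne
  exact h p hp (Int.natCast_dvd.2 hpd)

lemma eq_one_or_neg_one_of_no_prime_dvd {n : ℤ} (h : ∀ p : ℕ, p.Prime → ¬ (p : ℤ) ∣ n) :
    n = 1 ∨ n = -1 :=
  Int.natAbs_eq_natAbs_iff.1 (by rw [natAbs_eq_one_of_no_prime_dvd h]; rfl)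

/-- `1728` is not a perfect square. -/
lemma sq_ne_1728 (x : ℤ) : x ^ 2 ≠ 1728 := by
  intro h
  have h1 : x.natAbs ^ 2 = 1728 := by
    have := congrArg Int.natAbs h
    simpa [Int.natAbs_pow] using this
  have h2 : x.natAbs < 42 := by
    by_contra hlt
    have hlt := not_lt.1 hlt
    have : 42 ^ 2 ≤ x.natAbs ^ 2 := Nat.pow_le_pow_left hlt 2
    omega
  have h3 : 41 < x.natAbs := by
    by_contra hlt
    have hlt := not_lt.1 hlt
    have : x.natAbs ^ 2 ≤ 41 ^ 2 := Nat.pow_le_pow_left hlt 2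
    omega
  omega

/-- The only cube roots of `±1728` are `±12`. -/
lemma eq_of_cube_eq_1728 {x : ℤ} (h : x ^ 3 = 1728) : x = 12 := by
  have h12 : (12 : ℤ) ^ 3 = 1728 := by norm_num
  exact (Odd.strictMono_pow (by decide : Odd 3)).injective (h.trans h12.symm)

lemma eq_of_cube_eq_neg_1728 {x : ℤ} (h : x ^ 3 = -1728) : x = -12 := by
  have h12 : (-12 : ℤ) ^ 3 = -1728 := by norm_num
  exact (Odd.strictMono_pow (by decide : Odd 3)).injective (h.trans h12.symm)

/-- `c₄` of an integral Weierstrass equation is never `±12`. -/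
lemma c₄_ne_twelve (W : WeierstrassCurve ℤ) : W.c₄ ≠ 12 ∧ W.c₄ ≠ -12 := by
  have key : ∀ x y : ZMod 8, (x ^ 2 + 4 * y) ^ 2 ≠ 4 := by decide
  have hc : ((W.c₄ : ℤ) : ZMod 8) = ((W.a₁ : ZMod 8) ^ 2 + 4 * (W.a₂ : ZMod 8)) ^ 2 := by
    simp only [c₄, b₂, b₄]
    push_cast
    have h24 : (24 : ZMod 8) = 0 := by decide
    rw [h24, zero_mul, sub_zero]
  constructor
  · intro h
    rw [h] at hc
    exact key _ _ (hc.symm.trans (by decide))
  · intro h
    rw [h] at hc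
    exact key _ _ (hc.symm.trans (by decide))

theorem c4c6NeZero : ModelSpec.C4C6NeZero := by
  intro W hΔ hss
  have hrel := W.c_relation
  constructor
  · intro h4
    have hno : ∀ p : ℕ, p.Prime → ¬ (p : ℤ) ∣ W.Δ := by
      intro p hp hd
      exact hss p hp hd (h4 ▸ dvd_zero _)
    rw [h4] at hrel
    rcases eq_one_or_neg_one_of_no_prime_dvd hno with h | h
    · rw [h] at hrel
      nlinarith [sq_nonneg W.c₆]
    · rw [h] at hrel
      exact sq_ne_1728 W.c₆ (by linarith)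
  · intro h6
    rw [h6] at hrel
    have hno : ∀ p : ℕ, p.Prime → ¬ (p : ℤ) ∣ W.Δ := by
      intro p hp hd
      have h1 : (p : ℤ) ∣ W.c₄ ^ 3 := by
        have : W.c₄ ^ 3 = 1728 * W.Δ := by linarith
        rw [this]
        exact Dvd.dvd.mul_left hd _
      exact hss p hp hd ((Nat.prime_iff_prime_int.1 hp).dvd_of_dvd_pow h1)
    rcases eq_one_or_neg_one_of_no_prime_dvd hno with h | h
    · rw [h] at hrel
      exact (c₄_ne_twelve W).1 (eq_of_cube_eq_1728 (by linarith))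
    · rw [h] at hrel
      exact (c₄_ne_twelve W).2 (eq_of_cube_eq_neg_1728 (by linarith))

/-! ### (b) prescribing `c₄, c₆` modulo 1728 -/

theorem existsModel : ModelSpec.ExistsModel := by
  intro W c4' c6' h4 h6
  obtain ⟨k, hk⟩ := (Int.modEq_iff_dvd.1 h4.symm)
  obtain ⟨m, hm⟩ := (Int.modEq_iff_dvd.1 h6.symm)
  refine ⟨⟨W.a₁, W.a₂, W.a₃, W.a₄ - 36 * k, W.a₆ - 3 * W.b₂ * k - 2 * m⟩, ?_, ?_, rfl, rfl, rfl⟩
  · have : c4' = W.c₄ + 1728 * k := by linarith
    rw [this]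
    simp only [c₄, b₂, b₄]
    ring
  · have : c6' = W.c₆ + 1728 * m := by linarith
    rw [this]
    simp only [c₆, b₂, b₄, b₆]
    ring

/-! ### (c) the short model -/

theorem shortModel : ModelSpec.ShortModel := by
  intro W
  have h6 : (6 : ℚ) ≠ 0 := by norm_num
  refine ⟨⟨(Units.mk0 (6 : ℚ) h6)⁻¹, -((W.b₂ : ℤ) : ℚ) / 12, -((W.a₁ : ℤ) : ℚ) / 2,
    -(((W.a₃ : ℤ) : ℚ) + (-((W.b₂ : ℤ) : ℚ) / 12) * ((W.a₁ : ℤ) : ℚ)) / 2⟩, ?_⟩
  ext
  · simp only [variableChange_a₁, map_a₁, inv_inv, Units.val_mk0]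
    simp
    ring
  · simp only [variableChange_a₂, map_a₂, map_a₁, inv_inv, Units.val_mk0]
    simp [b₂]
    ring
  · simp only [variableChange_a₃, map_a₃, map_a₁, inv_inv, Units.val_mk0]
    simp
    ring
  · simp only [variableChange_a₄, map_a₄, map_a₃, map_a₂, map_a₁, inv_inv, Units.val_mk0]
    simp [b₂, b₄, c₄]
    ring
  · simp only [variableChange_a₆, map_a₆, map_a₄, map_a₃, map_a₂, map_a₁, inv_inv, Units.val_mk0]
    simp [b₂, b₄, b₆, c₆]
    ring

end Fermat.Agent.S52.Model
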