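import Mathlib
import Fermat.Agent.S05.Transfer
import Fermat.Agent.S51.Torsion
import Fermat.Agent.S52.Model
import Fermat.Agent.Lib.EC.ReductionTorsion

/-!
# S52: Klein-free glue for block (B)

* `card_torsion_five_le`: over a field with `2, 3, 5 ≠ 0`, the `5`-torsion of a Weierstrass curve
  has at most `25` elements (the root count of S51 gives `≤ 33`, and the cardinality is a power
  of `5`).
* `IsConj σ P Q`: coordinatewise statement "`Q = σ(P)`" for points of an arbitrary Weierstrass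
  curve over a field (no base-change structure needed to state it).
* `exists_equiv_of_param`: from injective additive maps `L, L'` of a `ZMod 5`-module `A` with `25`
  elements into the points of the short models of `W, W'` over `ℚ̄`, with the same Galois
  "matrices", an equivariant linear equivalence `E[5] ≃ E'[5]`, and both torsion cardinalities.
* `five_dvd_apOfModel_sub`: hence `5 ∣ a_ℓ(W') - a_ℓ(W)` (given the Frobenius relations of EC10).
-/

set_option autoImplicit false

namespace Fermat.Agent.S52.TorsionGlue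

open WeierstrassCurve WeierstrassCurve.Affine

/-! ### (a) the cardinality of the `5`-torsion -/

section Card

variable {R : Type*} {K : Type*} [CommRing R] [Field K] [DecidableEq K] {W' : Affine R}
  [Algebra R K]

theorem finite_torsion_five (h2 : (2 : K) ≠ 0) (h3 : (3 : K) ≠ 0) (h5 : (5 : K) ≠ 0) :
    Finite (Submodule.torsionBy ℤ (W'⁄K).Point (5 : ℕ)) :=
  Fermat.Agent.S51.torsionBy_finite_of_finite 5
    (Fermat.Agent.S51.five_torsion_finite (E := W'⁄K) h2 h3 h5).1

theorem card_torsion_five_le (h2 : (2 : K) ≠ 0) (h3 : (3 : K) ≠ 0) (h5 : (5 : K) ≠ 0) :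
    Nat.card (Submodule.torsionBy ℤ (W'⁄K).Point (5 : ℕ)) ≤ 25 := by
  have : Fact (Nat.Prime 5) := ⟨by norm_num⟩
  have hfin := finite_torsion_five (W' := W') h2 h3 h5
  have h33 : Nat.card (Submodule.torsionBy ℤ (W'⁄K).Point (5 : ℕ)) ≤ 33 := by
    rw [Fermat.Agent.S51.card_torsionBy_eq_ncard]
    exact (Fermat.Agent.S51.five_torsion_finite (E := W'⁄K) h2 h3 h5).2
  have h := Module.natCard_eq_pow_finrank (K := ZMod 5)
    (V := Submodule.torsionBy ℤ (W'⁄K).Point (5 : ℕ))
  rw [Nat.card_zmod] at h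
  rw [h] at h33 ⊢
  have hd : Module.finrank (ZMod 5) (Submodule.torsionBy ℤ (W'⁄K).Point (5 : ℕ)) < 3 := by
    by_contra hge
    have hge : 3 ≤ Module.finrank (ZMod 5) (Submodule.torsionBy ℤ (W'⁄K).Point (5 : ℕ)) := by
      omega
    have : 5 ^ 3 ≤ 5 ^ Module.finrank (ZMod 5) (Submodule.torsionBy ℤ (W'⁄K).Point (5 : ℕ)) :=
      Nat.pow_le_pow_right (by norm_num) hge
    omega
  calc 5 ^ Module.finrank (ZMod 5) (Submodule.torsionBy ℤ (W'⁄K).Point (5 : ℕ)) ≤ 5 ^ 2 :=
        Nat.pow_le_pow_right (by norm_num) (by omega)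
    _ = 25 := by norm_num

end Card

/-! ### (b) coordinatewise conjugation of points -/

section Conj

variable {K : Type*} [Field K]

/-- `IsConj σ P Q`: the point `Q` is obtained from `P` by applying `σ` to the coordinates.
Stated for an arbitrary Weierstrass curve `E` over `K` (no base-change structure needed). -/
def IsConj {E : Affine K} (σ : K → K) : E.Point → E.Point → Prop
  | .zero, .zero => True
  | .some x y _, .some x' y' _ => x' = σ x ∧ y' = σ y
  | _, _ => False

@[simp] theorem isConj_zero_zero {E : Affine K} (σ : K → K) :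
    IsConj σ (0 : E.Point) (0 : E.Point) := trivial

theorem isConj_some_some {E : Affine K} (σ : K → K) {x y x' y' : K}
    (h : E.Nonsingular x y) (h' : E.Nonsingular x' y') :
    IsConj σ (Point.some x y h) (Point.some x' y' h') ↔ x' = σ x ∧ y' = σ y := Iff.rfl

variable {F : Type*} [Field F] [Algebra F K] [DecidableEq K] {F0 : Affine F}

/-- For a base-changed curve, `IsConj σ P Q` says `Q = σ(P)`. -/
theorem isConj_iff_eq_map (σ : K →ₐ[F] K) (P Q : (F0⁄K).Point) :
    IsConj (⇑σ) P Q ↔ Q = Point.map (W' := F0) σ P := by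
  rcases P with _ | ⟨x, y, h⟩ <;> rcases Q with _ | ⟨x', y', h'⟩
  · exact ⟨fun _ => rfl, fun _ => trivial⟩
  · refine ⟨fun h => h.elim, fun h => ?_⟩
    have : Point.map (W' := F0) σ (Point.zero : (F0⁄K).Point) = 0 := rfl
    rw [show (Point.zero : (F0⁄K).Point) = 0 from rfl, _root_.map_zero] at h
    exact Point.some_ne_zero _ h
  · refine ⟨fun h => h.elim, fun h => ?_⟩
    rw [Point.map_some] at h
    exact (Point.some_ne_zero _ h.symm).elim
  · rw [Point.map_some]
    constructor
    · rintro ⟨rfl, rfl⟩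
      rfl
    · intro h
      rw [Point.some.injEq] at h
      exact ⟨h.1, h.2⟩

end Conj

/-! ### (c) abstract glue -/

section Abstract

/-- Two bijective parametrisations with the same "matrices" give an equivariant isomorphism. -/
theorem exists_addEquiv_of_param {G : Type*} [Group G] {A T T' : Type*} [AddCommGroup A]
    [AddCommGroup T] [AddCommGroup T'] [DistribMulAction G T] [DistribMulAction G T']
    (B : A →+ T) (B' : A →+ T') (hB : Function.Bijective B) (hB' : Function.Bijective B')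
    (h : ∀ σ : G, ∃ m : A → A, (∀ u, σ • B u = B (m u)) ∧ ∀ u, σ • B' u = B' (m u)) :
    ∃ e : T ≃+ T', ∀ (σ : G) (P : T), e (σ • P) = σ • e P := by
  let eB : A ≃+ T := AddEquiv.ofBijective B hB
  let eB' : A ≃+ T' := AddEquiv.ofBijective B' hB'
  have key : ∀ u, (eB.symm.trans eB') (B u) = B' u := by
    intro u
    have : eB.symm (B u) = u := eB.symm_apply_apply u
    simp only [AddEquiv.trans_apply, this]
    rfl
  refine ⟨eB.symm.trans eB', fun σ P => ?_⟩
  obtain ⟨u, rfl⟩ := hB.2 P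
  obtain ⟨m, hm, hm'⟩ := h σ
  rw [hm u, key, key, hm' u]

end Abstract

/-! ### (d) the glue for `W, W'` -/

section Glue

local notation "Qbar" => AlgebraicClosure ℚ

open Fermat.Agent.Lib.EC.ReductionTorsion Fermat.Agent.Lib.EC.TraceAbstract

/-- The short model `y² = x³ - 27 c₄ x - 54 c₆` over `ℚ`. -/
def shortQ (W : WeierstrassCurve ℤ) : Affine ℚ :=
  ⟨0, 0, 0, -27 * (W.c₄ : ℚ), -54 * (W.c₆ : ℚ)⟩

/-- The short model `y² = x³ - 27 c₄ x - 54 c₆` over `ℚ̄`. -/
noncomputable def shortQbar (W : WeierstrassCurve ℤ) : Affine Qbar :=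
  ⟨0, 0, 0, -27 * ((W.c₄ : ℤ) : Qbar), -54 * ((W.c₆ : ℤ) : Qbar)⟩

theorem shortQ_baseChange (W : WeierstrassCurve ℤ) : ((shortQ W)⁄Qbar) = shortQbar W := by
  ext <;> simp [shortQ, shortQbar, WeierstrassCurve.baseChange, WeierstrassCurve.map]

/-- The transfer from the short model to the original model over `ℚ̄`. -/
theorem exists_transfer_short (W : WeierstrassCurve ℤ) :
    ∃ ψ : ((shortQ W)⁄Qbar).Point →+ (curveQbar W).Point, Function.Injective ψ ∧
      ∀ (σ : Qbar ≃ₐ[ℚ] Qbar) (P : ((shortQ W)⁄Qbar).Point),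
        ψ (Point.map (W' := shortQ W) σ.toAlgHom P) = σ • ψ P := by
  obtain ⟨C, hC⟩ := Model.shortModel W
  obtain ⟨ψ, hinj, hψ⟩ := Fermat.Agent.S05.exists_transfer (K := Qbar) (shortQ W)
    (W.map (Int.castRingHom ℚ)).toAffine C hC
  exact ⟨ψ, hinj, fun σ P => hψ σ.toAlgHom P⟩

/-- One curve: an injective parametrisation of points of the short model by a `ZMod 5`-module with
`25` elements gives a bijective parametrisation of `E[5](ℚ̄)` for the original model, and
coordinatewise conjugation becomes the Galois action. -/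
theorem exists_bijective_param (W : WeierstrassCurve ℤ) {A : Type*} [AddCommGroup A]
    [Module (ZMod 5) A] (hA : Nat.card A = 25) {E0 : Affine Qbar}
    (hE0 : ((shortQ W)⁄Qbar) = E0) (L : A →+ E0.Point) (hL : Function.Injective L) :
    ∃ B : A →+ tors (curveQbar W).Point 5, Function.Bijective B ∧
      ∀ (σ : Qbar ≃ₐ[ℚ] Qbar) (u v : A), IsConj (⇑σ) (L u) (L v) → σ • B u = B v := by
  subst hE0
  obtain ⟨ψ, hψinj, hψ⟩ := exists_transfer_short W
  have h5A : ∀ u : A, (5 : ℤ) • u = 0 := by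
    intro u
    have h : ((5 : ℕ) : ZMod 5) • u = 0 := by
      rw [ZMod.natCast_self, zero_smul]
    rw [Nat.cast_smul_eq_nsmul] at h
    rw [← natCast_zsmul] at h
    exact_mod_cast h
  have hmem : ∀ u, ψ (L u) ∈ tors (curveQbar W).Point 5 := by
    intro u
    rw [mem_tors, ← map_zsmul, ← map_zsmul]
    have : ((5 : ℕ) : ℤ) • u = 0 := by simpa using h5A u
    rw [this, _root_.map_zero, _root_.map_zero]
  let B : A →+ tors (curveQbar W).Point 5 := (ψ.comp L).codRestrict _ hmem
  have hBinj : Function.Injective B := by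
    intro u v huv
    have : ψ (L u) = ψ (L v) := congrArg Subtype.val huv
    exact hL (hψinj this)
  have h2 : (2 : Qbar) ≠ 0 := two_ne_zero
  have h3 : (3 : Qbar) ≠ 0 := three_ne_zero
  have h5 : (5 : Qbar) ≠ 0 := by norm_num
  have hfin : Finite (tors (curveQbar W).Point 5) :=
    finite_torsion_five (W' := (W.map (Int.castRingHom ℚ)).toAffine) h2 h3 h5
  have hcard : Nat.card (tors (curveQbar W).Point 5) ≤ 25 :=
    card_torsion_five_le (W' := (W.map (Int.castRingHom ℚ)).toAffine) h2 h3 h5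
  have hBbij : Function.Bijective B := hBinj.bijective_of_nat_card_le (by rw [hA]; exact hcard)
  refine ⟨B, hBbij, fun σ u v huv => ?_⟩
  apply Subtype.ext
  have h1 : L v = Point.map (W' := shortQ W) σ.toAlgHom (L u) :=
    (isConj_iff_eq_map (F0 := shortQ W) σ.toAlgHom (L u) (L v)).mp huv
  show σ • ψ (L u) = ψ (L v)
  rw [h1, hψ]

/-- **The glue.** -/
theorem exists_equiv_of_param (W W' : WeierstrassCurve ℤ) {A : Type*} [AddCommGroup A]
    [Module (ZMod 5) A] (hA : Nat.card A = 25) {E0 E0' : Affine Qbar}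
    (hE0 : E0 = shortQbar W) (hE0' : E0' = shortQbar W')
    (L : A →+ E0.Point) (L' : A →+ E0'.Point)
    (hL : Function.Injective L) (hL' : Function.Injective L')
    (hGal : ∀ σ : Qbar ≃ₐ[ℚ] Qbar, ∃ m : A → A,
      (∀ u, IsConj (⇑σ) (L u) (L (m u))) ∧ ∀ u, IsConj (⇑σ) (L' u) (L' (m u))) :
    TorsionCardHyp W 5 ∧ TorsionCardHyp W' 5 ∧
      ∃ e : tors (curveQbar W).Point 5 ≃ₗ[ZMod 5] tors (curveQbar W').Point 5,
        ∀ (σ : Qbar ≃ₐ[ℚ] Qbar) (P : tors (curveQbar W).Point 5), e (σ • P) = σ • e P := by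
  obtain ⟨B, hB, hBσ⟩ := exists_bijective_param W hA
    ((shortQ_baseChange W).trans hE0.symm) L hL
  obtain ⟨B', hB', hBσ'⟩ := exists_bijective_param W' hA
    ((shortQ_baseChange W').trans hE0'.symm) L' hL'
  have hT : TorsionCardHyp W 5 := by
    show Nat.card (tors (curveQbar W).Point 5) = 5 ^ 2
    rw [← Nat.card_eq_of_bijective B hB, hA]
    norm_num
  have hT' : TorsionCardHyp W' 5 := by
    show Nat.card (tors (curveQbar W').Point 5) = 5 ^ 2
    rw [← Nat.card_eq_of_bijective B' hB', hA]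
    norm_num
  obtain ⟨e, he⟩ := exists_addEquiv_of_param (G := Qbar ≃ₐ[ℚ] Qbar) B B' hB hB' (fun σ => by
    obtain ⟨m, hm, hm'⟩ := hGal σ
    exact ⟨m, fun u => hBσ σ u (m u) (hm u), fun u => hBσ' σ u (m u) (hm' u)⟩)
  refine ⟨hT, hT', LinearEquiv.ofBijective (e.toAddMonoidHom.toZModLinearMap 5) e.bijective, ?_⟩
  intro σ P
  exact he σ P

/-- **Block (B) of S52.** With the parametrisations of `exists_equiv_of_param` and the Frobenius
relations (EC10) for both models, `5 ∣ a_ℓ(W') - a_ℓ(W)`. -/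
theorem five_dvd_apOfModel_sub (W W' : WeierstrassCurve ℤ) {A : Type*} [AddCommGroup A]
    [Module (ZMod 5) A] (hA : Nat.card A = 25) {E0 E0' : Affine Qbar}
    (hE0 : E0 = shortQbar W) (hE0' : E0' = shortQbar W')
    (L : A →+ E0.Point) (L' : A →+ E0'.Point)
    (hL : Function.Injective L) (hL' : Function.Injective L')
    (hGal : ∀ σ : Qbar ≃ₐ[ℚ] Qbar, ∃ m : A → A,
      (∀ u, IsConj (⇑σ) (L u) (L (m u))) ∧ ∀ u, IsConj (⇑σ) (L' u) (L' (m u)))
    {ℓ : ℕ} (hℓ : ℓ.Prime) (hℓ5 : ℓ ≠ 5) (hgood : W.IsGoodPrimeFor ℓ)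
    (hgood' : W'.IsGoodPrimeFor ℓ) (hF : FrobeniusHyp W ℓ) (hF' : FrobeniusHyp W' ℓ) :
    (5 : ℤ) ∣ W'.apOfModel ℓ - W.apOfModel ℓ := by
  have : Fact (Nat.Prime 5) := ⟨by norm_num⟩
  have : Fact ℓ.Prime := ⟨hℓ⟩
  obtain ⟨hT, hT', e, he⟩ := exists_equiv_of_param W W' hA hE0 hE0' L L' hL hL' hGal
  have := apOfModel_congr_of_torsion_iso W W' e he (Ne.symm hℓ5) hgood hgood' hT hT' hF hF'
  exact_mod_cast this

end Glue

end Fermat.Agent.S52.TorsionGlue
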