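/-
helper2.  P-ELL / S52, block C2 glue: `AssemblySpec.FamilyAux` (the auxiliary prime for the family).

Inputs: `AuxPrime.auxPrime` (helper51; density bridge), `GroupLemma`, `FrobDensity`, K2 (helper60:
`kL`, `conj_kL`, `kL_T`, `kL_smul_pos/neg`, `exists_smul_T_of_pQ_eq`, `kL_injective`),
`TorsionGlue.exists_bijective_param` (helper28), `Semistable.kleinParam_integral` (helper10),
`Family.exists_int_forms` (helper51), `Cusp.cusp` (helper2).

* `exists_omega_of_conj_neg` (pure K2): if coordinatewise conjugation by `σ` (fixing `A`, `B`, `ζ`)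
  acts as `-1` on the level structure `kL h0 hζ`, then `σ v₀ = -ω v₀` with `ω ∈ μ₅`.
* `conj_neg_of_smul_neg`: if `φ` acts as `-1` on `E[5]` (`E = W.map ℚ`), then conjugation by `φ`
  acts as `-1` on the level structure of the short model.
* `exists_basis_hasCyclotomicDet`: the basis of `E[5]` coming from `kL` and `HasCyclotomicDet` for
  it, from the action of Galois on the level structure by matrices of determinant the cyclotomic
  character (`hdet`, exported by A2 part 2).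
* `familyAux`: `AssemblySpec.FamilyAux z0 w0`.
-/
import Mathlib
import Fermat.Agent.S52.Klein.Equivariance
import Fermat.Agent.S52.Klein.Galois
import Fermat.Agent.S52.Param
import Fermat.Agent.S52.Cusp
import Fermat.Agent.S52.AssemblySpec
import Fermat.Agent.S52.AuxPrime
import Fermat.Agent.S52.GroupLemma
import Fermat.Agent.S52.J0J1728
import Fermat.Agent.S52.Semistable
import Fermat.Agent.S52.Family
import Fermat.Agent.S52.TorsionGlue
import Fermat.Agent.Lib.FrobDensity.TwoSided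

set_option autoImplicit false
set_option linter.unusedSectionVars false

namespace Fermat.Agent.S52.FamilyAux

open WeierstrassCurve WeierstrassCurve.Affine
open Fermat.Agent.S52.Klein Fermat.Agent.S52.Klein.ShortCurve

section KleinSide

variable {K : Type*} [Field K] [CharZero K] [DecidableEq K] {A B z0 w0 ζ : K}

theorem kL_congr_param {z w z' w' : K} (h : IsParam A B z w) (h' : IsParam A B z' w')
    (hζ : IsZeta5 ζ) (ez : z = z') (ew : w = w') : kL h hζ = kL h' hζ := by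
  subst ez ew
  rfl

/-- iterating `T`. -/
theorem isParam_T_pow (h : IsParam A B z0 w0) (hζ : IsZeta5 ζ) (m : ℕ) :
    IsParam A B (ζ ^ m * z0) w0 := by
  induction m with
  | zero => simpa using h
  | succ n ih =>
    have := ih.T hζ
    rwa [← mul_assoc, ← pow_succ'] at this

theorem kL_T_pow (h : IsParam A B z0 w0) (hζ : IsZeta5 ζ) (m : ℕ) (a b : ZMod 5) :
    kL (isParam_T_pow h hζ m) hζ (a, b) = kL h hζ (a + m * b, b) := by
  induction m generalizing a with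
  | zero =>
    rw [kL_congr_param (isParam_T_pow h hζ 0) h hζ (by simp) rfl]
    simp
  | succ n ih =>
    rw [kL_congr_param (isParam_T_pow h hζ (n + 1)) ((isParam_T_pow h hζ n).T hζ) hζ
      (by rw [pow_succ', mul_assoc]) rfl, kL_T (isParam_T_pow h hζ n) hζ, ih]
    congr 2
    push_cast
    ring

theorem kL_neg_param (h : IsParam A B z0 w0) (hζ : IsZeta5 ζ) (u : ZMod 5 × ZMod 5) :
    kL h.neg hζ u = kL h hζ (-u) := by
  have hc : (-1 : K) ^ 5 = -1 := by norm_num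
  rw [← kL_smul_neg h hζ hc u]
  exact congrFun (congrArg DFunLike.coe (kL_congr_param _ _ hζ (neg_one_mul z0).symm
    (neg_one_mul w0).symm)) u

/-- **The Frobenius on the Klein parameter.**  If coordinatewise conjugation by `σ` (which fixes
`A`, `B` and `ζ`) acts as `-1` on the level structure of `v₀`, then `σ v₀ = -ω v₀` with
`ω ∈ μ₅`. -/
theorem exists_omega_of_conj_neg (h0 : IsParam A B z0 w0) (hζ : IsZeta5 ζ)
    (hH : HF z0 w0 ≠ 0) (hT : TF z0 w0 ≠ 0) (σ : K →+* K)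
    (hA : σ A = A) (hB : σ B = B) (hσζ : σ ζ = ζ)
    (c : (shortW A B).Point →+ (shortW A B).Point)
    (hc : ∀ (x y : K) (h : (shortW A B).Nonsingular x y),
      ∃ h' : (shortW A B).Nonsingular (σ x) (σ y),
        c (Point.some x y h) = Point.some (σ x) (σ y) h')
    (hneg : ∀ u, c (kL h0 hζ u) = -kL h0 hζ u) :
    ∃ ω : K, ω ^ 5 = 1 ∧ σ z0 = -ω * z0 ∧ σ w0 = -ω * w0 := by
  have h1 : ∀ u, kL (h0.map σ hA hB) hζ u = kL h0 hζ (-u) := by
    rintro ⟨a, b⟩
    have := conj_kL h0 hζ σ hA hB c hc (k := 1) (by decide) (by rw [hσζ, pow_one]) a b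
    rw [Nat.cast_one, one_mul] at this
    rw [← this, hneg, map_neg]
  have hQ : pQ h0.neg hζ = pQ (h0.map σ hA hB) hζ := by
    rw [← kL_one_zero, ← kL_one_zero, h1, kL_neg_param]
  obtain ⟨c', m, hm, hz, hw⟩ := exists_smul_T_of_pQ_eq h0.neg (h0.map σ hA hB) hζ hQ
  have hTm := isParam_T_pow h0.neg hζ m
  -- `c' ^ 10 = 1`
  have hc10 : c' ^ 10 = 1 := by
    have hσ := h0.map σ hA hB
    have hHm : HF (ζ ^ m * -z0) (-w0) ≠ 0 := by
      intro h
      have := hTm.hA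
      rw [h, mul_zero] at this
      have h2 := h0.hA
      rw [← this] at h2
      exact hH (by simpa using h2)
    have hTm' : TF (ζ ^ m * -z0) (-w0) ≠ 0 := by
      intro h
      have := hTm.hB
      rw [h, mul_zero] at this
      have h2 := h0.hB
      rw [← this] at h2
      exact hT (by simpa using h2)
    have e1 : HF (c' * (ζ ^ m * -z0)) (c' * -w0) = HF (ζ ^ m * -z0) (-w0) := by
      have h27 : (27 : K) ≠ 0 := by norm_num
      have a1 := hσ.hA
      rw [hz, hw] at a1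
      have a2 := hTm.hA
      exact mul_left_cancel₀ h27 (a1.trans a2.symm)
    have e2 : TF (c' * (ζ ^ m * -z0)) (c' * -w0) = TF (ζ ^ m * -z0) (-w0) := by
      have h54 : (54 : K) ≠ 0 := by norm_num
      have a1 := hσ.hB
      rw [hz, hw] at a1
      have a2 := hTm.hB
      exact mul_left_cancel₀ h54 (a1.trans a2.symm)
    refine Param.pow_ten_eq_one_of_smul (z := ζ ^ m * -z0) (w := -w0) ?_ ?_ ?_ ?_
    · rwa [Cusp.kH_eq_HF]
    · rwa [Cusp.kT_eq_TF]
    · rw [Cusp.kH_eq_HF, Cusp.kH_eq_HF, e1]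
    · rw [Cusp.kT_eq_TF, Cusp.kT_eq_TF, e2]
  have hS := hTm.smul hc10
  have h2 : ∀ u, kL (h0.map σ hA hB) hζ u = kL hS hζ u := fun u =>
    congrFun (congrArg DFunLike.coe (kL_congr_param _ _ hζ hz hw)) u
  have hc5 : c' ^ 5 = 1 ∨ c' ^ 5 = -1 := by
    have : (c' ^ 5 - 1) * (c' ^ 5 + 1) = 0 := by linear_combination hc10
    rcases mul_eq_zero.1 this with h | h
    · exact Or.inl (by linear_combination h)
    · exact Or.inr (by linear_combination h)
  have hinj := kL_injective h0 hζ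
  rcases hc5 with h5 | h5
  · -- `c' ^ 5 = 1`: then `m = 0`
    have h3 : ∀ a b : ZMod 5, kL h0 hζ (-(a, b)) = kL h0 hζ (-(a + m * b, b)) := by
      intro a b
      rw [← h1, h2, kL_smul_pos hTm hζ h5, kL_T_pow h0.neg hζ m, kL_neg_param h0 hζ]
    have h4 := hinj (h3 0 1)
    have h5' : ((m : ℕ) : ZMod 5) = 0 := by
      have := congrArg Prod.fst h4
      simpa using this.symm
    have hm0 : m = 0 := by
      rw [ZMod.natCast_eq_zero_iff] at h5'
      exact Nat.eq_zero_of_dvd_of_lt h5' hm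
    refine ⟨c', h5, ?_, ?_⟩
    · rw [hz, hm0, pow_zero, one_mul]; ring
    · rw [hw]; ring
  · -- `c' ^ 5 = -1` is impossible
    exfalso
    have h3 : ∀ a b : ZMod 5, kL h0 hζ (-(a, b)) = kL h0 hζ (-(-a + m * -b, -b)) := by
      intro a b
      rw [← h1, h2, kL_smul_neg hTm hζ h5]
      show kL hTm hζ (-a, -b) = _
      rw [kL_T_pow h0.neg hζ m, kL_neg_param h0 hζ]
    have h4 := hinj (h3 0 1)
    have := congrArg Prod.snd h4
    revert this
    simp
    decide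

end KleinSide

section Transfer

local notation "Qbar" => AlgebraicClosure ℚ

open Fermat.Agent.S52.TorsionGlue Fermat.Agent.Lib.EC.ReductionTorsion
  Fermat.Agent.Lib.EC.TraceAbstract Fermat.Agent.S52.AssemblySpec

/-- coordinatewise conjugation, in the sense of `TorsionGlue.IsConj`. -/
theorem isConj_of_conjHom {K : Type*} [Field K] [DecidableEq K] {E : Affine K} (σ : K →+* K)
    (c : E.Point →+ E.Point)
    (hc : ∀ (x y : K) (h : E.Nonsingular x y), ∃ h' : E.Nonsingular (σ x) (σ y),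
      c (Point.some x y h) = Point.some (σ x) (σ y) h') (P : E.Point) :
    IsConj (⇑σ) P (c P) := by
  rcases P with _ | ⟨x, y, h⟩
  · rw [show (Point.zero : E.Point) = 0 from rfl, map_zero]
    exact trivial
  · obtain ⟨h', e⟩ := hc x y h
    rw [e]
    exact ⟨rfl, rfl⟩

theorem card_zmod5_sq : Nat.card (ZMod 5 × ZMod 5) = 25 := by
  rw [Nat.card_prod, Nat.card_zmod]

variable (W : WeierstrassCurve ℤ) {z0 w0 ζ : Qbar}

/-- the Klein parameter of `W` as a parameter of the short model. -/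
theorem isParam_of_isKleinParam (hΔ : W.Δ ≠ 0) (hK : IsKleinParam W z0 w0) :
    IsParam (-27 * ((W.c₄ : ℤ) : Qbar)) (-54 * ((W.c₆ : ℤ) : Qbar)) z0 w0 where
  hA := by rw [hK.1]; ring
  hB := by rw [hK.2]; ring
  hf := by
    intro hf
    have hrel := congrArg (Int.cast : ℤ → Qbar) W.c_relation
    push_cast at hrel
    have hid : TF z0 w0 ^ 2 + HF z0 w0 ^ 3 = 1728 * fF z0 w0 ^ 5 := by
      unfold TF HF fF tF hF gF
      ring
    rw [hK.1, hK.2, hf] at hid
    have h0 : ((W.Δ : ℤ) : Qbar) = 0 := by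
      have h1728 : (1728 : Qbar) ≠ 0 := by norm_num
      apply mul_left_cancel₀ h1728
      linear_combination hrel - hid
    exact hΔ (by exact_mod_cast h0)

/-- If `φ` acts as `-1` on `E[5]`, then coordinatewise conjugation by `φ` acts as `-1` on the
level structure of the short model. -/
theorem conj_neg_of_smul_neg
    (h0 : IsParam (-27 * ((W.c₄ : ℤ) : Qbar)) (-54 * ((W.c₆ : ℤ) : Qbar)) z0 w0)
    (hζ : IsZeta5 ζ) (φ : Qbar ≃ₐ[ℚ] Qbar)
    (hφ : ∀ P : (curveQbar W).Point, (5 : ℤ) • P = 0 → φ • P = -P)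
    (c : (shortW (-27 * ((W.c₄ : ℤ) : Qbar)) (-54 * ((W.c₆ : ℤ) : Qbar))).Point →+
      (shortW (-27 * ((W.c₄ : ℤ) : Qbar)) (-54 * ((W.c₆ : ℤ) : Qbar))).Point)
    (hc : ∀ (x y : Qbar)
      (h : (shortW (-27 * ((W.c₄ : ℤ) : Qbar)) (-54 * ((W.c₆ : ℤ) : Qbar))).Nonsingular x y),
      ∃ h' : (shortW (-27 * ((W.c₄ : ℤ) : Qbar)) (-54 * ((W.c₆ : ℤ) : Qbar))).Nonsingular
          ((φ : Qbar →+* Qbar) x) ((φ : Qbar →+* Qbar) y),
        c (Point.some x y h) = Point.some ((φ : Qbar →+* Qbar) x) ((φ : Qbar →+* Qbar) y) h')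
    (u : ZMod 5 × ZMod 5) : c (kL h0 hζ u) = -kL h0 hζ u := by
  obtain ⟨Bm, hBbij, hBσ⟩ := exists_bijective_param W card_zmod5_sq
    (E0 := shortW (-27 * ((W.c₄ : ℤ) : Qbar)) (-54 * ((W.c₆ : ℤ) : Qbar)))
    (shortQ_baseChange W) (kL h0 hζ) (kL_injective h0 hζ)
  have h5u : (5 : ℕ) • c (kL h0 hζ u) = 0 := by
    rw [← map_nsmul, ← map_nsmul]
    have : (5 : ℕ) • u = 0 := ZModModule.char_nsmul_eq_zero 5 u
    rw [this, map_zero, map_zero]
  obtain ⟨v, hv⟩ := kL_surjective h0 hζ _ h5u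
  have hconj : IsConj (⇑φ) (kL h0 hζ u) (kL h0 hζ v) := by
    rw [hv]
    exact isConj_of_conjHom (φ : Qbar →+* Qbar) c hc _
  have h1 := hBσ φ u v hconj
  have h2 : φ • Bm u = -Bm u := by
    apply Subtype.ext
    have := hφ (Bm u : (curveQbar W).Point) (by
      have := (Bm u).2
      rwa [mem_tors] at this)
    exact this
  have h3 : Bm v = Bm (-u) := by rw [← h1, h2, map_neg]
  have h4 : v = -u := hBbij.1 h3
  rw [← hv, h4, map_neg]

open AuxPrimeSpec AuxPrime in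
/-- the basis of `E[5]` given by the level structure and its determinant. -/
theorem exists_basis_hasCyclotomicDet
    (h0 : IsParam (-27 * ((W.c₄ : ℤ) : Qbar)) (-54 * ((W.c₆ : ℤ) : Qbar)) z0 w0)
    (hζ : IsZeta5 ζ)
    (hdet : ∀ σ : Qbar ≃ₐ[ℚ] Qbar, ∃ (k : ℕ) (p q r s : ZMod 5), σ ζ = ζ ^ k ∧
      p * s - q * r = (k : ZMod 5) ∧ ∀ a b : ZMod 5,
        IsConj (⇑σ) (kL h0 hζ (a, b)) (kL h0 hζ (p * a + q * b, r * a + s * b))) :
    ∃ b : Module.Basis (Fin 2) (ZMod 5) (E5 (W.map (Int.castRingHom ℚ))),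
      HasCyclotomicDet (W.map (Int.castRingHom ℚ)) b ζ := by
  obtain ⟨Bm, hBbij, hBσ⟩ := exists_bijective_param W card_zmod5_sq
    (E0 := shortW (-27 * ((W.c₄ : ℤ) : Qbar)) (-54 * ((W.c₆ : ℤ) : Qbar)))
    (shortQ_baseChange W) (kL h0 hζ) (kL_injective h0 hζ)
  let e : (Fin 2 → ZMod 5) ≃+ E5 (W.map (Int.castRingHom ℚ)) :=
    (LinearEquiv.finTwoArrow (ZMod 5) (ZMod 5)).toAddEquiv.trans (AddEquiv.ofBijective Bm hBbij)
  have he : ∀ f : Fin 2 → ZMod 5, e f = Bm (f 0, f 1) := fun f => rfl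
  have hlin : ∀ x y : ZMod 5, Bm (x, y) = x • Bm (1, 0) + y • Bm (0, 1) := by
    intro x y
    rw [← ZMod.map_smul Bm x, ← ZMod.map_smul Bm y, ← map_add]
    congr 1
    ext <;> simp
  refine ⟨basisOfAddEquiv _ e, hasCyclotomicDet_of_matrix _ _ ζ fun σ => ?_⟩
  obtain ⟨k, p, q, r, s, hk, hd, hm⟩ := hdet σ
  refine ⟨k, !![p, q; r, s], hk, ?_, by rw [Matrix.det_fin_two_of, hd]⟩
  intro j
  rw [Fin.sum_univ_two, basisOfAddEquiv_apply, basisOfAddEquiv_apply, basisOfAddEquiv_apply, he,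
    he, he]
  fin_cases j
  · have := hBσ σ _ _ (hm 1 0)
    simp only [mul_one, mul_zero, add_zero] at this
    simp only [Fin.zero_eta, Fin.isValue, Pi.single_eq_same, ne_eq, zero_ne_one,
      not_false_eq_true, Pi.single_eq_of_ne, one_ne_zero, Matrix.of_apply, Matrix.cons_val',
      Matrix.cons_val_zero, Matrix.cons_val_fin_one, Matrix.cons_val_one]
    rw [this, hlin p r]
  · have := hBσ σ _ _ (hm 0 1)
    simp only [mul_one, mul_zero, zero_add] at this
    simp only [Fin.mk_one, Fin.isValue, ne_eq, one_ne_zero, not_false_eq_true,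
      Pi.single_eq_of_ne, Pi.single_eq_same, zero_ne_one, Matrix.of_apply, Matrix.cons_val',
      Matrix.cons_val_one, Matrix.cons_val_fin_one, Matrix.cons_val_zero]
    rw [this, hlin q s]

/-- the discriminant of a member of the family. -/
theorem intCast_Δ_eq (W' : WeierstrassCurve ℤ) {Z Wc : Qbar}
    (h4 : ((W'.c₄ : ℤ) : Qbar) = -HF Z Wc) (h6 : ((W'.c₆ : ℤ) : Qbar) = -TF Z Wc) :
    ((W'.Δ : ℤ) : Qbar) = -fF Z Wc ^ 5 := by
  have hrel := congrArg (Int.cast : ℤ → Qbar) W'.c_relation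
  push_cast at hrel
  have hid : TF Z Wc ^ 2 + HF Z Wc ^ 3 = 1728 * fF Z Wc ^ 5 := by
    unfold TF HF fF tF hF gF
    ring
  rw [h4, h6] at hrel
  have h1728 : (1728 : Qbar) ≠ 0 := by norm_num
  apply mul_left_cancel₀ h1728
  linear_combination hrel - hid

theorem padicValInt_Δ_eq_five {q : ℕ} [Fact q.Prime] (W' : WeierstrassCurve ℤ) (hΔ : W.Δ ≠ 0)
    (hqΔ : ¬ (q : ℤ) ∣ W.Δ) {Z Wc : Qbar} (hK : IsKleinParam W z0 w0)
    (h4 : ((W'.c₄ : ℤ) : Qbar) = -HF Z Wc) (h6 : ((W'.c₆ : ℤ) : Qbar) = -TF Z Wc) {r : ℚ}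
    (hr : (r : Qbar) = fF Z Wc / fF z0 w0) (hf0 : fF z0 w0 ≠ 0) (hpr : padicValRat q r = 1) :
    padicValInt q W'.Δ = 5 := by
  have h1 := intCast_Δ_eq W' h4 h6
  have h2 := intCast_Δ_eq W (Z := z0) (Wc := w0) (by rw [hK.1, neg_neg]) (by rw [hK.2, neg_neg])
  have h3 : (((W'.Δ : ℤ) : ℚ) : Qbar) = ((((W.Δ : ℤ) : ℚ) * r ^ 5 : ℚ) : Qbar) := by
    push_cast
    rw [h1, h2, hr]
    field_simp
  have h4' : ((W'.Δ : ℤ) : ℚ) = ((W.Δ : ℤ) : ℚ) * r ^ 5 := Rat.cast_injective h3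
  have hr0 : r ≠ 0 := by
    rintro rfl
    simp at hpr
  have hΔQ : ((W.Δ : ℤ) : ℚ) ≠ 0 := by exact_mod_cast hΔ
  have h5 : padicValRat q ((W'.Δ : ℤ) : ℚ) = 5 := by
    rw [h4', padicValRat.mul hΔQ (pow_ne_zero 5 hr0), padicValRat.pow, hpr,
      padicValRat.of_int, padicValInt.eq_zero_of_not_dvd hqΔ]
    norm_num
  rw [padicValRat.of_int] at h5
  exact_mod_cast h5

end Transfer

section Main

local notation "Qbar" => AlgebraicClosure ℚ

open Fermat.Agent.S52.TorsionGlue Fermat.Agent.Lib.EC.ReductionTorsion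
  Fermat.Agent.Lib.EC.TraceAbstract Fermat.Agent.S52.AssemblySpec

/-- rationality of the normalised `f` on the family, from the Galois action. -/
theorem exists_rat_fF {z0 w0 : Qbar} (hf0 : fF z0 w0 ≠ 0) (hG : Family.GalKlein z0 w0)
    (s t : ℤ) : ∃ r : ℚ, (r : Qbar) = fF (vz z0 w0 s t) (vw z0 w0 s t) / fF z0 w0 := by
  obtain ⟨D, Q4, Q6, Qf, hD, -, -, hf⟩ :=
    Family.exists_int_forms (z0 := z0) (w0 := w0) (by rwa [Cusp.kf_eq_fF]) hG
  have h1 := hf (s : Qbar) (t : Qbar)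
  rw [Family.evalQbar_intCast₂, Cusp.kf_eq_fF, Cusp.kf_eq_fF] at h1
  have hvz : Family.vz z0 w0 (s : Qbar) (t : Qbar) = vz z0 w0 s t := by
    unfold Family.vz vz
    rw [Cusp.cov1_eq_wf1]
  have hvw : Family.vw z0 w0 (s : Qbar) (t : Qbar) = vw z0 w0 s t := by
    unfold Family.vw vw
    rw [Cusp.cov2_eq_wf2]
  rw [hvz, hvw] at h1
  have hDQ : (D : Qbar) ≠ 0 := by exact_mod_cast hD
  refine ⟨((MvPolynomial.eval ![s, t] Qf : ℤ) : ℚ) / (D : ℚ), ?_⟩
  push_cast
  rw [div_eq_div_iff hDQ hf0]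
  linear_combination -h1

/-- **C2: the auxiliary prime for the family** (`AssemblySpec.FamilyAux`).  Inputs: `W` semistable
with irreducible mod `5` representation, a Klein parameter `v₀` of `W`, the Galois action on `v₀`
by admissible matrices (`Family.GalKlein`, A2 part 2) and on the level structure of `v₀` by
matrices of determinant the cyclotomic character (`hdet`, A2 part 2). -/
theorem familyAux (W : WeierstrassCurve ℤ) (hΔ : W.Δ ≠ 0) (hW : W.IsSemistableModel)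
    (h5 : W.ModRepIsIrreducible 5) {z0 w0 ζ : Qbar} (hK : IsKleinParam W z0 w0)
    (hζ : IsZeta5 ζ) (hG : Family.GalKlein z0 w0)
    (hdet : ∀ (h0 : IsParam (-27 * ((W.c₄ : ℤ) : Qbar)) (-54 * ((W.c₆ : ℤ) : Qbar)) z0 w0)
      (σ : Qbar ≃ₐ[ℚ] Qbar), ∃ (k : ℕ) (p q r s : ZMod 5), σ ζ = ζ ^ k ∧
      p * s - q * r = (k : ZMod 5) ∧ ∀ a b : ZMod 5,
        IsConj (⇑σ) (kL h0 hζ (a, b)) (kL h0 hζ (p * a + q * b, r * a + s * b))) :
    FamilyAux z0 w0 := by
  have h0 := isParam_of_isKleinParam W hΔ hK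
  have hH : HF z0 w0 ≠ 0 := by
    rw [hK.1, neg_ne_zero]
    exact_mod_cast J0J1728.c₄_ne_zero W hW
  have hT : TF z0 w0 ≠ 0 := by
    rw [hK.2, neg_ne_zero]
    exact_mod_cast J0J1728.c₆_ne_zero W hW
  obtain ⟨b, hb⟩ := exists_basis_hasCyclotomicDet W h0 hζ (hdet h0)
  intro bad
  obtain ⟨q, hq, hqbad, hq24, -, A, hA, φ, hφ, hφneg, -, hφ5⟩ :=
    AuxPrime.auxPrime Lib.FrobDensity.frobGeneratorDense GroupLemma.negOneMem
      GroupLemma.negOneKilled (W.map (Int.castRingHom ℚ)) b ζ hζ.isPrimitiveRoot hb h5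
      (bad ∪ (30 * W.Δ.natAbs).primeFactors)
  have : Fact q.Prime := ⟨hq⟩
  have hq30 : ¬ (q : ℤ) ∣ 30 * W.Δ := by
    intro h
    apply hqbad
    refine Finset.mem_union_right _ (Nat.mem_primeFactors.2 ⟨hq, ?_, ?_⟩)
    · have := Int.natAbs_dvd_natAbs.2 h
      simpa [Int.natAbs_mul] using this
    · simp [hΔ]
  have hqΔ : ¬ (q : ℤ) ∣ W.Δ := fun h => hq30 (Dvd.dvd.mul_left h _)
  have hq5 : 5 ≤ q := by
    have := hq.two_le
    omega
  obtain ⟨hz0, hw0, hf0v⟩ := Semistable.kleinParam_integral W z0 w0 hK hq hq30 A hA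
  have hφA : (φ : Qbar →+* Qbar) (-27 * ((W.c₄ : ℤ) : Qbar)) = -27 * ((W.c₄ : ℤ) : Qbar) := by
    rw [map_mul, map_neg, map_ofNat, map_intCast]
  have hφB : (φ : Qbar →+* Qbar) (-54 * ((W.c₆ : ℤ) : Qbar)) = -54 * ((W.c₆ : ℤ) : Qbar) := by
    rw [map_mul, map_neg, map_ofNat, map_intCast]
  obtain ⟨c, hc⟩ := exists_conjHom (φ : Qbar →+* Qbar) hφA hφB
  have hneg := conj_neg_of_smul_neg W h0 hζ φ hφneg c hc
  have hφζ : (φ : Qbar →+* Qbar) ζ = ζ := hφ5 ζ hζ.pow_five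
  obtain ⟨ω, hω, hφz, hφw⟩ :=
    exists_omega_of_conj_neg h0 hζ hH hT (φ : Qbar →+* Qbar) hφA hφB hφζ c hc hneg
  obtain ⟨s', hs'⟩ := Cusp.cusp A hq5 hA hφ hz0 hw0 hf0v hω hφz hφw (fun s => by
    obtain ⟨r, hr⟩ := exists_rat_fF h0.hf hG s 1
    exact ⟨r, by simpa [vz, vw] using hr⟩)
  refine ⟨q, hq, fun h => hqbad (Finset.mem_union_left _ h), hq24, s',
    fun s t hs ht W' hW' => ?_⟩
  obtain ⟨hns, hval⟩ := hs' s t hs ht
  constructor
  · apply hns
    rw [Int.cast_neg, hW'.2, neg_neg]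
    rfl
  · obtain ⟨r, hr⟩ := exists_rat_fF h0.hf hG s t
    exact padicValInt_Δ_eq_five W W' hΔ hqΔ hK hW'.1 hW'.2 hr h0.hf (hval r hr)

end Main

end Fermat.Agent.S52.FamilyAux
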