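import Mathlib
import Fermat.Prelude.Def_FLTPrelim_ModularRep
import Fermat.Prelude.Def_FLTPrelim_Modularity

set_option autoImplicit false

open WeierstrassCurve Polynomial

namespace Fermat.Agent.S52.Irr3Spec

/-- core arithmetic statement of Irr3 -/
def Irr3Core : Prop :=
  ∀ (W : WeierstrassCurve ℤ), W.Δ ≠ 0 → W.IsSemistableModel →
    ∀ q : ℕ, q.Prime → q % 24 = 1 → ¬ 3 ∣ padicValInt q W.Δ →
      ¬ IsSquare (((-W.c₆ : ℤ)) : ZMod q) →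
      ∀ x₀ : ℚ, (W.map (Int.castRingHom ℚ)).Ψ₃.eval x₀ ≠ 0

def Irr3 : Prop :=
  ∀ (W : WeierstrassCurve ℤ), W.Δ ≠ 0 → W.IsSemistableModel →
    ∀ q : ℕ, q.Prime → q % 24 = 1 → ¬ 3 ∣ padicValInt q W.Δ →
      ¬ IsSquare (((-W.c₆ : ℤ)) : ZMod q) → W.ModRepIsIrreducible 3

end Fermat.Agent.S52.Irr3Spec
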