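import Fermat.Agent.S51.Three
import Fermat.Agent.S52.J0J1728
import Fermat.Agent.S52.Irr3Spec

/-!
# P-ELL / S52, package C2d: the irreducibility criterion for `W[3]` (helper60)

`W` an integral Weierstrass model, semistable in the model sense, `q` a prime with `q ≡ 1 mod 12`
(in particular `q ≡ 1 mod 24`), `3 ∤ v_q(Δ)` and `-c₆` a non-square modulo `q`
(non-split multiplicative reduction).  Then `W[3]` is irreducible.

Proof.  If `W[3]` is reducible, `S51/Three.lean` gives `t ∈ ℚˣ` with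
`c₄³ t = Δ (t + 27) (t + 3)³`; then also `c₆² t = Δ (t² + 18 t - 27)²`.  Write `t = A / B` in lowest
terms.  Semistability gives `A B³ = Δ f` with `f ∣ 3⁶`, and `c₆² f = N²`,
`N = A² + 18 A B - 27 B²`, so `f = 3^(2k)` and `c₆ 3^k = ± N`.  As `3 ∤ v_q(Δ)`, `q ∣ A`, so
`N ≡ -27 B²` modulo `q` and `-c₆ ≡ ± 27 B² / 3^k` is a square modulo `q`, because `-1` and `3` are.
-/

set_option autoImplicit false

namespace Fermat.Agent.S52.Irr3

open WeierstrassCurve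

/-- the integral form of an `X₀(3)`-parameter `t = A / B`. -/
theorem exists_int_pair_of_param (W : WeierstrassCurve ℤ) {t : ℚ} (ht0 : t ≠ 0)
    (ht : (W.c₄ : ℚ) ^ 3 * t = (W.Δ : ℚ) * ((t + 27) * (t + 3) ^ 3)) :
    ∃ A B : ℤ, A ≠ 0 ∧ B ≠ 0 ∧ IsCoprime A B ∧
      W.c₄ ^ 3 * (A * B ^ 3) = W.Δ * ((A + 27 * B) * (A + 3 * B) ^ 3) ∧
      W.c₆ ^ 2 * (A * B ^ 3) = W.Δ * (A ^ 2 + 18 * A * B - 27 * B ^ 2) ^ 2 := by
  have hB0 : (t.den : ℤ) ≠ 0 := by exact_mod_cast t.den_nz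
  have hA0 : t.num ≠ 0 := Rat.num_ne_zero.mpr ht0
  have hcop : IsCoprime t.num (t.den : ℤ) := by
    rw [Int.isCoprime_iff_gcd_eq_one]
    exact t.reduced
  have e : t * (t.den : ℚ) = (t.num : ℚ) := Rat.mul_den_eq_num t
  have h1q : (W.c₄ : ℚ) ^ 3 * ((t.num : ℚ) * (t.den : ℚ) ^ 3) =
      (W.Δ : ℚ) * (((t.num : ℚ) + 27 * (t.den : ℚ)) * ((t.num : ℚ) + 3 * (t.den : ℚ)) ^ 3) := by
    rw [← e]
    linear_combination (t.den : ℚ) ^ 4 * ht
  have h1 : W.c₄ ^ 3 * (t.num * (t.den : ℤ) ^ 3) =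
      W.Δ * ((t.num + 27 * (t.den : ℤ)) * (t.num + 3 * (t.den : ℤ)) ^ 3) := by
    exact_mod_cast h1q
  refine ⟨t.num, (t.den : ℤ), hA0, hB0, hcop, h1, ?_⟩
  linear_combination h1 + (t.num * (t.den : ℤ) ^ 3) * W.c_relation

/-- the integral form of the `X₀(3)`-parametrisation of a reducible `W[3]`. -/
theorem exists_int_pair (W : WeierstrassCurve ℤ) (hD : W.Δ ≠ 0) (h : ¬ W.ModRepIsIrreducible 3) :
    ∃ A B : ℤ, A ≠ 0 ∧ B ≠ 0 ∧ IsCoprime A B ∧
      W.c₄ ^ 3 * (A * B ^ 3) = W.Δ * ((A + 27 * B) * (A + 3 * B) ^ 3) ∧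
      W.c₆ ^ 2 * (A * B ^ 3) = W.Δ * (A ^ 2 + 18 * A * B - 27 * B ^ 2) ^ 2 := by
  obtain ⟨t, ht0, ht⟩ := Fermat.Agent.S51.Three.exists_t_of_reducible_three W hD h
  exact exists_int_pair_of_param W ht0 ht

/-- the integral form of the `X₀(3)`-parametrisation attached to a rational root of `Ψ₃`. -/
theorem exists_int_pair_of_root (W : WeierstrassCurve ℤ) (hD : W.Δ ≠ 0) {x₀ : ℚ}
    (hx₀ : (W.map (Int.castRingHom ℚ)).Ψ₃.eval x₀ = 0) :
    ∃ A B : ℤ, A ≠ 0 ∧ B ≠ 0 ∧ IsCoprime A B ∧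
      W.c₄ ^ 3 * (A * B ^ 3) = W.Δ * ((A + 27 * B) * (A + 3 * B) ^ 3) ∧
      W.c₆ ^ 2 * (A * B ^ 3) = W.Δ * (A ^ 2 + 18 * A * B - 27 * B ^ 2) ^ 2 := by
  have hΔ : (W.map (Int.castRingHom ℚ)).Δ = (W.Δ : ℚ) := by
    rw [WeierstrassCurve.map_Δ]; rfl
  have hc₄ : (W.map (Int.castRingHom ℚ)).c₄ = (W.c₄ : ℚ) := by
    rw [WeierstrassCurve.map_c₄]; rfl
  have hΔ0 : (W.map (Int.castRingHom ℚ)).Δ ≠ 0 := by
    rw [hΔ]; exact_mod_cast hD
  obtain ⟨t, ht0, ht⟩ :=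
    Fermat.Agent.S51.Three.exists_t_of_root (W.map (Int.castRingHom ℚ)) hΔ0 hx₀
  rw [hΔ, hc₄] at ht
  exact exists_int_pair_of_param W ht0 (by rw [ht]; ring)

/-- semistability in the model sense: `Δ` and `c₄` are coprime. -/
theorem isCoprime_Δ_c₄ (W : WeierstrassCurve ℤ) (hW : W.IsSemistableModel) :
    IsCoprime W.Δ W.c₄ := by
  rw [Int.isCoprime_iff_gcd_eq_one]
  by_contra hne
  obtain ⟨p, hp, hpd⟩ := Nat.exists_prime_and_dvd hne
  have h1 : (p : ℤ) ∣ W.Δ := (Int.natCast_dvd_natCast.mpr hpd).trans (Int.gcd_dvd_left _ _)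
  have h2 : (p : ℤ) ∣ W.c₄ := (Int.natCast_dvd_natCast.mpr hpd).trans (Int.gcd_dvd_right _ _)
  exact hW p hp h1 h2

/-- the arithmetic core: `A B³ = Δ 3^(2k)` and `c₆ 3^k = ± N`. -/
theorem exists_pow_three (W : WeierstrassCurve ℤ) (hD : W.Δ ≠ 0) (hW : W.IsSemistableModel)
    {A B : ℤ} (hA : A ≠ 0) (hB : B ≠ 0) (hcop : IsCoprime A B)
    (h1 : W.c₄ ^ 3 * (A * B ^ 3) = W.Δ * ((A + 27 * B) * (A + 3 * B) ^ 3))
    (h2 : W.c₆ ^ 2 * (A * B ^ 3) = W.Δ * (A ^ 2 + 18 * A * B - 27 * B ^ 2) ^ 2) :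
    ∃ k : ℕ, A * B ^ 3 = W.Δ * 3 ^ (2 * k) ∧
      (W.c₆ * 3 ^ k = A ^ 2 + 18 * A * B - 27 * B ^ 2 ∨
        W.c₆ * 3 ^ k = -(A ^ 2 + 18 * A * B - 27 * B ^ 2)) := by
  have hc6 : W.c₆ ≠ 0 := J0J1728.c₆_ne_zero W hW
  -- `Δ ∣ A B³`
  have hΔdvd : W.Δ ∣ A * B ^ 3 :=
    ((isCoprime_Δ_c₄ W hW).pow_right (n := 3)).dvd_of_dvd_mul_left (Dvd.intro _ h1.symm)
  -- `B³ ∣ Δ`
  have hBA : IsCoprime B A := hcop.symm
  have hB27 : IsCoprime B (A + 27 * B) := by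
    have := hBA.add_mul_left_right 27
    rwa [mul_comm B 27] at this
  have hB3 : IsCoprime B (A + 3 * B) := by
    have := hBA.add_mul_left_right 3
    rwa [mul_comm B 3] at this
  have hBS : IsCoprime (B ^ 3) ((A + 27 * B) * (A + 3 * B) ^ 3) :=
    (IsCoprime.mul_right hB27 hB3.pow_right).pow_left
  have hB3dvd : B ^ 3 ∣ W.Δ := by
    refine hBS.dvd_of_dvd_mul_left ?_
    rw [mul_comm, ← h1]
    exact ⟨W.c₄ ^ 3 * A, by ring⟩
  -- `A ∣ 729 Δ`
  have hAdvd : A ∣ W.Δ * 729 := by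
    have hAB4 : IsCoprime A (B ^ 4) := hcop.pow_right
    refine hAB4.dvd_of_dvd_mul_right ?_
    have hS : A ∣ W.Δ * ((A + 27 * B) * (A + 3 * B) ^ 3) :=
      ⟨W.c₄ ^ 3 * B ^ 3, by linear_combination -h1⟩
    have e : W.Δ * 729 * B ^ 4 = W.Δ * ((A + 27 * B) * (A + 3 * B) ^ 3) -
        A * (W.Δ * (A ^ 3 + 36 * A ^ 2 * B + 270 * A * B ^ 2 + 756 * B ^ 3)) := by ring
    rw [e]
    exact dvd_sub hS (dvd_mul_right _ _)
  have hABdvd : A * B ^ 3 ∣ W.Δ * 729 :=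
    (hcop.pow_right (n := 3)).mul_dvd hAdvd (hB3dvd.trans (dvd_mul_right _ _))
  obtain ⟨f, hf⟩ := hΔdvd
  have hf729 : f ∣ 729 := by
    rw [hf] at hABdvd
    exact (mul_dvd_mul_iff_left hD).mp hABdvd
  have hAB0 : A * B ^ 3 ≠ 0 := mul_ne_zero hA (pow_ne_zero 3 hB)
  have hf0 : f ≠ 0 := by
    rintro rfl
    rw [mul_zero] at hf
    exact hAB0 hf
  have hfN : W.c₆ ^ 2 * f = (A ^ 2 + 18 * A * B - 27 * B ^ 2) ^ 2 := by
    apply mul_left_cancel₀ hD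
    rw [← h2, hf]
    ring
  have hfpos : 0 < f := by
    rcases lt_trichotomy f 0 with hlt | heq | hgt
    · exfalso
      have h3 : 0 < W.c₆ ^ 2 := by positivity
      have h4 : W.c₆ ^ 2 * f < 0 := mul_neg_of_pos_of_neg h3 hlt
      have h5 := sq_nonneg (A ^ 2 + 18 * A * B - 27 * B ^ 2)
      omega
    · exact absurd heq hf0
    · exact hgt
  -- `f` is a power of three
  have hfnat : f.natAbs ∣ 3 ^ 6 := by
    have : f.natAbs ∣ (729 : ℤ).natAbs := Int.natAbs_dvd_natAbs.mpr hf729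
    simpa using this
  obtain ⟨j, -, hj⟩ := (Nat.dvd_prime_pow Nat.prime_three).mp hfnat
  have hfj : f = 3 ^ j := by
    have : (f.natAbs : ℤ) = f := Int.natAbs_of_nonneg hfpos.le
    rw [← this, hj]
    push_cast
    rfl
  -- `j` is even
  have hjeven : j % 2 = 0 := by
    have : Fact (Nat.Prime 3) := ⟨Nat.prime_three⟩
    set N := A ^ 2 + 18 * A * B - 27 * B ^ 2 with hN
    have hN0 : N ≠ 0 := by
      intro h0
      rw [h0] at hfN
      have : W.c₆ ^ 2 * f ≠ 0 := mul_ne_zero (pow_ne_zero 2 hc6) hf0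
      exact this (by rw [hfN]; ring)
    have hnat : W.c₆.natAbs ^ 2 * 3 ^ j = N.natAbs ^ 2 := by
      have := congrArg Int.natAbs hfN
      rw [Int.natAbs_mul, Int.natAbs_pow, Int.natAbs_pow, hj] at this
      exact this
    have hv := congrArg (padicValNat 3) hnat
    rw [padicValNat.mul (pow_ne_zero 2 (Int.natAbs_ne_zero.mpr hc6)) (pow_ne_zero j (by norm_num)),
      padicValNat.pow, padicValNat.pow, padicValNat.pow, padicValNat.self (by norm_num)] at hv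
    omega
  obtain ⟨k, rfl⟩ : ∃ k, j = 2 * k := ⟨j / 2, by omega⟩
  refine ⟨k, by rw [hf, hfj], ?_⟩
  have hsq : (W.c₆ * 3 ^ k) ^ 2 = (A ^ 2 + 18 * A * B - 27 * B ^ 2) ^ 2 := by
    rw [← hfN, hfj]
    ring
  exact sq_eq_sq_iff_eq_or_eq_neg.mp hsq

/-- in a field, `x y` and `y ≠ 0` squares imply `x` is a square. -/
theorem isSquare_of_mul_isSquare {F : Type*} [Field F] {x y : F} (hy : IsSquare y) (hy0 : y ≠ 0)
    (hxy : IsSquare (x * y)) : IsSquare x := by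
  have := hxy.div hy
  rwa [mul_div_cancel_right₀ _ hy0] at this

/-- `3` is a square modulo a prime `q ≡ 1 mod 12`. -/
theorem isSquare_three {q : ℕ} [Fact q.Prime] (hq12 : q % 12 = 1) : IsSquare (3 : ZMod q) := by
  have : Fact (Nat.Prime 3) := ⟨Nat.prime_three⟩
  have h := (ZMod.exists_sq_eq_prime_iff_of_mod_four_eq_one (p := q) (q := 3) (by omega)
    (by norm_num)).mpr ?_
  · simpa using h
  · have : ((q : ℕ) : ZMod 3) = 1 := by
      rw [← ZMod.natCast_mod q 3, show q % 3 = 1 by omega]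
      simp
    rw [this]
    exact IsSquare.one

/-- the local contradiction at `q`: an integral `X₀(3)`-parameter forces `-c₆` to be a square
modulo `q`. -/
theorem isSquare_neg_c₆ (W : WeierstrassCurve ℤ) (hΔ : W.Δ ≠ 0)
    (hW : W.IsSemistableModel) (q : ℕ) (hq : q.Prime) (hq12 : q % 12 = 1)
    (hv : ¬ 3 ∣ padicValInt q W.Δ)
    {A B : ℤ} (hA : A ≠ 0) (hB : B ≠ 0) (hcop : IsCoprime A B)
    (h1 : W.c₄ ^ 3 * (A * B ^ 3) = W.Δ * ((A + 27 * B) * (A + 3 * B) ^ 3))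
    (h2 : W.c₆ ^ 2 * (A * B ^ 3) = W.Δ * (A ^ 2 + 18 * A * B - 27 * B ^ 2) ^ 2) :
    IsSquare (((-W.c₆ : ℤ)) : ZMod q) := by
  have : Fact q.Prime := ⟨hq⟩
  obtain ⟨k, hk, hsign⟩ := exists_pow_three W hΔ hW hA hB hcop h1 h2
  have hq3 : q ≠ 3 := by rintro rfl; omega
  -- `q ∣ A`
  have hqA : (q : ℤ) ∣ A := by
    by_contra hnd
    apply hv
    have hnat : A.natAbs * B.natAbs ^ 3 = W.Δ.natAbs * 3 ^ (2 * k) := by
      have := congrArg Int.natAbs hk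
      rw [Int.natAbs_mul, Int.natAbs_mul, Int.natAbs_pow, Int.natAbs_pow] at this
      simpa using this
    have hval := congrArg (padicValNat q) hnat
    have hA' : A.natAbs ≠ 0 := Int.natAbs_ne_zero.mpr hA
    have hB' : B.natAbs ≠ 0 := Int.natAbs_ne_zero.mpr hB
    have hΔ' : W.Δ.natAbs ≠ 0 := Int.natAbs_ne_zero.mpr hΔ
    rw [padicValNat.mul hA' (pow_ne_zero 3 hB'), padicValNat.mul hΔ' (pow_ne_zero _ (by norm_num)),
      padicValNat.pow, padicValNat.pow] at hval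
    have hA0 : padicValNat q A.natAbs = 0 := by
      apply padicValNat.eq_zero_of_not_dvd
      intro hd
      exact hnd (Int.natCast_dvd.mpr hd)
    have h30 : padicValNat q 3 = 0 := by
      apply padicValNat.eq_zero_of_not_dvd
      intro hd
      exact hq3 ((Nat.prime_dvd_prime_iff_eq hq Nat.prime_three).mp hd)
    rw [hA0, h30] at hval
    have : padicValInt q W.Δ = 3 * padicValNat q B.natAbs := by
      unfold padicValInt
      omega
    rw [this]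
    exact Dvd.intro _ rfl
  -- reduction modulo `q`
  have hA0 : (A : ZMod q) = 0 := (ZMod.intCast_zmod_eq_zero_iff_dvd A q).mpr hqA
  have hB0 : (B : ZMod q) ≠ 0 := by
    intro h0
    have hqB : (q : ℤ) ∣ B := (ZMod.intCast_zmod_eq_zero_iff_dvd B q).mp h0
    have hunit : IsUnit (q : ℤ) := hcop.isUnit_of_dvd' hqA hqB
    have := Int.isUnit_iff.mp hunit
    have hq2 := hq.two_le
    omega
  have hm1 : IsSquare (-1 : ZMod q) := ZMod.exists_sq_eq_neg_one_iff.mpr (by omega)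
  have h3 : IsSquare (3 : ZMod q) := isSquare_three hq12
  have h30 : (3 : ZMod q) ≠ 0 := by
    intro h0
    have : ((3 : ℕ) : ZMod q) = 0 := by exact_mod_cast h0
    rw [ZMod.natCast_eq_zero_iff] at this
    exact hq3 ((Nat.prime_dvd_prime_iff_eq hq Nat.prime_three).mp this)
  refine isSquare_of_mul_isSquare (y := (3 : ZMod q) ^ k) (h3.pow k) (pow_ne_zero k h30) ?_
  have h27 : IsSquare ((27 : ZMod q) * (B : ZMod q) ^ 2) := by
    have : (27 : ZMod q) * (B : ZMod q) ^ 2 = 3 * (3 * (B : ZMod q)) ^ 2 := by ring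
    rw [this]
    exact h3.mul (IsSquare.sq _)
  rcases hsign with hs | hs
  · have hs' := congrArg (Int.cast : ℤ → ZMod q) hs
    push_cast at hs'
    rw [hA0] at hs'
    have : ((-W.c₆ : ℤ) : ZMod q) * 3 ^ k = 27 * (B : ZMod q) ^ 2 := by
      push_cast
      linear_combination -hs'
    rw [this]
    exact h27
  · have hs' := congrArg (Int.cast : ℤ → ZMod q) hs
    push_cast at hs'
    rw [hA0] at hs'
    have : ((-W.c₆ : ℤ) : ZMod q) * 3 ^ k = -1 * (27 * (B : ZMod q) ^ 2) := by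
      push_cast
      linear_combination -hs'
    rw [this]
    exact hm1.mul h27

/-- **The irreducibility criterion** (`q ≡ 1 mod 12` version). -/
theorem modRepIsIrreducible_three_of_mod_twelve (W : WeierstrassCurve ℤ) (hΔ : W.Δ ≠ 0)
    (hW : W.IsSemistableModel) (q : ℕ) (hq : q.Prime) (hq12 : q % 12 = 1)
    (hv : ¬ 3 ∣ padicValInt q W.Δ) (hns : ¬ IsSquare (((-W.c₆ : ℤ)) : ZMod q)) :
    W.ModRepIsIrreducible 3 := by
  by_contra hred
  obtain ⟨A, B, hA, hB, hcop, h1, h2⟩ := exists_int_pair W hΔ hred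
  exact hns (isSquare_neg_c₆ W hΔ hW q hq hq12 hv hA hB hcop h1 h2)

/-- **Lemma Irr3** in the form of the S52 blueprint (`q ≡ 1 mod 24`). -/
theorem modRepIsIrreducible_three (W : WeierstrassCurve ℤ) (hΔ : W.Δ ≠ 0)
    (hW : W.IsSemistableModel) (q : ℕ) (hq : q.Prime) (hq24 : q % 24 = 1)
    (hv : ¬ 3 ∣ padicValInt q W.Δ) (hns : ¬ IsSquare (((-W.c₆ : ℤ)) : ZMod q)) :
    W.ModRepIsIrreducible 3 :=
  modRepIsIrreducible_three_of_mod_twelve W hΔ hW q hq (by omega) hv hns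

/-- the spec statement `Irr3Spec.Irr3`. -/
theorem irr3 : Irr3Spec.Irr3 :=
  fun W hΔ hW q hq hq24 hv hns => modRepIsIrreducible_three W hΔ hW q hq hq24 hv hns

/-- the spec statement `Irr3Spec.Irr3Core`: `Ψ₃` has no rational root. -/
theorem irr3Core : Irr3Spec.Irr3Core := by
  intro W hΔ hW q hq hq24 hv hns x₀ hx₀
  obtain ⟨A, B, hA, hB, hcop, h1, h2⟩ := exists_int_pair_of_root W hΔ hx₀
  exact hns (isSquare_neg_c₆ W hΔ hW q hq (by omega) hv hA hB hcop h1 h2)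

end Fermat.Agent.S52.Irr3
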