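import Mathlib
import Fermat.Agent.S52.AssemblySpec
import Fermat.Agent.S52.Irr3

/-!
# S52, package D: the assembly

`assembly : AssemblySpec.Assembly`: the statement of S52 for `W` from the outputs of the blocks
A (family: rationality + congruence of the `a_ℓ`), C1 (semistability away from `30 Δ`) and C2
(auxiliary prime), by the Chinese remainder theorem and `Irr3`.
-/

set_option autoImplicit false

namespace Fermat.Agent.S52.Assembly

open WeierstrassCurve Fermat.Agent.S52.Klein Fermat.Agent.S52.AssemblySpec Finset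

local notation "Qbar" => AlgebraicClosure ℚ

/-! ### integrality and congruence of the values of a binary form -/

/-- A common denominator. -/
theorem exists_den (h : ℕ → ℚ) (n : ℕ) :
    ∃ D : ℕ, 0 < D ∧ ∀ i < n, ∃ k : ℤ, (k : ℚ) = h i * (D : ℚ) := by
  refine ⟨∏ i ∈ range n, (h i).den, Finset.prod_pos fun i _ => (h i).den_pos, fun i hi => ?_⟩
  obtain ⟨D', hD'⟩ := Finset.dvd_prod_of_mem (fun i => (h i).den) (Finset.mem_range.mpr hi)
  refine ⟨(h i).num * (D' : ℤ), ?_⟩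
  rw [hD']
  push_cast
  rw [← mul_assoc, Rat.mul_den_eq_num]

/-- Values of a binary form with rational coefficients at `(s, t)`, `s ≡ 1`, `t ≡ 0` modulo
`D M`, are integers congruent to the leading coefficient modulo `M`. -/
theorem exists_int_form (h : ℕ → ℚ) (n : ℕ) (c0 : ℤ) (h0 : h 0 = (c0 : ℚ)) :
    ∃ D : ℕ, 0 < D ∧ ∀ M s t : ℤ, s ≡ 1 [ZMOD M] → ((D : ℤ) * M) ∣ t →
      ∃ c : ℤ, (c : ℚ) = ∑ i ∈ range (n + 1), h i * (s : ℚ) ^ (n - i) * (t : ℚ) ^ i ∧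
        c ≡ c0 [ZMOD M] := by
  obtain ⟨D, hD, hk⟩ := exists_den h (n + 1)
  refine ⟨D, hD, fun M s t hs ht => ?_⟩
  obtain ⟨t', rfl⟩ := ht
  choose! k hk using hk
  refine ⟨c0 * s ^ n + M * ∑ i ∈ range n, k (i + 1) * t' * s ^ (n - (i + 1)) *
    ((D : ℤ) * M * t') ^ i, ?_, ?_⟩
  · rw [Finset.sum_range_succ', h0]
    push_cast
    rw [add_comm, Finset.mul_sum]
    congr 1
    · apply Finset.sum_congr rfl
      intro i hi
      have := hk (i + 1) (by have := Finset.mem_range.mp hi; omega)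
      rw [pow_succ, ← sub_eq_zero]
      have h2 : h (i + 1) * (D : ℚ) - (k (i + 1) : ℚ) = 0 := by rw [this]; ring
      linear_combination (-(M : ℚ) * t' * s ^ (n - (i + 1)) * ((D : ℚ) * M * t') ^ i) * h2
    · simp
  · have h1 : c0 * s ^ n ≡ c0 * 1 ^ n [ZMOD M] := (hs.pow n).mul_left c0
    have h2 : M * ∑ i ∈ range n, k (i + 1) * t' * s ^ (n - (i + 1)) *
        ((D : ℤ) * M * t') ^ i ≡ 0 [ZMOD M] := by
      rw [Int.modEq_zero_iff_dvd]
      exact Dvd.intro _ rfl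
    simpa using h1.add h2

/-! ### the Chinese remainder theorem, in the two forms needed -/

theorem exists_dvd_modEq_one {a b : ℤ} (hab : IsCoprime a b) : ∃ t : ℤ, a ∣ t ∧ t ≡ 1 [ZMOD b] := by
  obtain ⟨u, v, huv⟩ := hab
  refine ⟨u * a, Dvd.intro_left _ rfl, ?_⟩
  rw [Int.modEq_iff_dvd]
  exact ⟨v, by linarith⟩

theorem exists_modEq_modEq {a b : ℤ} (hab : IsCoprime a b) (x y : ℤ) :
    ∃ s : ℤ, s ≡ x [ZMOD a] ∧ s ≡ y [ZMOD b] := by
  obtain ⟨u, v, huv⟩ := hab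
  refine ⟨x * (v * b) + y * (u * a), ?_, ?_⟩
  · rw [Int.modEq_iff_dvd]
    exact ⟨u * (x - y), by linear_combination (-x) * huv⟩
  · rw [Int.modEq_iff_dvd]
    exact ⟨v * (y - x), by linear_combination (-y) * huv⟩

/-! ### the integral model with prescribed `c₄, c₆` -/

/-- The model `(a₁, a₂, a₃, a₄ - 36 k, a₆ - 3 b₂ k - 2 m)`. -/
def newModel (W : WeierstrassCurve ℤ) (k m : ℤ) : WeierstrassCurve ℤ :=
  ⟨W.a₁, W.a₂, W.a₃, W.a₄ - 36 * k, W.a₆ - 3 * W.b₂ * k - 2 * m⟩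

theorem newModel_c₄ (W : WeierstrassCurve ℤ) (k m : ℤ) :
    (newModel W k m).c₄ = W.c₄ + 1728 * k := by
  simp only [newModel, c₄, b₂, b₄]
  ring

theorem newModel_c₆ (W : WeierstrassCurve ℤ) (k m : ℤ) :
    (newModel W k m).c₆ = W.c₆ + 1728 * m := by
  simp only [newModel, c₆, b₂, b₄, b₆]
  ring

/-- Modulo a prime dividing `k` and `m` the new model coincides with the old one. -/
theorem newModel_map (W : WeierstrassCurve ℤ) {k m : ℤ} {p : ℕ} (hk : (p : ℤ) ∣ k)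
    (hm : (p : ℤ) ∣ m) :
    (newModel W k m).map (Int.castRingHom (ZMod p)) = W.map (Int.castRingHom (ZMod p)) := by
  have hk0 : ((k : ℤ) : ZMod p) = 0 := (ZMod.intCast_zmod_eq_zero_iff_dvd k p).mpr hk
  have hm0 : ((m : ℤ) : ZMod p) = 0 := (ZMod.intCast_zmod_eq_zero_iff_dvd m p).mpr hm
  ext <;> simp [newModel, hk0, hm0]

theorem newModel_dvd_Δ_iff (W : WeierstrassCurve ℤ) {k m : ℤ} {p : ℕ} (hk : (p : ℤ) ∣ k)
    (hm : (p : ℤ) ∣ m) : (p : ℤ) ∣ (newModel W k m).Δ ↔ (p : ℤ) ∣ W.Δ := by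
  have h := congrArg WeierstrassCurve.Δ (newModel_map W hk hm)
  rw [map_Δ, map_Δ] at h
  rw [← ZMod.intCast_zmod_eq_zero_iff_dvd, ← ZMod.intCast_zmod_eq_zero_iff_dvd]
  exact ⟨fun h' => by rw [← h']; exact h.symm, fun h' => by rw [← h']; exact h⟩

theorem newModel_dvd_c₄_iff (W : WeierstrassCurve ℤ) {k m : ℤ} {p : ℕ} (hk : (p : ℤ) ∣ k)
    (hm : (p : ℤ) ∣ m) : (p : ℤ) ∣ (newModel W k m).c₄ ↔ (p : ℤ) ∣ W.c₄ := by
  have h := congrArg WeierstrassCurve.c₄ (newModel_map W hk hm)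
  rw [map_c₄, map_c₄] at h
  rw [← ZMod.intCast_zmod_eq_zero_iff_dvd, ← ZMod.intCast_zmod_eq_zero_iff_dvd]
  exact ⟨fun h' => by rw [← h']; exact h.symm, fun h' => by rw [← h']; exact h⟩

/-! ### the leading coefficients of the forms -/

theorem vz_one_zero (z0 w0 : Qbar) : vz z0 w0 1 0 = z0 := by simp [vz]

theorem vw_one_zero (z0 w0 : Qbar) : vw z0 w0 1 0 = w0 := by simp [vw]

theorem sum_one_zero (h : ℕ → ℚ) (n : ℕ) :
    ∑ i ∈ range (n + 1), h i * ((1 : ℤ) : ℚ) ^ (n - i) * ((0 : ℤ) : ℚ) ^ i = h 0 := by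
  rw [Finset.sum_eq_single_of_mem 0 (Finset.mem_range.mpr (Nat.succ_pos n))]
  · simp
  · intro i _ hi
    simp [zero_pow hi]

/-! ### the assembly -/

theorem isCoprime_of_modEq_one {a b : ℤ} (h : a ≡ 1 [ZMOD b]) : IsCoprime a b := by
  obtain ⟨j, hj⟩ := (Int.modEq_iff_dvd.mp h)
  exact ⟨1, j, by linarith⟩

/-- `FamilyRational` implies `FamilyIntegral`. -/
theorem familyIntegral_of_rational (W : WeierstrassCurve ℤ) {z0 w0 : Qbar}
    (hK : IsKleinParam W z0 w0) (hR : FamilyRational z0 w0) : FamilyIntegral W z0 w0 := by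
  obtain ⟨hK4, hK6⟩ := hK
  obtain ⟨h4, h6, hform⟩ := hR
  -- leading coefficients
  have hcast : Function.Injective ((↑) : ℚ → Qbar) := Rat.cast_injective
  have h40 : h4 0 = ((-W.c₄ : ℤ) : ℚ) := by
    apply hcast
    have := (hform 1 0).1
    rw [vz_one_zero, vw_one_zero, sum_one_zero h4 20, hK4] at this
    rw [← this]
    push_cast
    rfl
  have h60 : h6 0 = ((-W.c₆ : ℤ) : ℚ) := by
    apply hcast
    have := (hform 1 0).2
    rw [vz_one_zero, vw_one_zero, sum_one_zero h6 30, hK6] at this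
    rw [← this]
    push_cast
    rfl
  obtain ⟨D4, hD4, hI4⟩ := exists_int_form h4 20 (-W.c₄) h40
  obtain ⟨D6, hD6, hI6⟩ := exists_int_form h6 30 (-W.c₆) h60
  refine ⟨D4 * D6, Nat.mul_pos hD4 hD6, fun M s t hs ht => ?_⟩
  have hD4t : (D4 : ℤ) * M ∣ t := by
    refine Dvd.dvd.trans ?_ ht
    exact ⟨(D6 : ℤ), by push_cast; ring⟩
  have hD6t : (D6 : ℤ) * M ∣ t := by
    refine Dvd.dvd.trans ?_ ht
    exact ⟨(D4 : ℤ), by push_cast; ring⟩
  obtain ⟨c4n, hc4n, hc4m⟩ := hI4 M s t hs hD4t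
  obtain ⟨c6n, hc6n, hc6m⟩ := hI6 M s t hs hD6t
  refine ⟨c4n, c6n, ?_, ?_, hc4m, hc6m⟩
  · rw [(hform s t).1, ← hc4n]
    push_cast
    rfl
  · rw [(hform s t).2, ← hc6n]
    push_cast
    rfl

theorem assemblyIntegral : AssemblySpec.AssemblyIntegral := by
  intro W hΔ hW z0 w0 hI hC hS hA
  obtain ⟨D, hD, hI⟩ := hI
  -- moduli
  set N : ℤ := 30 * W.Δ with hN
  set M : ℤ := 1728 * N with hM
  set T0 : ℤ := (D : ℤ) * M with hT0
  have hT0ne : T0 ≠ 0 := by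
    rw [hT0, hM, hN]
    have : (D : ℤ) ≠ 0 := by exact_mod_cast hD.ne'
    positivity
  -- the auxiliary prime
  obtain ⟨q, hq, hqbad, hq24, s1, hs1⟩ := hA T0.natAbs.primeFactors
  have hqT0 : ¬ (q : ℤ) ∣ T0 := by
    intro h
    apply hqbad
    rw [Nat.mem_primeFactors]
    exact ⟨hq, Int.natCast_dvd.mp h, Int.natAbs_ne_zero.mpr hT0ne⟩
  have hqprime : Prime (q : ℤ) := Nat.prime_iff_prime_int.mp hq
  have hcop : IsCoprime T0 ((q : ℤ) ^ 2) :=
    ((hqprime.irreducible.coprime_iff_not_dvd).mpr hqT0).symm.pow_right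
  -- the parameters
  obtain ⟨t, htT0, htq⟩ := exists_dvd_modEq_one hcop
  have hcop2 : IsCoprime t ((q : ℤ) ^ 2) := isCoprime_of_modEq_one htq
  obtain ⟨s, hst, hsq⟩ := exists_modEq_modEq hcop2 1 s1
  have hcopst : IsCoprime s t := isCoprime_of_modEq_one hst
  have hMT0 : M ∣ T0 := Dvd.intro_left _ rfl
  have hsM : s ≡ 1 [ZMOD M] := hst.of_dvd (hMT0.trans htT0)
  obtain ⟨c4n, c6n, hc4n, hc6n, hc4m, hc6m⟩ := hI M s t hsM htT0
  -- the model
  obtain ⟨k', hk'⟩ := (Int.modEq_iff_dvd.mp hc4m)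
  obtain ⟨m', hm'⟩ := (Int.modEq_iff_dvd.mp hc6m)
  set W' : WeierstrassCurve ℤ := newModel W (N * k') (N * m') with hW'
  have hc4' : W'.c₄ = -c4n := by
    rw [hW', newModel_c₄]
    rw [hM] at hk'
    linarith
  have hc6' : W'.c₆ = -c6n := by
    rw [hW', newModel_c₆]
    rw [hM] at hm'
    linarith
  have hB : Belongs z0 w0 s t W' := by
    constructor
    · rw [hc4', hc4n]
      push_cast
      rfl
    · rw [hc6', hc6n]
      push_cast
      rfl
  obtain ⟨hns, hval⟩ := hs1 s t hsq htq W' hB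
  have hΔ' : W'.Δ ≠ 0 := by
    intro h0
    rw [h0, padicValInt.zero] at hval
    norm_num at hval
  have hss' : W'.IsSemistableModel := by
    intro p hp hpd
    by_cases hp30 : (p : ℤ) ∣ 30 * W.Δ
    · have hpk : (p : ℤ) ∣ N * k' := Dvd.dvd.mul_right hp30 _
      have hpm : (p : ℤ) ∣ N * m' := Dvd.dvd.mul_right hp30 _
      rw [hW', newModel_dvd_c₄_iff W hpk hpm]
      rw [hW', newModel_dvd_Δ_iff W hpk hpm] at hpd
      exact hW p hp hpd
    · exact hS s t hcopst W' hB p hp hp30 hpd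
  refine ⟨W', hΔ', hss', ?_, ?_⟩
  · refine Fermat.Agent.S52.Irr3.irr3 W' hΔ' hss' q hq hq24 ?_ hns
    rw [hval]
    norm_num
  · exact hC s t W' hB hΔ'

theorem assembly : AssemblySpec.Assembly :=
  fun W hΔ hW z0 w0 hK hR hC hS hA =>
    assemblyIntegral W hΔ hW z0 w0 (familyIntegral_of_rational W hK hR) hC hS hA

end Fermat.Agent.S52.Assembly
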