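import Mathlib
import Fermat.Agent.S52.Family
import Fermat.Agent.S52.AssemblySpec

/-!
helper51 (P-ELL / S52, package A3 `Family`): the Prop `AssemblySpec.FamilyRational` from the
Galois statement `Family.GalKlein`.

* `eval_two_of_isHomogeneous`: a homogeneous polynomial of degree `n` in two variables is
  `∑ i ≤ n, c_i s ^ (n - i) t ^ i`.
* `familyRational_of_galKlein`: if the Galois group acts on `v₀ = (z0, w0)` by admissible matrices
  then `HF (v(s,t))`, `TF (v(s,t))` are binary forms of degrees `20`, `30` in `(s, t)` with rational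
  coefficients.
-/

set_option autoImplicit false

open MvPolynomial

namespace Fermat.Agent.S52.FamilyRational

open Fermat.Agent.S52.Param Fermat.Agent.S52.FamilyDescent Fermat.Agent.S52.Family

/-! ### Homogeneous polynomials in two variables -/

section homogeneous

/-- The exponent vector `(n - i, i)`. -/
noncomputable def mono2 (n i : ℕ) : Fin 2 →₀ ℕ := Finsupp.single 0 (n - i) + Finsupp.single 1 i

theorem mono2_zero (n i : ℕ) : mono2 n i 0 = n - i := by simp [mono2]

theorem mono2_one (n i : ℕ) : mono2 n i 1 = i := by simp [mono2]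

theorem mono2_injective (n : ℕ) : Function.Injective (mono2 n) := by
  intro i j h
  have := DFunLike.congr_fun h 1
  rwa [mono2_one, mono2_one] at this

theorem eq_mono2_of_degree {n : ℕ} {d : Fin 2 →₀ ℕ} (hd : d.degree = n) :
    d = mono2 n (d 1) ∧ d 1 ≤ n := by
  rw [Finsupp.degree_eq_sum, Fin.sum_univ_two] at hd
  refine ⟨?_, by omega⟩
  ext i
  fin_cases i
  · show d 0 = mono2 n (d 1) 0
    rw [mono2_zero]
    omega
  · show d 1 = mono2 n (d 1) 1
    rw [mono2_one]

variable {R : Type*} [CommRing R]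

/-- A homogeneous polynomial of degree `n` in two variables as a binary form. -/
theorem eval_two_of_isHomogeneous {P : MvPolynomial (Fin 2) R} {n : ℕ}
    (hP : P.IsHomogeneous n) (s t : R) :
    eval ![s, t] P = ∑ i ∈ Finset.range (n + 1), coeff (mono2 n i) P * s ^ (n - i) * t ^ i := by
  classical
  rw [eval_eq']
  simp only [Fin.prod_univ_two, Matrix.cons_val_zero, Matrix.cons_val_one]
  have h1 : ∑ i ∈ Finset.range (n + 1), coeff (mono2 n i) P * s ^ (n - i) * t ^ i =
      ∑ d ∈ (Finset.range (n + 1)).image (mono2 n), coeff d P * (s ^ d 0 * t ^ d 1) := by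
    rw [Finset.sum_image (fun i _ j _ h => mono2_injective n h)]
    refine Finset.sum_congr rfl fun i _ => ?_
    rw [mono2_zero, mono2_one, mul_assoc]
  rw [h1]
  apply Finset.sum_subset
  · intro d hd
    rw [mem_support_iff] at hd
    have hdeg : d.degree = n := by
      by_contra hne
      exact hd (hP.coeff_eq_zero hne)
    obtain ⟨h2, h3⟩ := eq_mono2_of_degree hdeg
    rw [Finset.mem_image]
    exact ⟨d 1, Finset.mem_range.mpr (by omega), h2.symm⟩
  · intro d _ hd
    rw [mem_support_iff, not_not] at hd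
    rw [hd, zero_mul]

end homogeneous

/-! ### Homogeneity of the forms on the family -/

section forms

variable (z0 w0 : Qbar)

theorem pz_isHomogeneous : (pz z0 w0).IsHomogeneous 1 := by
  unfold pz
  have h1 : (X 0 * C z0 : MvPolynomial (Fin 2) Qbar).IsHomogeneous 1 := by
    simpa using (isHomogeneous_X Qbar (0 : Fin 2)).mul (isHomogeneous_C (Fin 2) z0)
  have h2 : (X 1 * C (cov1 z0 w0) : MvPolynomial (Fin 2) Qbar).IsHomogeneous 1 := by
    simpa using (isHomogeneous_X Qbar (1 : Fin 2)).mul (isHomogeneous_C (Fin 2) (cov1 z0 w0))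
  exact h1.add h2

theorem pw_isHomogeneous : (pw z0 w0).IsHomogeneous 1 := by
  unfold pw
  have h1 : (X 0 * C w0 : MvPolynomial (Fin 2) Qbar).IsHomogeneous 1 := by
    simpa using (isHomogeneous_X Qbar (0 : Fin 2)).mul (isHomogeneous_C (Fin 2) w0)
  have h2 : (X 1 * C (cov2 z0 w0) : MvPolynomial (Fin 2) Qbar).IsHomogeneous 1 := by
    simpa using (isHomogeneous_X Qbar (1 : Fin 2)).mul (isHomogeneous_C (Fin 2) (cov2 z0 w0))
  exact h1.add h2

/-- a monomial `p ^ a * q ^ b` in two linear forms. -/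
theorem isHomogeneous_pow_mul_pow {p q : MvPolynomial (Fin 2) Qbar} (hp : p.IsHomogeneous 1)
    (hq : q.IsHomogeneous 1) (a b n : ℕ) (h : a + b = n) : (p ^ a * q ^ b).IsHomogeneous n := by
  have := (hp.pow a).mul (hq.pow b)
  rw [one_mul, one_mul, h] at this
  exact this

theorem isHomogeneous_natCast_mul {p : MvPolynomial (Fin 2) Qbar} {n : ℕ}
    (hp : p.IsHomogeneous n) (k : ℕ) : ((k : MvPolynomial (Fin 2) Qbar) * p).IsHomogeneous n := by
  have : (k : MvPolynomial (Fin 2) Qbar) = C (k : Qbar) := by simp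
  rw [this]
  exact hp.C_mul _

theorem rH_isHomogeneous : (rH (pz z0 w0) (pw z0 w0)).IsHomogeneous 20 := by
  have hz := pz_isHomogeneous z0 w0
  have hw := pw_isHomogeneous z0 w0
  unfold rH
  have m1 := isHomogeneous_pow_mul_pow hz hw 20 0 20 rfl
  have m2 := isHomogeneous_pow_mul_pow hz hw 0 20 20 rfl
  have m3 := isHomogeneous_pow_mul_pow hz hw 15 5 20 rfl
  have m4 := isHomogeneous_pow_mul_pow hz hw 5 15 20 rfl
  have m5 := isHomogeneous_pow_mul_pow hz hw 10 10 20 rfl
  rw [pow_zero, mul_one] at m1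
  rw [pow_zero, one_mul] at m2
  have h228 := isHomogeneous_natCast_mul (m3.sub m4) 228
  have h494 := isHomogeneous_natCast_mul m5 494
  rw [← mul_assoc] at h494
  exact ((m1.add m2).neg.add (by exact_mod_cast h228)).sub (by exact_mod_cast h494)

theorem rT_isHomogeneous : (rT (pz z0 w0) (pw z0 w0)).IsHomogeneous 30 := by
  have hz := pz_isHomogeneous z0 w0
  have hw := pw_isHomogeneous z0 w0
  unfold rT
  have m1 := isHomogeneous_pow_mul_pow hz hw 30 0 30 rfl
  have m2 := isHomogeneous_pow_mul_pow hz hw 0 30 30 rfl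
  have m3 := isHomogeneous_pow_mul_pow hz hw 25 5 30 rfl
  have m4 := isHomogeneous_pow_mul_pow hz hw 5 25 30 rfl
  have m5 := isHomogeneous_pow_mul_pow hz hw 20 10 30 rfl
  have m6 := isHomogeneous_pow_mul_pow hz hw 10 20 30 rfl
  rw [pow_zero, mul_one] at m1
  rw [pow_zero, one_mul] at m2
  have h522 := isHomogeneous_natCast_mul (m3.sub m4) 522
  have h10005 := isHomogeneous_natCast_mul (m5.add m6) 10005
  exact ((m1.add m2).add (by exact_mod_cast h522)).sub (by exact_mod_cast h10005)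

end forms

/-! ### The Prop `FamilyRational` -/

section main

open Fermat.Agent.S52.Klein

variable {z0 w0 : Qbar}

theorem HF_eq_kH (z w : Qbar) : HF z w = kH z w := by
  unfold HF hF kH
  ring

theorem TF_eq_kT (z w : Qbar) : TF z w = kT z w := by
  unfold TF tF kT
  ring

theorem fF_eq_kf (z w : Qbar) : fF z w = kf z w := by
  unfold fF gF kf
  ring

theorem wf1_eq_cov1 (z w : Qbar) : wf1 z w = cov1 z w := by
  unfold wf1 cov1
  ring

theorem wf2_eq_cov2 (z w : Qbar) : wf2 z w = cov2 z w := by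
  unfold wf2 cov2
  ring

theorem spec_vz_eq (s t : ℤ) : AssemblySpec.vz z0 w0 s t = vz z0 w0 (s : Qbar) (t : Qbar) := by
  unfold AssemblySpec.vz vz
  rw [wf1_eq_cov1]

theorem spec_vw_eq (s t : ℤ) : AssemblySpec.vw z0 w0 s t = vw z0 w0 (s : Qbar) (t : Qbar) := by
  unfold AssemblySpec.vw vw
  rw [wf2_eq_cov2]

theorem rH_eval_fixed (hG : GalKlein z0 w0) (σ : Qbar ≃ₐ[ℚ] Qbar) (x : Fin 2 → ℚ) :
    σ (eval (fun i => algebraMap ℚ Qbar (x i)) (rH (pz z0 w0) (pw z0 w0))) =
      eval (fun i => algebraMap ℚ Qbar (x i)) (rH (pz z0 w0) (pw z0 w0)) := by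
  obtain ⟨a, b, c, d, hz, hw, hadm⟩ := hG σ
  rw [eval_rH_p]
  simp only [eq_ratCast]
  exact (galois_forms hz hw hadm).1 (x 0) (x 1)

theorem rT_eval_fixed (hG : GalKlein z0 w0) (σ : Qbar ≃ₐ[ℚ] Qbar) (x : Fin 2 → ℚ) :
    σ (eval (fun i => algebraMap ℚ Qbar (x i)) (rT (pz z0 w0) (pw z0 w0))) =
      eval (fun i => algebraMap ℚ Qbar (x i)) (rT (pz z0 w0) (pw z0 w0)) := by
  obtain ⟨a, b, c, d, hz, hw, hadm⟩ := hG σ
  rw [eval_rT_p]
  simp only [eq_ratCast]
  exact (galois_forms hz hw hadm).2.1 (x 0) (x 1)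

/-- A homogeneous polynomial over `ℚ̄` of degree `n` in two variables with rational coefficients,
evaluated at integers. -/
theorem eval_eq_cast_sum {P : MvPolynomial (Fin 2) Qbar} {n : ℕ} (hP : P.IsHomogeneous n)
    {P' : MvPolynomial (Fin 2) ℚ} (hP' : map (algebraMap ℚ Qbar) P' = P) (s t : ℤ) :
    eval ![(s : Qbar), (t : Qbar)] P =
      ((∑ i ∈ Finset.range (n + 1), coeff (mono2 n i) P' * (s : ℚ) ^ (n - i) * (t : ℚ) ^ i : ℚ) :
        Qbar) := by
  rw [eval_two_of_isHomogeneous hP]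
  push_cast
  refine Finset.sum_congr rfl fun i _ => ?_
  rw [← hP', coeff_map, eq_ratCast]

/-- **A3, rationality**: the Prop `AssemblySpec.FamilyRational` from the Galois statement. -/
theorem familyRational_of_galKlein (hG : GalKlein z0 w0) : AssemblySpec.FamilyRational z0 w0 := by
  obtain ⟨P4', h4⟩ := exists_rat_of_eval_fixed (rH (pz z0 w0) (pw z0 w0)) (rH_eval_fixed hG)
  obtain ⟨P6', h6⟩ := exists_rat_of_eval_fixed (rT (pz z0 w0) (pw z0 w0)) (rT_eval_fixed hG)
  refine ⟨fun i => coeff (mono2 20 i) P4', fun i => coeff (mono2 30 i) P6', fun s t => ⟨?_, ?_⟩⟩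
  · rw [HF_eq_kH, spec_vz_eq, spec_vw_eq]
    have h := eval_rH_p z0 w0 ![(s : Qbar), (t : Qbar)]
    simp only [Matrix.cons_val_zero, Matrix.cons_val_one] at h
    rw [← h]
    exact eval_eq_cast_sum (rH_isHomogeneous z0 w0) h4 s t
  · rw [TF_eq_kT, spec_vz_eq, spec_vw_eq]
    have h := eval_rT_p z0 w0 ![(s : Qbar), (t : Qbar)]
    simp only [Matrix.cons_val_zero, Matrix.cons_val_one] at h
    rw [← h]
    exact eval_eq_cast_sum (rT_isHomogeneous z0 w0) h6 s t

/-- **A3, the ratio `ff`**: `kf (v(s,t)) / kf v₀` is rational for rational `s t` (input `hrat` of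
`Cusp.cusp_param`). -/
theorem exists_rat_kf_ratio (hG : GalKlein z0 w0) (hf0 : kf z0 w0 ≠ 0) (s t : ℚ) :
    ∃ r : ℚ, (r : Qbar) = kf (vz z0 w0 s t) (vw z0 w0 s t) / kf z0 w0 := by
  obtain ⟨r, hr⟩ := exists_rat_of_fixed (kf (vz z0 w0 s t) (vw z0 w0 s t) / kf z0 w0) (by
    intro σ
    obtain ⟨a, b, c, d, hz, hw, hadm⟩ := hG σ
    obtain ⟨ε, hε⟩ := (galois_forms hz hw hadm).2.2
    have h10 : σ (kf z0 w0) = ε * kf z0 w0 := by
      have := hε 1 0
      simpa [vz_one_zero, vw_one_zero] using this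
    have hε0 : ε ≠ 0 := by
      rintro rfl
      rw [zero_mul] at h10
      exact hf0 ((map_eq_zero σ).mp h10)
    rw [map_div₀, h10, hε s t]
    field_simp)
  exact ⟨r, by rw [← hr, eq_ratCast]⟩

/-- The same on the names of `Klein/Forms.lean`, for integer `s` and `t = 1` (the exact shape of
the hypothesis `hrat` of `Cusp.cusp`). -/
theorem exists_rat_fF_ratio (hG : GalKlein z0 w0) (hf0 : fF z0 w0 ≠ 0) (s : ℤ) :
    ∃ r : ℚ, (r : Qbar) =
      fF ((s : Qbar) * z0 + wf1 z0 w0) ((s : Qbar) * w0 + wf2 z0 w0) / fF z0 w0 := by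
  rw [fF_eq_kf] at hf0
  obtain ⟨r, hr⟩ := exists_rat_kf_ratio hG hf0 (s : ℚ) 1
  refine ⟨r, ?_⟩
  rw [hr, fF_eq_kf, fF_eq_kf, wf1_eq_cov1, wf2_eq_cov2]
  simp [vz, vw]

end main

end Fermat.Agent.S52.FamilyRational
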