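import Mathlib
import Fermat.Agent.S52.TorsionGlue
import Fermat.Agent.Lib.EC.FrobCharEq.Main

/-!
# S52: block (B) from the characteristic equation of Frobenius only

* `charEq_frobenius_lift`: for a prime `ℓ` of good reduction of `W`, a Frobenius lift `σ` at `ℓ`
  and a torsion point `P ∈ E(ℚ̄)` of order prime to `ℓ`:
  `σ²P - a_ℓ σP + ℓ P = 0` (reduction is injective on torsion and intertwines `σ` with the
  Frobenius of the residue field, where `frob_charEq` holds).
* `five_dvd_apOfModel_sub_of_equiv`: an equivariant isomorphism `E[5] ≃ E'[5]` gives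
  `5 ∣ a_ℓ(W') - a_ℓ(W)`; only the characteristic equation is used (no kernel counts).
* `five_dvd_apOfModel_sub`: the same from the parametrisations of `TorsionGlue`.
-/

set_option autoImplicit false

namespace Fermat.Agent.S52.CharEqGlue

open WeierstrassCurve WeierstrassCurve.Affine WeierstrassCurve.Affine.Point
open Fermat.Agent.Lib.EC Fermat.Agent.Lib.EC.ReductionTorsion Fermat.Agent.Lib.EC.TraceAbstract
open IsLocalRing

local notation "Qbar" => AlgebraicClosure ℚ

variable (W : WeierstrassCurve ℤ)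

/-- Core statement, for a general residue map `π : A → k`. -/
theorem charEq_lift_aux {ℓ n : ℕ} [Fact ℓ.Prime] (hnℓ : ¬ ℓ ∣ n)
    (hgood : W.IsGoodPrimeFor ℓ) {A : ValuationSubring Qbar}
    {k : Type*} [Field k] [Algebra (ZMod ℓ) k] [CharP k ℓ] [IsAlgClosed k] [DecidableEq k]
    (π : A →+* k) [IsLocalHom π] {σ : Qbar ≃ₐ[ℚ] Qbar}
    (hσ : ∀ x : Qbar, res π (σ x) = (res π x) ^ ℓ) (hσA : ∀ x : Qbar, σ x ∈ A ↔ x ∈ A)
    (P : (curveQbar W).Point) (hP : n • P = 0) :
    σ • σ • P - W.apOfModel ℓ • σ • P + (ℓ : ℤ) • P = 0 := by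
  have hℓ : ℓ.Prime := Fact.out
  have hΔ : (curveRes W ℓ k).Δ ≠ 0 := curveRes_Δ_ne_zero W hgood
  have hR : IsReduction π (curveQbar W) (curveRes W ℓ k) := isReduction_model W π
  let Fr : k →ₐ[ZMod ℓ] k := FiniteField.frobeniusAlgHom (ZMod ℓ) k
  have hFr : ∀ x, Fr x = x ^ ℓ := by
    intro x
    show x ^ Fintype.card (ZMod ℓ) = x ^ ℓ
    rw [ZMod.card]
  -- `n` is a unit of `A`
  have hnA : A.valuation ((n : ℕ) : Qbar) = 1 := by
    have h1 : π ((n : ℕ) : A) ≠ 0 := by
      rw [map_natCast]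
      intro h0
      exact hnℓ ((CharP.cast_eq_zero_iff k ℓ n).mp h0)
    have := (pi_ne_zero_iff π _).mp h1
    simpa using this
  -- the reduced curve is elliptic
  have hell : (W.reductionMod ℓ).IsElliptic := by
    refine ⟨?_⟩
    rw [isUnit_iff_ne_zero]
    intro h0
    apply hgood
    have : ((W.Δ : ℤ) : ZMod ℓ) = 0 := by
      rw [← h0]
      show _ = (W.map (Int.castRingHom (ZMod ℓ))).Δ
      rw [WeierstrassCurve.map_Δ]
      rfl
    exact (ZMod.intCast_zmod_eq_zero_iff_dvd _ _).mp this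
  -- the equation on the reduction
  have hred : ∀ Q : (curveQbar W).Point, hR.redHom hΔ (σ • Q) = Point.map Fr (hR.redHom hΔ Q) :=
    fun Q => red_smul W π Fr hFr hσ hσA Q
  have hchar := Fermat.Agent.Lib.EC.FrobCharEq.frob_charEq (W.reductionMod ℓ) k (hR.redHom hΔ P)
  have h0 : hR.redHom hΔ (σ • σ • P - W.apOfModel ℓ • σ • P + (ℓ : ℤ) • P) = hR.redHom hΔ 0 := by
    rw [_root_.map_zero, map_add, map_sub, map_zsmul, map_zsmul, hred, hred]
    exact hchar
  -- both sides are `n`-torsion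
  have hσP : ∀ Q : (curveQbar W).Point, n • Q = 0 → n • (σ • Q) = 0 := by
    intro Q hQ
    have : σ • ((n : ℤ) • Q) = (n : ℤ) • (σ • Q) := algEquiv_smul_zsmul σ n Q
    rw [natCast_zsmul, natCast_zsmul, hQ] at this
    exact this.symm
  have htors : n • (σ • σ • P - W.apOfModel ℓ • σ • P + (ℓ : ℤ) • P) = 0 := by
    rw [nsmul_add, nsmul_sub, smul_comm n (W.apOfModel ℓ), smul_comm n (ℓ : ℤ),
      hσP _ (hσP _ hP), hσP _ hP, hP, zsmul_zero, zsmul_zero, sub_zero]
    exact add_zero _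
  exact hR.redHom_injOn_torsion hΔ hnA htors (smul_zero n) h0

/-- **Characteristic equation of a Frobenius lift on torsion points of `E(ℚ̄)`.** -/
theorem charEq_frobenius_lift {ℓ n : ℕ} [Fact ℓ.Prime] (hnℓ : ¬ ℓ ∣ n)
    (hgood : W.IsGoodPrimeFor ℓ) (A : ValuationSubring Qbar) (hA : A.LiesOverPrime ℓ)
    (σ : Qbar ≃ₐ[ℚ] Qbar) (hσ : A.IsFrobeniusAt σ ℓ)
    (P : (curveQbar W).Point) (hP : n • P = 0) :
    σ • σ • P - W.apOfModel ℓ • σ • P + (ℓ : ℤ) • P = 0 := by
  have hℓ : ℓ.Prime := Fact.out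
  have : CharP (ResidueField A) ℓ := charP_residueField A hℓ hA
  let _ : Algebra (ZMod ℓ) (ResidueField A) := ZMod.algebra _ ℓ
  have : IsAlgClosed (ResidueField A) := isAlgClosed_residueField A
  let _ : DecidableEq (ResidueField A) := Classical.decEq _
  exact charEq_lift_aux W hnℓ hgood (residue A) (res_frob A hσ hℓ.ne_zero)
    (fun _ => frob_mem_iff A hσ) P hP

/-- The characteristic equation inside the torsion submodule. -/
theorem charEq_tors {ℓ n : ℕ} [Fact ℓ.Prime] (hnℓ : ¬ ℓ ∣ n)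
    (hgood : W.IsGoodPrimeFor ℓ) (A : ValuationSubring Qbar) (hA : A.LiesOverPrime ℓ)
    (σ : Qbar ≃ₐ[ℚ] Qbar) (hσ : A.IsFrobeniusAt σ ℓ) (R : tors (curveQbar W).Point n) :
    σ • σ • R - W.apOfModel ℓ • σ • R + (ℓ : ℤ) • R = 0 := by
  apply Subtype.ext
  have hR : n • (R : (curveQbar W).Point) = 0 := by
    have := mem_tors.mp R.2
    rwa [natCast_zsmul] at this
  exact charEq_frobenius_lift W hnℓ hgood A hA σ hσ (R : (curveQbar W).Point) hR

variable {W}

/-- **Congruence of the `a_ℓ` from the characteristic equation only.** If `E[n]` and `E'[n]` are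
isomorphic as Galois modules (`n` prime, `E'[n] ≠ 0`), then `a_ℓ(E) ≡ a_ℓ(E') mod n` for every
prime `ℓ ≠ n` of good reduction for both curves. -/
theorem apOfModel_congr_of_equiv {W' : WeierstrassCurve ℤ} {n : ℕ} [Fact n.Prime]
    (e : tors (curveQbar W).Point n ≃+ tors (curveQbar W').Point n)
    (he : ∀ (σ : Qbar ≃ₐ[ℚ] Qbar) (P : tors (curveQbar W).Point n), e (σ • P) = σ • e P)
    (hnt : Nontrivial (tors (curveQbar W').Point n))
    {ℓ : ℕ} (hℓ : ℓ.Prime) (hnℓ : n ≠ ℓ) (hgood : W.IsGoodPrimeFor ℓ)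
    (hgood' : W'.IsGoodPrimeFor ℓ) :
    (n : ℤ) ∣ W'.apOfModel ℓ - W.apOfModel ℓ := by
  have hn : n.Prime := Fact.out
  have : Fact ℓ.Prime := ⟨hℓ⟩
  have hdvd : ¬ ℓ ∣ n := fun h => hnℓ ((Nat.prime_dvd_prime_iff_eq hℓ hn).mp h).symm
  obtain ⟨A, σ, hA, hσ⟩ := Fermat.Agent.Lib.exists_isFrobeniusAt ℓ hℓ
  -- the key relation
  have key : ∀ R' : tors (curveQbar W').Point n,
      (W'.apOfModel ℓ - W.apOfModel ℓ) • (σ • R') = 0 := by
    intro R'
    obtain ⟨R, rfl⟩ := e.surjective R'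
    have h1 := congrArg e (charEq_tors W hdvd hgood A hA σ hσ R)
    rw [_root_.map_zero, map_add, map_sub, map_zsmul, map_zsmul, he, he] at h1
    have h2 := charEq_tors W' hdvd hgood' A hA σ hσ (e R)
    rw [sub_smul]
    have h3 : σ • σ • e R - W.apOfModel ℓ • σ • e R + (ℓ : ℤ) • e R -
        (σ • σ • e R - W'.apOfModel ℓ • σ • e R + (ℓ : ℤ) • e R) = 0 := by
      rw [h1, h2, sub_zero]
    rw [← h3]
    abel
  obtain ⟨P', hP'⟩ := exists_ne (0 : tors (curveQbar W').Point n)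
  have hk := key (σ⁻¹ • P')
  have hss : σ • σ⁻¹ • P' = P' := smul_inv_smul σ P'
  rw [hss] at hk
  have hord : addOrderOf P' = n := by
    apply addOrderOf_eq_prime _ hP'
    apply Subtype.ext
    have := mem_tors.mp P'.2
    rw [natCast_zsmul] at this
    exact this
  rw [← hord]
  exact addOrderOf_dvd_iff_zsmul_eq_zero.mpr hk

local notation "shortQbar" => Fermat.Agent.S52.TorsionGlue.shortQbar
local notation "IsConj" => Fermat.Agent.S52.TorsionGlue.IsConj

/-- **Block (B) of S52, final form.** No hypothesis on Frobenius is left. -/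
theorem five_dvd_apOfModel_sub (W W' : WeierstrassCurve ℤ) {A : Type*} [AddCommGroup A]
    [Module (ZMod 5) A] (hA : Nat.card A = 25) {E0 E0' : Affine Qbar}
    (hE0 : E0 = shortQbar W) (hE0' : E0' = shortQbar W')
    (L : A →+ E0.Point) (L' : A →+ E0'.Point)
    (hL : Function.Injective L) (hL' : Function.Injective L')
    (hGal : ∀ σ : Qbar ≃ₐ[ℚ] Qbar, ∃ m : A → A,
      (∀ u, IsConj (⇑σ) (L u) (L (m u))) ∧ ∀ u, IsConj (⇑σ) (L' u) (L' (m u)))
    {ℓ : ℕ} (hℓ : ℓ.Prime) (hℓ5 : ℓ ≠ 5) (hgood : W.IsGoodPrimeFor ℓ)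
    (hgood' : W'.IsGoodPrimeFor ℓ) :
    (5 : ℤ) ∣ W'.apOfModel ℓ - W.apOfModel ℓ := by
  have : Fact (Nat.Prime 5) := ⟨by norm_num⟩
  obtain ⟨-, hT', e, he⟩ :=
    Fermat.Agent.S52.TorsionGlue.exists_equiv_of_param W W' hA hE0 hE0' L L' hL hL' hGal
  have hfin : Finite (tors (curveQbar W').Point 5) := by
    apply Nat.finite_of_card_ne_zero
    rw [show Nat.card (tors (curveQbar W').Point 5) = 5 ^ 2 from hT']
    norm_num
  have hnt : Nontrivial (tors (curveQbar W').Point 5) := by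
    rw [← Finite.one_lt_card_iff_nontrivial,
      show Nat.card (tors (curveQbar W').Point 5) = 5 ^ 2 from hT']
    norm_num
  have := apOfModel_congr_of_equiv (n := 5) e.toAddEquiv (fun σ P => he σ P) hnt hℓ
    (Ne.symm hℓ5) hgood hgood'
  exact_mod_cast this

end Fermat.Agent.S52.CharEqGlue
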