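import Mathlib
import Fermat.Agent.S52.Klein.Galois
import Fermat.Agent.S52.Family

/-!
# S52: the output of A2 part 2 (`GalLevel`)

For a Klein parameter `(z0, w0) ∈ ℚ̄²` and a fixed primitive fifth root of unity `ζ`: every
`σ ∈ Gal(ℚ̄/ℚ)` moves `(z0, w0)` by a matrix `!![a, b; c, d]` which is admissible (`KleinAdm`:
symmetry of Klein's forms commuting with the gradient covariant) and which acts on the level
structures `kL` of **all** Klein parameters through one function `m` of `(ZMod 5)²`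
(for a word in `S`, `T` and scalars in `μ₁₀`: `kL_S`, `kL_T`, `kL_smul_pos`, `kL_smul_neg`).
-/

set_option autoImplicit false

namespace Fermat.Agent.S52.GalLevelSpec

open Fermat.Agent.S52.Klein Fermat.Agent.S52.Family

local notation "Qbar" => AlgebraicClosure ℚ

/-- The matrix `!![a, b; c, d]` acts on all level structures through `m`. -/
def LevelAct {ζ : Qbar} (hζ : IsZeta5 ζ) (a b c d : Qbar)
    (m : ZMod 5 × ZMod 5 → ZMod 5 × ZMod 5) : Prop :=
  ∀ (A B z w : Qbar) (h : IsParam A B z w) (h' : IsParam A B (a * z + b * w) (c * z + d * w))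
    (u : ZMod 5 × ZMod 5), kL h' hζ u = kL h hζ (m u)

/-- **A2 part 2.** Every Galois automorphism moves `(z0, w0)` by an admissible matrix acting on
level structures. -/
def GalLevel {ζ : Qbar} (hζ : IsZeta5 ζ) (z0 w0 : Qbar) : Prop :=
  ∀ σ : Qbar ≃ₐ[ℚ] Qbar, ∃ (a b c d : Qbar) (m : ZMod 5 × ZMod 5 → ZMod 5 × ZMod 5),
    σ z0 = a * z0 + b * w0 ∧ σ w0 = c * z0 + d * w0 ∧ KleinAdm a b c d ∧ LevelAct hζ a b c d m

theorem GalLevel.galKlein {ζ : Qbar} {hζ : IsZeta5 ζ} {z0 w0 : Qbar} (h : GalLevel hζ z0 w0) :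
    GalKlein z0 w0 := by
  intro σ
  obtain ⟨a, b, c, d, m, h1, h2, h3, -⟩ := h σ
  exact ⟨a, b, c, d, h1, h2, h3⟩

end Fermat.Agent.S52.GalLevelSpec
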