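import Mathlib
import Fermat.Agent.S52.GalLevelSpec
import Fermat.Agent.S52.Klein.Equivariance
import Fermat.Agent.S52.AssemblySpec
import Fermat.Agent.S52.CharEqGlue

/-!
# S52: `FamilyCongr` from `GalLevel` (K2 + A2 + A3 + block (B))

`familyCongr`: if every Galois automorphism moves the Klein parameter `(z0, w0)` of `W` by an
admissible matrix acting on level structures (`GalLevel`, the output of A2 part 2), then every
nonsingular integral member `W'` of the family `v(s,t) = s v0 + t v1` satisfies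
`5 ∣ a_ℓ(W') - a_ℓ(W)` for all common good primes `ℓ ≠ 5`.
-/

set_option autoImplicit false

namespace Fermat.Agent.S52.FamilyCongr

open WeierstrassCurve WeierstrassCurve.Affine
open Fermat.Agent.S52.Klein Fermat.Agent.S52.Klein.ShortCurve Fermat.Agent.S52.Param
open Fermat.Agent.S52.Family Fermat.Agent.S52.GalLevelSpec Fermat.Agent.S52.AssemblySpec
open Fermat.Agent.S52.TorsionGlue

local notation "Qbar" => AlgebraicClosure ℚ

/-! ### bridges between the two presentations of the forms -/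

section Bridge

variable {K : Type*} [Field K]

theorem kf_eq (z w : K) : kf z w = fF z w := by unfold kf fF gF; ring

theorem kH_eq (z w : K) : kH z w = HF z w := by unfold kH HF hF; ring

theorem kT_eq (z w : K) : kT z w = TF z w := by unfold kT TF tF; ring

theorem cov1_eq (z w : K) : cov1 z w = wf1 z w := by unfold cov1 wf1; ring

theorem cov2_eq (z w : K) : cov2 z w = wf2 z w := by unfold cov2 wf2; ring

end Bridge

theorem vz_eq (z0 w0 : Qbar) (s t : ℤ) :
    AssemblySpec.vz z0 w0 s t = Family.vz z0 w0 ((s : ℚ) : Qbar) ((t : ℚ) : Qbar) := by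
  simp [AssemblySpec.vz, Family.vz, cov1_eq]

theorem vw_eq (z0 w0 : Qbar) (s t : ℤ) :
    AssemblySpec.vw z0 w0 s t = Family.vw z0 w0 ((s : ℚ) : Qbar) ((t : ℚ) : Qbar) := by
  simp [AssemblySpec.vw, Family.vw, cov2_eq]

/-! ### Klein parameters from integral models -/

/-- A pair `(z, w)` with `HF = -c₄`, `TF = -c₆` of an integral model with `Δ ≠ 0` is a Klein
parameter of its short model. -/
theorem isParam_of_model (W : WeierstrassCurve ℤ) (hΔ : W.Δ ≠ 0) {z w : Qbar}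
    (h4 : HF z w = -((W.c₄ : ℤ) : Qbar)) (h6 : TF z w = -((W.c₆ : ℤ) : Qbar)) :
    IsParam (-27 * ((W.c₄ : ℤ) : Qbar)) (-54 * ((W.c₆ : ℤ) : Qbar)) z w where
  hA := by rw [h4]; ring
  hB := by rw [h6]; ring
  hf := by
    intro hf
    have hs := syzygy z w
    rw [h4, h6, hf] at hs
    have hrel : (1728 : Qbar) * ((W.Δ : ℤ) : Qbar) =
        ((W.c₄ : ℤ) : Qbar) ^ 3 - ((W.c₆ : ℤ) : Qbar) ^ 2 := by
      have := congrArg (fun x : ℤ => (x : Qbar)) W.c_relation
      push_cast at this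
      exact this
    have h0 : (1728 : Qbar) * ((W.Δ : ℤ) : Qbar) = 0 := by
      rw [hrel]
      linear_combination -hs
    have hΔ' : ((W.Δ : ℤ) : Qbar) ≠ 0 := by exact_mod_cast hΔ
    exact hΔ' ((mul_eq_zero.mp h0).resolve_left (by norm_num))

/-- The conjugation homomorphism satisfies `IsConj`. -/
theorem isConj_of_conjHom {A B : Qbar} (σ : Qbar →+* Qbar)
    (c : (shortW A B).Point →+ (shortW A B).Point)
    (hc : ∀ (x y : Qbar) (h : (shortW A B).Nonsingular x y),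
      ∃ h' : (shortW A B).Nonsingular (σ x) (σ y),
        c (Point.some x y h) = Point.some (σ x) (σ y) h') (P : (shortW A B).Point) :
    IsConj (⇑σ) P (c P) := by
  rcases P with _ | ⟨x, y, h⟩
  · have : c (Point.zero : (shortW A B).Point) = 0 := map_zero c
    rw [this]
    exact trivial
  · obtain ⟨h', e⟩ := hc x y h
    rw [e]
    exact ⟨rfl, rfl⟩

/-- `σ ζ = ζ ^ k` with `1 ≤ k ≤ 4`. -/
theorem exists_pow_of_isZeta5 {ζ : Qbar} (hζ : IsZeta5 ζ) (σ : Qbar →+* Qbar) :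
    ∃ k ∈ Finset.Icc 1 4, σ ζ = ζ ^ k := by
  have hprim : IsPrimitiveRoot ζ 5 := hζ.isPrimitiveRoot
  have h5 : (σ ζ) ^ 5 = 1 := by rw [← map_pow, hζ.pow_five, map_one]
  obtain ⟨i, hi, hiζ⟩ := hprim.eq_pow_of_pow_eq_one h5
  have hne : σ ζ ≠ 1 := by
    intro h1
    have : ζ = 1 := σ.injective (by rw [h1, map_one])
    have h0 := hζ
    unfold IsZeta5 at h0
    rw [this] at h0
    norm_num at h0
  have hi0 : i ≠ 0 := by
    rintro rfl
    exact hne (by rw [← hiζ, pow_zero])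
  exact ⟨i, Finset.mem_Icc.mpr ⟨Nat.one_le_iff_ne_zero.mpr hi0, by omega⟩, hiζ.symm⟩

/-- `kL` only depends on the parameter. -/
theorem kL_congr_param {A B z w z' w' : Qbar} (h : IsParam A B z w) (h' : IsParam A B z' w')
    {ζ : Qbar} (hζ : IsZeta5 ζ) (ez : z = z') (ew : w = w') : kL h hζ = kL h' hζ := by
  subst ez ew
  rfl

/-- The Galois action on the level structure of any parameter moved by the matrix of `σ`. -/
theorem isConj_kL {ζ : Qbar} (hζ : IsZeta5 ζ) (σ : Qbar ≃ₐ[ℚ] Qbar) {a b c d : Qbar}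
    {m0 : ZMod 5 × ZMod 5 → ZMod 5 × ZMod 5} (hact : LevelAct hζ a b c d m0)
    {k : ℕ} (hk : k ∈ Finset.Icc 1 4) (hσζ : σ ζ = ζ ^ k)
    {A B z w : Qbar} (h : IsParam A B z w) (hA : σ A = A) (hB : σ B = B)
    (hz : σ z = a * z + b * w) (hw : σ w = c * z + d * w) (u : ZMod 5 × ZMod 5) :
    IsConj (⇑σ) (kL h hζ u) (kL h hζ (m0 ((k : ZMod 5) * u.1, u.2))) := by
  obtain ⟨cj, hcj⟩ := exists_conjHom (σ : Qbar →+* Qbar) hA hB
  have e1 := conj_kL h hζ (σ : Qbar →+* Qbar) hA hB cj hcj hk hσζ u.1 u.2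
  have h' : IsParam A B (a * z + b * w) (c * z + d * w) := by
    rw [← hz, ← hw]
    exact h.map (σ : Qbar →+* Qbar) hA hB
  have e2 : kL (h.map (σ : Qbar →+* Qbar) hA hB) hζ = kL h' hζ :=
    kL_congr_param _ _ hζ hz hw
  have e3 := hact A B z w h h' ((k : ZMod 5) * u.1, u.2)
  have e4 : cj (kL h hζ u) = kL h hζ (m0 ((k : ZMod 5) * u.1, u.2)) := by
    rw [← e3, ← e2, ← e1]
  rw [← e4]
  exact isConj_of_conjHom (σ : Qbar →+* Qbar) cj hcj _

/-- **`FamilyCongr` from `GalLevel`.** -/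
theorem familyCongr (W : WeierstrassCurve ℤ) (hΔ : W.Δ ≠ 0) {z0 w0 : Qbar}
    (hK : IsKleinParam W z0 w0) {ζ : Qbar} (hζ : IsZeta5 ζ) (hG : GalLevel hζ z0 w0) :
    AssemblySpec.FamilyCongr W z0 w0 := by
  intro s t W' hB hΔ' ℓ hℓ hgood hgood' hℓ5
  have h0 := isParam_of_model W hΔ hK.1 hK.2
  have h1 := isParam_of_model W' hΔ' (z := AssemblySpec.vz z0 w0 s t)
    (w := AssemblySpec.vw z0 w0 s t) (by rw [hB.1]; ring) (by rw [hB.2]; ring)
  have hnum : ∀ (σ : Qbar ≃ₐ[ℚ] Qbar) (r : ℤ), σ ((r : ℤ) : Qbar) = ((r : ℤ) : Qbar) :=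
    fun σ r => map_intCast σ r
  refine CharEqGlue.five_dvd_apOfModel_sub W W' (A := ZMod 5 × ZMod 5) ?_ (E0 := shortW _ _)
    (E0' := shortW _ _) rfl rfl (kL h0 hζ) (kL h1 hζ) (kL_injective h0 hζ) (kL_injective h1 hζ)
    ?_ hℓ hℓ5 hgood hgood'
  · rw [Nat.card_prod, Nat.card_zmod]
  · intro σ
    obtain ⟨a, b, c, d, m0, hz, hw, hadm, hact⟩ := hG σ
    obtain ⟨k, hk, hσζ⟩ := exists_pow_of_isZeta5 hζ (σ : Qbar →+* Qbar)
    refine ⟨fun u => m0 ((k : ZMod 5) * u.1, u.2), fun u => ?_, fun u => ?_⟩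
    · exact isConj_kL hζ σ hact hk hσζ h0 (by rw [map_mul, map_neg, map_ofNat, hnum])
        (by rw [map_mul, map_neg, map_ofNat, hnum]) hz hw u
    · obtain ⟨g1, g2⟩ := galois_family hz hw hadm (s : ℚ) (t : ℚ)
      rw [← vz_eq, ← vw_eq] at g1 g2
      exact isConj_kL hζ σ hact hk hσζ h1 (by rw [map_mul, map_neg, map_ofNat, hnum])
        (by rw [map_mul, map_neg, map_ofNat, hnum]) g1 g2 u

end Fermat.Agent.S52.FamilyCongr
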