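import Mathlib
import Fermat.Agent.S52.FamilyCongr

/-!
# S52, package A2 part 2: the Galois action on a Klein parameter

For a Klein parameter `v0 = (z0, w0)` of `y² = x³ + A x + B` over `ℚ̄` with `A, B` rational and
nonzero, every `σ ∈ Gal(ℚ̄/ℚ)` moves `v0` by a matrix `c • T^m • M`, `M` a word in `S, T`,
`c ^ 10 = 1`.  Such matrices are *admissible* (`Adm`): they are `KleinAdm`, they map Klein
parameters of any curve to Klein parameters of the same curve, and they act on all level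
structures `kL` through a matrix of determinant one over `ZMod 5`.

* `galLevel : GalLevel hζ z0 w0` (the input of `FamilyCongr.familyCongr` and of A3);
* `exists_det_action`: the action of `σ` on the level structure of `v0` is linear with
  determinant `k`, `σ ζ = ζ ^ k` (the input of the auxiliary-prime glue).

The admissibility of `S` for the gradient covariant is a hypothesis `hS : KleinAdm aS bS cS dS`.
-/

set_option autoImplicit false

namespace Fermat.Agent.S52.Galois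

open WeierstrassCurve WeierstrassCurve.Affine
open Fermat.Agent.S52.Klein Fermat.Agent.S52.Klein.ShortCurve Fermat.Agent.S52.Param
open Fermat.Agent.S52.Family Fermat.Agent.S52.GalLevelSpec Fermat.Agent.S52.TorsionGlue
open Fermat.Agent.S52.FamilyCongr

local notation "Qbar" => AlgebraicClosure ℚ

variable {ζ : Qbar} (hζ : IsZeta5 ζ)

/-! ### admissible matrices acting on level structures -/

/-- `!![a, b; c, d]` is admissible and acts on all level structures by the matrix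
`!![p, q; r, s]` of determinant one over `ZMod 5`. -/
structure Adm (a b c d : Qbar) (p q r s : ZMod 5) : Prop where
  adm : KleinAdm a b c d
  det : p * s - q * r = 1
  param : ∀ {A B z w : Qbar}, IsParam A B z w → IsParam A B (a * z + b * w) (c * z + d * w)
  act : LevelAct hζ a b c d (fun u => (p * u.1 + q * u.2, r * u.1 + s * u.2))

variable {hζ}

theorem kleinAdm_congr {a b c d a' b' c' d' : Qbar} (h : KleinAdm a b c d) (ea : a = a')
    (eb : b = b') (ec : c = c') (ed : d = d') : KleinAdm a' b' c' d' := by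
  subst ea eb ec ed
  exact h

theorem Adm.congr {a b c d a' b' c' d' : Qbar} {p q r s p' q' r' s' : ZMod 5}
    (h : Adm hζ a b c d p q r s) (ea : a = a') (eb : b = b') (ec : c = c') (ed : d = d')
    (ep : p = p') (eq : q = q') (er : r = r') (es : s = s') : Adm hζ a' b' c' d' p' q' r' s' := by
  subst ea eb ec ed ep eq er es
  exact h

/-- Composition: the outer matrix is the first one. -/
theorem Adm.mul {a b c d a' b' c' d' : Qbar} {p q r s p' q' r' s' : ZMod 5}
    (h : Adm hζ a b c d p q r s) (h' : Adm hζ a' b' c' d' p' q' r' s') :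
    Adm hζ (a * a' + b * c') (a * b' + b * d') (c * a' + d * c') (c * b' + d * d')
      (p' * p + q' * r) (p' * q + q' * s) (r' * p + s' * r) (r' * q + s' * s) where
  adm := h.adm.mul h'.adm
  det := by linear_combination (p' * s' - q' * r') * h.det + h'.det
  param := by
    intro A B z w hp
    have h1 := h.param (h'.param hp)
    have e1 : (a * a' + b * c') * z + (a * b' + b * d') * w =
        a * (a' * z + b' * w) + b * (c' * z + d' * w) := by ring
    have e2 : (c * a' + d * c') * z + (c * b' + d * d') * w =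
        c * (a' * z + b' * w) + d * (c' * z + d' * w) := by ring
    rw [e1, e2]
    exact h1
  act := by
    intro A B z w hp hp'' u
    have hp' := h'.param hp
    have h1 := h.param hp'
    have e1 : (a * a' + b * c') * z + (a * b' + b * d') * w =
        a * (a' * z + b' * w) + b * (c' * z + d' * w) := by ring
    have e2 : (c * a' + d * c') * z + (c * b' + d * d') * w =
        c * (a' * z + b' * w) + d * (c' * z + d' * w) := by ring
    rw [kL_congr_param hp'' h1 hζ e1 e2, h.act A B _ _ hp' h1 u, h'.act A B z w hp hp' _]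
    congr 1
    ext <;> simp <;> ring

theorem Adm.one : Adm hζ 1 0 0 1 1 0 0 1 where
  adm := KleinAdm.one
  det := by ring
  param := by
    intro A B z w hp
    have e1 : (1 : Qbar) * z + 0 * w = z := by ring
    have e2 : (0 : Qbar) * z + 1 * w = w := by ring
    rw [e1, e2]
    exact hp
  act := by
    intro A B z w hp hp' u
    have e1 : (1 : Qbar) * z + 0 * w = z := by ring
    have e2 : (0 : Qbar) * z + 1 * w = w := by ring
    rw [kL_congr_param hp' hp hζ e1 e2]
    congr 1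
    ext <;> simp

/-- `T : (z, w) ↦ (ζ z, w)`. -/
theorem Adm.T : Adm hζ ζ 0 0 1 1 1 0 1 where
  adm := by
    have h3 : (ζ ^ 3) ^ 10 = 1 := by
      rw [← pow_mul, show 3 * 10 = 5 * 6 by norm_num, pow_mul, hζ.pow_five, one_pow]
    refine kleinAdm_congr ((KleinAdm.scalar h3).mul (KleinAdm.diag hζ.pow_five)) ?_ ?_ ?_ ?_
    · have : ζ ^ 3 * ζ ^ 3 + 0 * 0 = ζ ^ 5 * ζ := by ring
      rw [this, hζ.pow_five, one_mul]
    · ring
    · ring
    · have : (0 : Qbar) * 0 + ζ ^ 3 * ζ ^ 2 = ζ ^ 5 := by ring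
      rw [this, hζ.pow_five]
  det := by ring
  param := by
    intro A B z w hp
    have e1 : ζ * z + 0 * w = ζ * z := by ring
    have e2 : (0 : Qbar) * z + 1 * w = w := by ring
    rw [e1, e2]
    exact hp.T hζ
  act := by
    intro A B z w hp hp' u
    have e1 : ζ * z + 0 * w = ζ * z := by ring
    have e2 : (0 : Qbar) * z + 1 * w = w := by ring
    rw [kL_congr_param hp' (hp.T hζ) hζ e1 e2]
    obtain ⟨x, y⟩ := u
    rw [kL_T hp hζ x y]
    congr 1
    ext <;> simp

/-- Scalars `c` with `c ^ 5 = 1`. -/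
theorem Adm.pos {c : Qbar} (hc : c ^ 5 = 1) : Adm hζ c 0 0 c 1 0 0 1 where
  adm := KleinAdm.scalar (pow_ten_of_pow_five (Or.inl hc))
  det := by ring
  param := by
    intro A B z w hp
    have e1 : c * z + 0 * w = c * z := by ring
    have e2 : (0 : Qbar) * z + c * w = c * w := by ring
    rw [e1, e2]
    exact hp.smul (pow_ten_of_pow_five (Or.inl hc))
  act := by
    intro A B z w hp hp' u
    have e1 : c * z + 0 * w = c * z := by ring
    have e2 : (0 : Qbar) * z + c * w = c * w := by ring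
    rw [kL_congr_param hp' (hp.smul (pow_ten_of_pow_five (Or.inl hc))) hζ e1 e2,
      kL_smul_pos hp hζ hc u]
    congr 1
    ext <;> simp

/-- Scalars `c` with `c ^ 5 = -1`. -/
theorem Adm.neg {c : Qbar} (hc : c ^ 5 = -1) : Adm hζ c 0 0 c (-1) 0 0 (-1) where
  adm := KleinAdm.scalar (pow_ten_of_pow_five (Or.inr hc))
  det := by ring
  param := by
    intro A B z w hp
    have e1 : c * z + 0 * w = c * z := by ring
    have e2 : (0 : Qbar) * z + c * w = c * w := by ring
    rw [e1, e2]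
    exact hp.smul (pow_ten_of_pow_five (Or.inr hc))
  act := by
    intro A B z w hp hp' u
    have e1 : c * z + 0 * w = c * z := by ring
    have e2 : (0 : Qbar) * z + c * w = c * w := by ring
    rw [kL_congr_param hp' (hp.smul (pow_ten_of_pow_five (Or.inr hc))) hζ e1 e2,
      kL_smul_neg hp hζ hc u]
    congr 1
    ext <;> simp

/-! ### the substitution `S` -/

/-- entries of the matrix `S / √5`. -/
noncomputable def aS (ζ : Qbar) : Qbar := (sqrt5 ζ)⁻¹ * (-(ζ - ζ ^ 4))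

noncomputable def bS (ζ : Qbar) : Qbar := (sqrt5 ζ)⁻¹ * (ζ ^ 2 - ζ ^ 3)

noncomputable def cS (ζ : Qbar) : Qbar := (sqrt5 ζ)⁻¹ * (ζ ^ 2 - ζ ^ 3)

noncomputable def dS (ζ : Qbar) : Qbar := (sqrt5 ζ)⁻¹ * (ζ - ζ ^ 4)

theorem SzN_eq (ζ z w : Qbar) : SzN ζ z w = aS ζ * z + bS ζ * w := by
  unfold SzN Sz aS bS
  ring

theorem SwN_eq (ζ z w : Qbar) : SwN ζ z w = cS ζ * z + dS ζ * w := by
  unfold SwN Sw cS dS
  ring

/-- `S`, given its admissibility for the gradient covariant. -/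
theorem Adm.S (hS : KleinAdm (aS ζ) (bS ζ) (cS ζ) (dS ζ)) :
    Adm hζ (aS ζ) (bS ζ) (cS ζ) (dS ζ) 0 1 (-1) 0 where
  adm := hS
  det := by ring
  param := by
    intro A B z w hp
    rw [← SzN_eq, ← SwN_eq]
    exact hp.S hζ
  act := by
    intro A B z w hp hp' u
    rw [kL_congr_param hp' (hp.S hζ) hζ (SzN_eq ζ z w).symm (SwN_eq ζ z w).symm]
    obtain ⟨x, y⟩ := u
    rw [kL_S hp hζ x y]
    congr 1
    ext <;> simp

/-- powers of `T`. -/
theorem Adm.Tpow (n : ℕ) : Adm hζ (ζ ^ n) 0 0 1 1 (n : ZMod 5) 0 1 := by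
  induction n with
  | zero =>
    exact (Adm.one (hζ := hζ)).congr (pow_zero ζ).symm rfl rfl rfl rfl (by simp) rfl rfl
  | succ n ih =>
    refine (ih.mul Adm.T).congr ?_ ?_ ?_ ?_ ?_ ?_ ?_ ?_
    · ring
    · ring
    · ring
    · ring
    · ring
    · push_cast
      ring
    · ring
    · ring

/-! ### transitivity on nonzero vectors -/

theorem exists_adm_col_of_ne (hS : KleinAdm (aS ζ) (bS ζ) (cS ζ) (dS ζ)) (x y : ZMod 5)
    (hy : y ≠ 0) :
    ∃ (a b c d : Qbar) (p q r s : ZMod 5), Adm hζ a b c d p q r s ∧ p = x ∧ r = y := by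
  have hj : ((y.val : ℕ) : ZMod 5) = y := ZMod.natCast_zmod_val y
  have hi : ((((x + 1) * y⁻¹).val : ℕ) : ZMod 5) = (x + 1) * y⁻¹ := ZMod.natCast_zmod_val _
  refine ⟨_, _, _, _, _, _, _, _,
    ((((Adm.S hS).mul (Adm.Tpow y.val)).mul (Adm.S hS)).mul (Adm.Tpow ((x + 1) * y⁻¹).val)),
    ?_, ?_⟩
  · rw [hi, hj]
    have hyy : y⁻¹ * y = 1 := by
      have : Fact (Nat.Prime 5) := ⟨by norm_num⟩
      exact inv_mul_cancel₀ hy
    linear_combination (x + 1) * hyy
  · rw [hj]
    ring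

theorem exists_adm_col (hS : KleinAdm (aS ζ) (bS ζ) (cS ζ) (dS ζ)) (x y : ZMod 5)
    (hxy : x ≠ 0 ∨ y ≠ 0) :
    ∃ (a b c d : Qbar) (p q r s : ZMod 5), Adm hζ a b c d p q r s ∧ p = x ∧ r = y := by
  by_cases hy : y = 0
  · have hx : x ≠ 0 := hxy.resolve_right (not_not.mpr hy)
    obtain ⟨a, b, c, d, p, q, r, s, hG, hp, hr⟩ := exists_adm_col_of_ne (hζ := hζ) hS 0 x hx
    refine ⟨_, _, _, _, _, _, _, _, hG.mul (Adm.S hS), ?_, ?_⟩
    · rw [hp, hr]
      ring
    · rw [hp, hr, hy]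
      ring
  · exact exists_adm_col_of_ne hS x y hy

/-! ### the Galois action on a Klein parameter -/

theorem pow_five_eq_of_pow_ten {c : Qbar} (hc : c ^ 10 = 1) : c ^ 5 = 1 ∨ c ^ 5 = -1 := by
  have : c ^ 5 * c ^ 5 = 1 := by rw [← pow_add]; exact hc
  exact mul_self_eq_one_iff.mp this

/-- Every ring automorphism fixing `A`, `B` moves a Klein parameter of `y² = x³ + A x + B`
(`A, B ≠ 0`) by an admissible matrix. -/
theorem exists_adm_of_fix (hS : KleinAdm (aS ζ) (bS ζ) (cS ζ) (dS ζ)) {A B z0 w0 : Qbar}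
    (h0 : IsParam A B z0 w0) (hA0 : A ≠ 0) (hB0 : B ≠ 0) (σ : Qbar →+* Qbar) (hA : σ A = A)
    (hB : σ B = B) :
    ∃ (a b c d : Qbar) (p q r s : ZMod 5), Adm hζ a b c d p q r s ∧
      σ z0 = a * z0 + b * w0 ∧ σ w0 = c * z0 + d * w0 := by
  have h0' : IsParam A B (σ z0) (σ w0) := h0.map σ hA hB
  -- the point `Q(σ v0)` in the level structure of `v0`
  have h5 : (5 : ℕ) • pQ h0' hζ = 0 := by
    have := five_zsmul_pQ h0' hζ
    exact_mod_cast this
  obtain ⟨⟨x, y⟩, hxy⟩ := kL_surjective h0 hζ (pQ h0' hζ) h5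
  have hne : x ≠ 0 ∨ y ≠ 0 := by
    by_contra hcon
    simp only [not_or, not_not] at hcon
    obtain ⟨rfl, rfl⟩ := hcon
    have h00 : ((0 : ZMod 5), (0 : ZMod 5)) = 0 := rfl
    rw [h00, map_zero] at hxy
    exact pQ_ne_zero h0' hζ hxy.symm
  obtain ⟨a, b, c, d, p, q, r, s, hG, hp, hr⟩ := exists_adm_col (hζ := hζ) hS x y hne
  have h1 : IsParam A B (a * z0 + b * w0) (c * z0 + d * w0) := hG.param h0
  have e : pQ h1 hζ = pQ h0' hζ := by
    rw [← kL_one_zero h1 hζ, hG.act A B z0 w0 h0 h1 (1, 0), ← hxy]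
    congr 1
    ext
    · simp [hp]
    · simp [hr]
  obtain ⟨cc, m, -, ez, ew⟩ := exists_smul_T_of_pQ_eq h1 h0' hζ e
  -- the scalar is a tenth root of unity
  have hTm := (Adm.Tpow (hζ := hζ) m).param h1
  have ez' : σ z0 = cc * (ζ ^ m * (a * z0 + b * w0) + 0 * (c * z0 + d * w0)) := by
    rw [ez]; ring
  have ew' : σ w0 = cc * (0 * (a * z0 + b * w0) + 1 * (c * z0 + d * w0)) := by
    rw [ew]; ring
  have hH : kH (ζ ^ m * (a * z0 + b * w0) + 0 * (c * z0 + d * w0))
      (0 * (a * z0 + b * w0) + 1 * (c * z0 + d * w0)) ≠ 0 := by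
    rw [kH_eq]
    intro h
    apply hA0
    rw [← hTm.hA, h, mul_zero]
  have hT : kT (ζ ^ m * (a * z0 + b * w0) + 0 * (c * z0 + d * w0))
      (0 * (a * z0 + b * w0) + 1 * (c * z0 + d * w0)) ≠ 0 := by
    rw [kT_eq]
    intro h
    apply hB0
    rw [← hTm.hB, h, mul_zero]
  have hc10 : cc ^ 10 = 1 := by
    refine pow_ten_eq_one_of_smul hH hT ?_ ?_
    · rw [kH_eq, kH_eq, ← ez', ← ew']
      have h27 : (27 : Qbar) ≠ 0 := by norm_num
      exact mul_left_cancel₀ h27 (h0'.hA.trans hTm.hA.symm)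
    · rw [kT_eq, kT_eq, ← ez', ← ew']
      have h54 : (54 : Qbar) ≠ 0 := by norm_num
      exact mul_left_cancel₀ h54 (h0'.hB.trans hTm.hB.symm)
  rcases pow_five_eq_of_pow_ten hc10 with hc | hc
  · refine ⟨_, _, _, _, _, _, _, _, (Adm.pos (hζ := hζ) hc).mul ((Adm.Tpow m).mul hG), ?_, ?_⟩
    · rw [ez]; ring
    · rw [ew]; ring
  · refine ⟨_, _, _, _, _, _, _, _, (Adm.neg (hζ := hζ) hc).mul ((Adm.Tpow m).mul hG), ?_, ?_⟩
    · rw [ez]; ring
    · rw [ew]; ring

/-- **A2 part 2**, in the shape consumed by `FamilyCongr.familyCongr` and by A3. -/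
theorem galLevel (hS : KleinAdm (aS ζ) (bS ζ) (cS ζ) (dS ζ)) {A B z0 w0 : Qbar}
    (h0 : IsParam A B z0 w0) (hA0 : A ≠ 0) (hB0 : B ≠ 0)
    (hA : ∀ σ : Qbar ≃ₐ[ℚ] Qbar, σ A = A) (hB : ∀ σ : Qbar ≃ₐ[ℚ] Qbar, σ B = B) :
    GalLevel hζ z0 w0 := by
  intro σ
  obtain ⟨a, b, c, d, p, q, r, s, hG, hz, hw⟩ :=
    exists_adm_of_fix (hζ := hζ) hS h0 hA0 hB0 (σ : Qbar →+* Qbar) (hA σ) (hB σ)
  exact ⟨a, b, c, d, _, hz, hw, hG.adm, hG.act⟩

/-- **The Galois action on the level structure is linear of determinant `k`**, `σ ζ = ζ ^ k`. -/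
theorem exists_det_action (hS : KleinAdm (aS ζ) (bS ζ) (cS ζ) (dS ζ)) {A B z0 w0 : Qbar}
    (h0 : IsParam A B z0 w0) (hA0 : A ≠ 0) (hB0 : B ≠ 0)
    (hA : ∀ σ : Qbar ≃ₐ[ℚ] Qbar, σ A = A) (hB : ∀ σ : Qbar ≃ₐ[ℚ] Qbar, σ B = B)
    (σ : Qbar ≃ₐ[ℚ] Qbar) :
    ∃ (k : ℕ) (p q r s : ZMod 5), k ∈ Finset.Icc 1 4 ∧ σ ζ = ζ ^ k ∧
      p * s - q * r = (k : ZMod 5) ∧
      ∀ x y : ZMod 5, IsConj (⇑σ) (kL h0 hζ (x, y)) (kL h0 hζ (p * x + q * y, r * x + s * y)) := by
  obtain ⟨a, b, c, d, p, q, r, s, hG, hz, hw⟩ :=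
    exists_adm_of_fix (hζ := hζ) hS h0 hA0 hB0 (σ : Qbar →+* Qbar) (hA σ) (hB σ)
  obtain ⟨k, hk, hσζ⟩ := exists_pow_of_isZeta5 hζ (σ : Qbar →+* Qbar)
  refine ⟨k, p * k, q, r * k, s, hk, hσζ, ?_, fun x y => ?_⟩
  · linear_combination (k : ZMod 5) * hG.det
  · have := isConj_kL hζ σ hG.act hk hσζ h0 (hA σ) (hB σ) hz hw (x, y)
    have e : ((p * ((k : ZMod 5) * x) + q * y, r * ((k : ZMod 5) * x) + s * y) :
        ZMod 5 × ZMod 5) = (p * k * x + q * y, r * k * x + s * y) := by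
      ext <;> simp <;> ring
    simpa only [e] using this

end Fermat.Agent.S52.Galois
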