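import Mathlib
import Fermat.Agent.S52.Assembly
import Fermat.Agent.S52.Galois
import Fermat.Agent.S52.Klein.GaloisParam
import Fermat.Agent.S52.FamilyRational
import Fermat.Agent.S52.Semistable
import Fermat.Agent.S52.Model

/-!
# S52: everything except the auxiliary prime

`exists_kleinParam`: a semistable integral model `W` with `Δ ≠ 0` has a Klein parameter
`(z0, w0) ∈ ℚ̄²` for which the Props `FamilyIntegral`, `FamilyCongr`, `FamilySemistable` of
`AssemblySpec` hold.  `goal_of_familyAux`: hence the statement of S52 for `W` follows from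
`FamilyAux` for that parameter (block C2).
-/

set_option autoImplicit false

namespace Fermat.Agent.S52.Main

open WeierstrassCurve
open Fermat.Agent.S52.Klein Fermat.Agent.S52.Param Fermat.Agent.S52.Family
open Fermat.Agent.S52.AssemblySpec Fermat.Agent.S52.GalLevelSpec

local notation "Qbar" => AlgebraicClosure ℚ

/-- The Klein parameter and the three Props not involving the auxiliary prime. -/
theorem exists_kleinParam (W : WeierstrassCurve ℤ) (hΔ : W.Δ ≠ 0) (hW : W.IsSemistableModel) :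
    ∃ z0 w0 : Qbar, IsKleinParam W z0 w0 ∧ GalKlein z0 w0 ∧ FamilyIntegral W z0 w0 ∧
      FamilyCongr W z0 w0 ∧ FamilySemistable W z0 w0 := by
  obtain ⟨h4, h6⟩ := Model.c4c6NeZero W hΔ hW
  have h4' : ((W.c₄ : ℤ) : Qbar) ≠ 0 := by exact_mod_cast h4
  have h6' : ((W.c₆ : ℤ) : Qbar) ≠ 0 := by exact_mod_cast h6
  have hrel : ((W.c₄ : ℤ) : Qbar) ^ 3 - ((W.c₆ : ℤ) : Qbar) ^ 2 ≠ 0 := by
    have h := congrArg (fun x : ℤ => (x : Qbar)) W.c_relation
    push_cast at h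
    rw [← h]
    have hΔ' : ((W.Δ : ℤ) : Qbar) ≠ 0 := by exact_mod_cast hΔ
    exact mul_ne_zero (by norm_num) hΔ'
  obtain ⟨z0, w0, hH, hT, -⟩ := exists_param ((W.c₄ : ℤ) : Qbar) ((W.c₆ : ℤ) : Qbar) h4' h6' hrel
  have hK : IsKleinParam W z0 w0 :=
    ⟨by rw [← FamilyCongr.kH_eq]; exact hH, by rw [← FamilyCongr.kT_eq]; exact hT⟩
  obtain ⟨ζ, hζ⟩ := GaloisParam.exists_isZeta5 Qbar
  have h0 := FamilyCongr.isParam_of_model W hΔ hK.1 hK.2
  have hA0 : (-27 * ((W.c₄ : ℤ) : Qbar)) ≠ 0 := mul_ne_zero (by norm_num) h4'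
  have hB0 : (-54 * ((W.c₆ : ℤ) : Qbar)) ≠ 0 := mul_ne_zero (by norm_num) h6'
  have hfixA : ∀ σ : Qbar ≃ₐ[ℚ] Qbar, σ (-27 * ((W.c₄ : ℤ) : Qbar)) = -27 * ((W.c₄ : ℤ) : Qbar) :=
    fun σ => by rw [map_mul, map_neg, map_ofNat, map_intCast]
  have hfixB : ∀ σ : Qbar ≃ₐ[ℚ] Qbar, σ (-54 * ((W.c₆ : ℤ) : Qbar)) = -54 * ((W.c₆ : ℤ) : Qbar) :=
    fun σ => by rw [map_mul, map_neg, map_ofNat, map_intCast]
  have hG : GalLevel hζ z0 w0 :=
    Galois.galLevel (hζ := hζ) (GaloisParam.kleinAdm_S hζ) h0 hA0 hB0 hfixA hfixB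
  have hGK : GalKlein z0 w0 := hG.galKlein
  exact ⟨z0, w0, hK, hGK,
    Assembly.familyIntegral_of_rational W hK (FamilyRational.familyRational_of_galKlein hGK),
    FamilyCongr.familyCongr W hΔ hK hζ hG, Semistable.familySemistable W z0 w0 hK⟩

/-- **S52 modulo the auxiliary prime.** -/
theorem goal_of_familyAux (W : WeierstrassCurve ℤ) (hΔ : W.Δ ≠ 0) (hW : W.IsSemistableModel)
    (hAux : ∀ z0 w0 : Qbar, IsKleinParam W z0 w0 → GalKlein z0 w0 → FamilyAux z0 w0) :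
    Goal W := by
  obtain ⟨z0, w0, hK, hGK, hI, hC, hS⟩ := exists_kleinParam W hΔ hW
  exact Assembly.assemblyIntegral W hΔ hW z0 w0 hI hC hS (hAux z0 w0 hK hGK)

end Fermat.Agent.S52.Main
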