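/-
helper2.  P-ELL / S52, block C2: `AssemblySpec.FamilyAux` for every Klein parameter of a semistable
model `W` with irreducible mod `5` representation — exactly the input `hAux` of
`Main.goal_of_familyAux` (helper28).  `FamilyAux.familyAux` + helper60's
`GaloisParam.exists_matrix_det`.
-/
import Mathlib
import Fermat.Agent.S52.FamilyAux
import Fermat.Agent.S52.Klein.GaloisParam

set_option autoImplicit false

namespace Fermat.Agent.S52.FamilyAux

open WeierstrassCurve
open Fermat.Agent.S52.Klein Fermat.Agent.S52.AssemblySpec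

local notation "Qbar" => AlgebraicClosure ℚ

/-- **Block C2 of S52.** -/
theorem familyAux_of_model (W : WeierstrassCurve ℤ) (hΔ : W.Δ ≠ 0) (hW : W.IsSemistableModel)
    (h5 : W.ModRepIsIrreducible 5) (z0 w0 : Qbar) (hK : IsKleinParam W z0 w0)
    (hG : Family.GalKlein z0 w0) : FamilyAux z0 w0 := by
  obtain ⟨ζ, hζ⟩ := GaloisParam.exists_isZeta5 Qbar
  have h4 : ((W.c₄ : ℤ) : Qbar) ≠ 0 := by exact_mod_cast J0J1728.c₄_ne_zero W hW
  have h6 : ((W.c₆ : ℤ) : Qbar) ≠ 0 := by exact_mod_cast J0J1728.c₆_ne_zero W hW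
  refine familyAux W hΔ hW h5 hK hζ hG (fun h0 σ => ?_)
  obtain ⟨k, p, q, r, s, -, hk, hd, hm⟩ := GaloisParam.exists_matrix_det h0
    (mul_ne_zero (by norm_num) h4) (mul_ne_zero (by norm_num) h6) hζ σ
    (by rw [map_mul, map_neg, map_ofNat, map_intCast])
    (by rw [map_mul, map_neg, map_ofNat, map_intCast])
  exact ⟨k, p, q, r, s, hk, hd, hm⟩

end Fermat.Agent.S52.FamilyAux
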