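import Mathlib
import Fermat.Agent.S52.Klein.Forms

/-!
helper51 (P-ELL / S52, package A3 `Family`): the gradient covariant `(wf1, wf2)` of Klein's form `f`
commutes with the (unnormalised) matrix `√5 • S` (certificates generated by exact computer
algebra: division by the fifth cyclotomic polynomial).
-/

set_option autoImplicit false
set_option maxHeartbeats 1600000
set_option maxRecDepth 8000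

namespace Fermat.Agent.S52.Family

open Fermat.Agent.S52.Klein

variable {K : Type*} [Field K]

theorem wf1_S (z w ζ : K) (hζ : ζ ^ 4 + ζ ^ 3 + ζ ^ 2 + ζ + 1 = 0) :
    wf1 (Sz ζ z w) (Sw ζ z w) =
      5 ^ 5 * (-(ζ - ζ ^ 4) * wf1 z w + (ζ ^ 2 - ζ ^ 3) * wf2 z w) := by
  simp only [wf1, wf2, Sz, Sw]
  linear_combination (ζ*(-34375*z*w^10 + 206250*z^6*w^5 + 3125*z^11) + ζ^2*(-3125*w^11 + 34375*z*w^10 + 206250*z^5*w^6 - 206250*z^6*w^5 + 34375*z^10*w - 3125*z^11) + ζ^3*(6250*w^11 - 412500*z^5*w^6 - 68750*z^10*w) + ζ^4*(-3125*w^11 + 34375*z*w^10 + 206250*z^5*w^6 - 206250*z^6*w^5 + 34375*z^10*w - 3125*z^11) + ζ^5*(-34375*z*w^10 + 206250*z^6*w^5 + 3125*z^11) + ζ^6*(-34375*z*w^10 + 206250*z^6*w^5 + 3125*z^11) + ζ^7*(-3125*w^11 + 34375*z*w^10 + 206250*z^5*w^6 - 206250*z^6*w^5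 + 34375*z^10*w - 3125*z^11) + ζ^8*(6250*w^11 - 412500*z^5*w^6 - 68750*z^10*w) + ζ^9*(-3125*w^11 + 34375*z*w^10 + 206250*z^5*w^6 - 206250*z^6*w^5 + 34375*z^10*w - 3125*z^11) + ζ^10*(-34375*z*w^10 + 206250*z^6*w^5 + 3125*z^11) + ζ^11*(-34364*z*w^10 + 206316*z^6*w^5 + 3124*z^11) + ζ^12*(-3136*w^11 + 34364*z*w^10 + 110*z^2*w^9 + 205854*z^5*w^6 - 206316*z^6*w^5 + 330*z^7*w^4 + 34386*z^10*w - 3124*z^11) + ζ^13*(6272*w^11 - 110*z*w^10 - 220*z^2*w^9 + 495*z^3*w^8 + 990*z^4*w^7 - 411708*z^5*w^6 - 1980*z^6*w^5 - 660*z^7*w^4 + 660*z^8*w^3 - 55*z^9*w^2 - 68772*z^10*w) + ζ^14*(-3136*w^11 + 34584*z*w^10 - 385*z^2*w^9 - 2805*z^3*w^8 - 1650*z^4*w^7 + 210804*z^5*w^6 - 201036*z^6*w^5 - 3630*z^7*w^4 - 1815*z^8*w^3 + 825*z^9*w^2 + 34386*z^10*w - 3114*z^11) + ζ^15*(110*w^11 - 34584*z*w^10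 + 1870*z^2*w^9 + 5445*z^3*w^8 - 8910*z^4*w^7 - 13530*z^5*w^6 + 210936*z^6*w^5 + 12210*z^7*w^4 - 2640*z^8*w^3 - 2805*z^9*w^2 + 220*z^10*w + 3114*z^11) + ζ^16*(-220*w^11 - 33660*z*w^10 - 5720*z^2*w^9 - 1320*z^3*w^8 + 28710*z^4*w^7 - 2970*z^5*w^6 + 179850*z^6*w^5 - 5610*z^7*w^4 + 14190*z^8*w^3 + 2530*z^9*w^2 - 1430*z^10*w + 3190*z^11) + ζ^17*(-2960*w^11 + 34375*z*w^10 + 12870*z^2*w^9 - 13695*z^3*w^8 - 31350*z^4*w^7 + 249480*z^5*w^6 - 189750*z^6*w^5 - 15840*z^7*w^4 - 18810*z^8*w^3 + 2475*z^9*w^2 + 37180*z^10*w - 3575*z^11) + ζ^18*(5315*w^11 - 3355*z*w^10 - 14575*z^2*w^9 + 36300*z^3*w^8 + 26400*z^4*w^7 - 470910*z^5*w^6 + 18150*z^6*w^5 + 14850*z^7*w^4 + 22275*z^8*w^3 - 5500*z^9*w^2 - 71115*z^10*w + 1045*z^11) + ζ^19*(-760*w^11 + 37290*z*w^10 + 12155*z^2*w^9 - 67155*z^3*w^8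 - 23100*z^4*w^7 + 297330*z^5*w^6 - 231990*z^6*w^5 - 13860*z^7*w^4 - 46365*z^8*w^3 + 10725*z^9*w^2 + 38280*z^10*w - 4830*z^11) + ζ^20*(-3025*w^11 - 35475*z*w^10 - 19855*z^2*w^9 + 110220*z^3*w^8 - 36960*z^4*w^7 - 166980*z^5*w^6 + 294690*z^6*w^5 + 53460*z^7*w^4 + 67485*z^8*w^3 - 34980*z^9*w^2 - 6765*z^10*w + 6645*z^11) + ζ^21*(5720*w^11 - 25520*z*w^10 + 15180*z^2*w^9 - 159720*z^3*w^8 + 129360*z^4*w^7 + 127380*z^5*w^6 - 40260*z^6*w^5 - 50160*z^7*w^4 - 69960*z^8*w^3 + 65780*z^9*w^2 - 1540*z^10*w - 3300*z^11) + ζ^22*(-13915*w^11 + 27500*z*w^10 + 12045*z^2*w^9 + 203280*z^3*w^8 - 191400*z^4*w^7 + 195690*z^5*w^6 + 102960*z^6*w^5 - 14190*z^7*w^4 + 87615*z^8*w^3 - 90200*z^9*w^2 + 48455*z^10*w + 5280*z^11) + ζ^23*(19295*w^11 - 12210*z*w^10 - 15675*z^2*w^9 - 235125*z^3*w^8 +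 295350*z^4*w^7 - 421080*z^5*w^6 - 303600*z^6*w^5 + 16500*z^7*w^4 - 111375*z^8*w^3 + 129525*z^9*w^2 - 90145*z^10*w - 10560*z^11) + ζ^24*(-19240*w^11 + 44990*z*w^10 + 13255*z^2*w^9 + 259545*z^3*w^8 - 404250*z^4*w^7 + 349140*z^5*w^6 + 222420*z^6*w^5 - 12210*z^7*w^4 + 116985*z^8*w^3 - 168025*z^9*w^2 + 81730*z^10*w + 10900*z^11) + ζ^25*(22165*w^11 - 44110*z*w^10 - 41305*z^2*w^9 - 276705*z^3*w^8 + 410190*z^4*w^7 - 396330*z^5*w^6 - 242220*z^6*w^5 + 84810*z^7*w^4 - 120615*z^8*w^3 + 174845*z^9*w^2 - 78925*z^10*w - 11120*z^11) + ζ^26*(-22165*w^11 + 9735*z*w^10 + 41305*z^2*w^9 + 276705*z^3*w^8 - 410190*z^4*w^7 + 396330*z^5*w^6 + 448470*z^6*w^5 - 84810*z^7*w^4 + 120615*z^8*w^3 - 174845*z^9*w^2 + 78925*z^10*w + 14245*z^11) + ζ^27*(16115*w^11 - 10615*z*w^10 - 13255*z^2*w^9 - 259545*z^3*w^8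 + 404250*z^4*w^7 - 142890*z^5*w^6 - 428670*z^6*w^5 + 12210*z^7*w^4 - 116985*z^8*w^3 + 168025*z^9*w^2 - 47355*z^10*w - 14025*z^11) + ζ^28*(-13045*w^11 + 12210*z*w^10 + 15675*z^2*w^9 + 235125*z^3*w^8 - 295350*z^4*w^7 + 8580*z^5*w^6 + 303600*z^6*w^5 - 16500*z^7*w^4 + 111375*z^8*w^3 - 129525*z^9*w^2 + 21395*z^10*w + 10560*z^11) + ζ^29*(10790*w^11 + 6875*z*w^10 - 12045*z^2*w^9 - 203280*z^3*w^8 + 191400*z^4*w^7 + 10560*z^5*w^6 - 309210*z^6*w^5 + 14190*z^7*w^4 - 87615*z^8*w^3 + 90200*z^9*w^2 - 14080*z^10*w - 8405*z^11) + ζ^30*(-5720*w^11 - 8855*z*w^10 - 15180*z^2*w^9 + 159720*z^3*w^8 - 129360*z^4*w^7 - 127380*z^5*w^6 + 246510*z^6*w^5 + 50160*z^7*w^4 + 69960*z^8*w^3 - 65780*z^9*w^2 + 1540*z^10*w + 6425*z^11) + ζ^31*(3025*w^11 + 1100*z*w^10 + 19855*z^2*w^9 - 110220*z^3*w^8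 + 36960*z^4*w^7 + 166980*z^5*w^6 - 88440*z^6*w^5 - 53460*z^7*w^4 - 67485*z^8*w^3 + 34980*z^9*w^2 + 6765*z^10*w - 3520*z^11) + ζ^32*(-2365*w^11 - 2915*z*w^10 - 12155*z^2*w^9 + 67155*z^3*w^8 + 23100*z^4*w^7 - 91080*z^5*w^6 + 25740*z^6*w^5 + 13860*z^7*w^4 + 46365*z^8*w^3 - 10725*z^9*w^2 - 3905*z^10*w + 1705*z^11) + ζ^33*(935*w^11 + 3355*z*w^10 + 14575*z^2*w^9 - 36300*z^3*w^8 - 26400*z^4*w^7 + 58410*z^5*w^6 - 18150*z^6*w^5 - 14850*z^7*w^4 - 22275*z^8*w^3 + 5500*z^9*w^2 + 2365*z^10*w - 1045*z^11) + ζ^34*(-165*w^11 - 12870*z^2*w^9 + 13695*z^3*w^8 + 31350*z^4*w^7 - 43230*z^5*w^6 - 16500*z^6*w^5 + 15840*z^7*w^4 + 18810*z^8*w^3 - 2475*z^9*w^2 - 2805*z^10*w + 450*z^11) + ζ^35*(220*w^11 - 715*z*w^10 + 5720*z^2*w^9 + 1320*z^3*w^8 - 28710*z^4*w^7 + 2970*z^5*w^6 + 26400*z^6*w^5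 + 5610*z^7*w^4 - 14190*z^8*w^3 - 2530*z^9*w^2 + 1430*z^10*w - 65*z^11) + ζ^36*(-110*w^11 + 209*z*w^10 - 1870*z^2*w^9 - 5445*z^3*w^8 + 8910*z^4*w^7 + 13530*z^5*w^6 - 4686*z^6*w^5 - 12210*z^7*w^4 + 2640*z^8*w^3 + 2805*z^9*w^2 - 220*z^10*w + 11*z^11) + ζ^37*(11*w^11 - 209*z*w^10 + 385*z^2*w^9 + 2805*z^3*w^8 + 1650*z^4*w^7 - 4554*z^5*w^6 - 5214*z^6*w^5 + 3630*z^7*w^4 + 1815*z^8*w^3 - 825*z^9*w^2 - 11*z^10*w - 11*z^11) + ζ^38*(-22*w^11 + 110*z*w^10 + 220*z^2*w^9 - 495*z^3*w^8 - 990*z^4*w^7 - 792*z^5*w^6 + 1980*z^6*w^5 + 660*z^7*w^4 - 660*z^8*w^3 + 55*z^9*w^2 + 22*z^10*w) + ζ^39*(11*w^11 + 11*z*w^10 - 110*z^2*w^9 + 396*z^5*w^6 + 66*z^6*w^5 - 330*z^7*w^4 - 11*z^10*w - z^11) + ζ^40*(-11*z*w^10 - 66*z^6*w^5 + z^11)) * hζ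

theorem wf2_S (z w ζ : K) (hζ : ζ ^ 4 + ζ ^ 3 + ζ ^ 2 + ζ + 1 = 0) :
    wf2 (Sz ζ z w) (Sw ζ z w) =
      5 ^ 5 * ((ζ ^ 2 - ζ ^ 3) * wf1 z w + (ζ - ζ ^ 4) * wf2 z w) := by
  simp only [wf1, wf2, Sz, Sw]
  linear_combination (ζ*(-3125*w^11 + 206250*z^5*w^6 + 34375*z^10*w) + ζ^2*(3125*w^11 + 34375*z*w^10 - 206250*z^5*w^6 - 206250*z^6*w^5 - 34375*z^10*w - 3125*z^11) + ζ^3*(-68750*z*w^10 + 412500*z^6*w^5 + 6250*z^11) + ζ^4*(3125*w^11 + 34375*z*w^10 - 206250*z^5*w^6 - 206250*z^6*w^5 - 34375*z^10*w - 3125*z^11) + ζ^5*(-3125*w^11 + 206250*z^5*w^6 + 34375*z^10*w) + ζ^6*(-3125*w^11 + 206250*z^5*w^6 + 34375*z^10*w) + ζ^7*(3125*w^11 + 34375*z*w^10 - 206250*z^5*w^6 - 206250*z^6*w^5 - 34375*z^10*w - 3125*z^11) + ζ^8*(-68750*z*w^10 + 412500*z^6*w^5 + 6250*z^11) + ζ^9*(3125*w^11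 + 34375*z*w^10 - 206250*z^5*w^6 - 206250*z^6*w^5 - 34375*z^10*w - 3125*z^11) + ζ^10*(-3125*w^11 + 206250*z^5*w^6 + 34375*z^10*w) + ζ^11*(-3124*w^11 + 206316*z^5*w^6 + 34364*z^10*w) + ζ^12*(3124*w^11 + 34386*z*w^10 - 330*z^4*w^7 - 206316*z^5*w^6 - 205854*z^6*w^5 + 110*z^9*w^2 - 34364*z^10*w - 3136*z^11) + ζ^13*(-68772*z*w^10 + 55*z^2*w^9 + 660*z^3*w^8 + 660*z^4*w^7 - 1980*z^5*w^6 + 411708*z^6*w^5 + 990*z^7*w^4 - 495*z^8*w^3 - 220*z^9*w^2 + 110*z^10*w + 6272*z^11) + ζ^14*(3114*w^11 + 34386*z*w^10 - 825*z^2*w^9 - 1815*z^3*w^8 + 3630*z^4*w^7 - 201036*z^5*w^6 - 210804*z^6*w^5 - 1650*z^7*w^4 + 2805*z^8*w^3 - 385*z^9*w^2 - 34584*z^10*w - 3136*z^11) + ζ^15*(-3114*w^11 + 220*z*w^10 + 2805*z^2*w^9 - 2640*z^3*w^8 - 12210*z^4*w^7 + 210936*z^5*w^6 + 13530*z^6*w^5 - 8910*z^7*w^4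 - 5445*z^8*w^3 + 1870*z^9*w^2 + 34584*z^10*w + 110*z^11) + ζ^16*(-3190*w^11 - 1430*z*w^10 - 2530*z^2*w^9 + 14190*z^3*w^8 + 5610*z^4*w^7 + 179850*z^5*w^6 + 2970*z^6*w^5 + 28710*z^7*w^4 + 1320*z^8*w^3 - 5720*z^9*w^2 + 33660*z^10*w - 220*z^11) + ζ^17*(3575*w^11 + 37180*z*w^10 - 2475*z^2*w^9 - 18810*z^3*w^8 + 15840*z^4*w^7 - 189750*z^5*w^6 - 249480*z^6*w^5 - 31350*z^7*w^4 + 13695*z^8*w^3 + 12870*z^9*w^2 - 34375*z^10*w - 2960*z^11) + ζ^18*(-1045*w^11 - 71115*z*w^10 + 5500*z^2*w^9 + 22275*z^3*w^8 - 14850*z^4*w^7 + 18150*z^5*w^6 + 470910*z^6*w^5 + 26400*z^7*w^4 - 36300*z^8*w^3 - 14575*z^9*w^2 + 3355*z^10*w + 5315*z^11) + ζ^19*(4830*w^11 + 38280*z*w^10 - 10725*z^2*w^9 - 46365*z^3*w^8 + 13860*z^4*w^7 - 231990*z^5*w^6 - 297330*z^6*w^5 - 23100*z^7*w^4 + 67155*z^8*w^3 + 12155*z^9*w^2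 - 37290*z^10*w - 760*z^11) + ζ^20*(-6645*w^11 - 6765*z*w^10 + 34980*z^2*w^9 + 67485*z^3*w^8 - 53460*z^4*w^7 + 294690*z^5*w^6 + 166980*z^6*w^5 - 36960*z^7*w^4 - 110220*z^8*w^3 - 19855*z^9*w^2 + 35475*z^10*w - 3025*z^11) + ζ^21*(3300*w^11 - 1540*z*w^10 - 65780*z^2*w^9 - 69960*z^3*w^8 + 50160*z^4*w^7 - 40260*z^5*w^6 - 127380*z^6*w^5 + 129360*z^7*w^4 + 159720*z^8*w^3 + 15180*z^9*w^2 + 25520*z^10*w + 5720*z^11) + ζ^22*(-5280*w^11 + 48455*z*w^10 + 90200*z^2*w^9 + 87615*z^3*w^8 + 14190*z^4*w^7 + 102960*z^5*w^6 - 195690*z^6*w^5 - 191400*z^7*w^4 - 203280*z^8*w^3 + 12045*z^9*w^2 - 27500*z^10*w - 13915*z^11) + ζ^23*(10560*w^11 - 90145*z*w^10 - 129525*z^2*w^9 - 111375*z^3*w^8 - 16500*z^4*w^7 - 303600*z^5*w^6 + 421080*z^6*w^5 + 295350*z^7*w^4 + 235125*z^8*w^3 - 15675*z^9*w^2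 + 12210*z^10*w + 19295*z^11) + ζ^24*(-10900*w^11 + 81730*z*w^10 + 168025*z^2*w^9 + 116985*z^3*w^8 + 12210*z^4*w^7 + 222420*z^5*w^6 - 349140*z^6*w^5 - 404250*z^7*w^4 - 259545*z^8*w^3 + 13255*z^9*w^2 - 44990*z^10*w - 19240*z^11) + ζ^25*(11120*w^11 - 78925*z*w^10 - 174845*z^2*w^9 - 120615*z^3*w^8 - 84810*z^4*w^7 - 242220*z^5*w^6 + 396330*z^6*w^5 + 410190*z^7*w^4 + 276705*z^8*w^3 - 41305*z^9*w^2 + 44110*z^10*w + 22165*z^11) + ζ^26*(-14245*w^11 + 78925*z*w^10 + 174845*z^2*w^9 + 120615*z^3*w^8 + 84810*z^4*w^7 + 448470*z^5*w^6 - 396330*z^6*w^5 - 410190*z^7*w^4 - 276705*z^8*w^3 + 41305*z^9*w^2 - 9735*z^10*w - 22165*z^11) + ζ^27*(14025*w^11 - 47355*z*w^10 - 168025*z^2*w^9 - 116985*z^3*w^8 - 12210*z^4*w^7 - 428670*z^5*w^6 + 142890*z^6*w^5 + 404250*z^7*w^4 + 259545*z^8*w^3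 - 13255*z^9*w^2 + 10615*z^10*w + 16115*z^11) + ζ^28*(-10560*w^11 + 21395*z*w^10 + 129525*z^2*w^9 + 111375*z^3*w^8 + 16500*z^4*w^7 + 303600*z^5*w^6 - 8580*z^6*w^5 - 295350*z^7*w^4 - 235125*z^8*w^3 + 15675*z^9*w^2 - 12210*z^10*w - 13045*z^11) + ζ^29*(8405*w^11 - 14080*z*w^10 - 90200*z^2*w^9 - 87615*z^3*w^8 - 14190*z^4*w^7 - 309210*z^5*w^6 - 10560*z^6*w^5 + 191400*z^7*w^4 + 203280*z^8*w^3 - 12045*z^9*w^2 - 6875*z^10*w + 10790*z^11) + ζ^30*(-6425*w^11 + 1540*z*w^10 + 65780*z^2*w^9 + 69960*z^3*w^8 - 50160*z^4*w^7 + 246510*z^5*w^6 + 127380*z^6*w^5 - 129360*z^7*w^4 - 159720*z^8*w^3 - 15180*z^9*w^2 + 8855*z^10*w - 5720*z^11) + ζ^31*(3520*w^11 + 6765*z*w^10 - 34980*z^2*w^9 - 67485*z^3*w^8 + 53460*z^4*w^7 - 88440*z^5*w^6 - 166980*z^6*w^5 + 36960*z^7*w^4 + 110220*z^8*w^3 +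 19855*z^9*w^2 - 1100*z^10*w + 3025*z^11) + ζ^32*(-1705*w^11 - 3905*z*w^10 + 10725*z^2*w^9 + 46365*z^3*w^8 - 13860*z^4*w^7 + 25740*z^5*w^6 + 91080*z^6*w^5 + 23100*z^7*w^4 - 67155*z^8*w^3 - 12155*z^9*w^2 + 2915*z^10*w - 2365*z^11) + ζ^33*(1045*w^11 + 2365*z*w^10 - 5500*z^2*w^9 - 22275*z^3*w^8 + 14850*z^4*w^7 - 18150*z^5*w^6 - 58410*z^6*w^5 - 26400*z^7*w^4 + 36300*z^8*w^3 + 14575*z^9*w^2 - 3355*z^10*w + 935*z^11) + ζ^34*(-450*w^11 - 2805*z*w^10 + 2475*z^2*w^9 + 18810*z^3*w^8 - 15840*z^4*w^7 - 16500*z^5*w^6 + 43230*z^6*w^5 + 31350*z^7*w^4 - 13695*z^8*w^3 - 12870*z^9*w^2 - 165*z^11) + ζ^35*(65*w^11 + 1430*z*w^10 + 2530*z^2*w^9 - 14190*z^3*w^8 - 5610*z^4*w^7 + 26400*z^5*w^6 - 2970*z^6*w^5 - 28710*z^7*w^4 - 1320*z^8*w^3 + 5720*z^9*w^2 + 715*z^10*w + 220*z^11) + ζ^36*(-11*w^11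 - 220*z*w^10 - 2805*z^2*w^9 + 2640*z^3*w^8 + 12210*z^4*w^7 - 4686*z^5*w^6 - 13530*z^6*w^5 + 8910*z^7*w^4 + 5445*z^8*w^3 - 1870*z^9*w^2 - 209*z^10*w - 110*z^11) + ζ^37*(11*w^11 - 11*z*w^10 + 825*z^2*w^9 + 1815*z^3*w^8 - 3630*z^4*w^7 - 5214*z^5*w^6 + 4554*z^6*w^5 + 1650*z^7*w^4 - 2805*z^8*w^3 + 385*z^9*w^2 + 209*z^10*w + 11*z^11) + ζ^38*(22*z*w^10 - 55*z^2*w^9 - 660*z^3*w^8 - 660*z^4*w^7 + 1980*z^5*w^6 + 792*z^6*w^5 - 990*z^7*w^4 + 495*z^8*w^3 + 220*z^9*w^2 - 110*z^10*w - 22*z^11) + ζ^39*(w^11 - 11*z*w^10 + 330*z^4*w^7 + 66*z^5*w^6 - 396*z^6*w^5 - 110*z^9*w^2 - 11*z^10*w + 11*z^11) + ζ^40*(-w^11 - 66*z^5*w^6 + 11*z^10*w)) * hζ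

end Fermat.Agent.S52.Family
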