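import Mathlib
import Fermat.Agent.S52.Family
import Fermat.Agent.S52.FamilyCovS
import Fermat.Agent.S52.Klein.Equivariance

/-!
helper51 (P-ELL / S52, package A3 `Family`): Klein's substitutions `S` (normalised, `SzN`, `SwN`)
and `T : (z, w) ↦ (ζ z, w)` are admissible matrices in the sense of `Family.KleinAdm`.
Together with `KleinAdm.scalar` and `KleinAdm.mul` this covers every matrix `c T^m M`,
`M` a word in `S, T`, `c ^ 10 = 1`, produced by A2 part 2.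
-/

set_option autoImplicit false

namespace Fermat.Agent.S52.Family

open Fermat.Agent.S52.Param Fermat.Agent.S52.Klein

variable {K : Type*} [Field K]

theorem kf_eq_fF' (z w : K) : kf z w = fF z w := by unfold kf fF gF; ring

theorem kH_eq_HF' (z w : K) : kH z w = HF z w := by unfold kH HF hF; ring

theorem kT_eq_TF' (z w : K) : kT z w = TF z w := by unfold kT TF tF; ring

theorem cov1_eq_wf1' (z w : K) : cov1 z w = wf1 z w := by unfold cov1 wf1; ring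

theorem cov2_eq_wf2' (z w : K) : cov2 z w = wf2 z w := by unfold cov2 wf2; ring

/-- Klein's `T : (z, w) ↦ (ζ z, w)`, `ζ ^ 5 = 1`, is admissible. -/
theorem KleinAdm.T {ζ : K} (hζ : ζ ^ 5 = 1) : KleinAdm ζ 0 0 1 := by
  have h3 : (ζ ^ 3) ^ 10 = 1 := by rw [← pow_mul, show 3 * 10 = 5 * 6 by norm_num, pow_mul, hζ, one_pow]
  have h := (KleinAdm.scalar h3).mul (KleinAdm.diag hζ)
  have e1 : ζ ^ 3 * ζ ^ 3 + 0 * 0 = ζ := by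
    rw [show ζ ^ 3 * ζ ^ 3 + 0 * 0 = ζ ^ 5 * ζ by ring, hζ, one_mul]
  have e2 : ζ ^ 3 * 0 + 0 * ζ ^ 2 = 0 := by ring
  have e3 : 0 * ζ ^ 3 + ζ ^ 3 * 0 = 0 := by ring
  have e4 : 0 * 0 + ζ ^ 3 * ζ ^ 2 = 1 := by
    rw [show 0 * 0 + ζ ^ 3 * ζ ^ 2 = ζ ^ 5 by ring, hζ]
  rw [e1, e2, e3, e4] at h
  exact h

variable [CharZero K]

/-- Klein's normalised `S` is admissible. -/
theorem KleinAdm.SN {ζ : K} (hζ : IsZeta5 ζ) :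
    KleinAdm ((sqrt5 ζ)⁻¹ * -(ζ - ζ ^ 4)) ((sqrt5 ζ)⁻¹ * (ζ ^ 2 - ζ ^ 3))
      ((sqrt5 ζ)⁻¹ * (ζ ^ 2 - ζ ^ 3)) ((sqrt5 ζ)⁻¹ * (ζ - ζ ^ 4)) := by
  have e1 : ∀ z w : K, (sqrt5 ζ)⁻¹ * -(ζ - ζ ^ 4) * z + (sqrt5 ζ)⁻¹ * (ζ ^ 2 - ζ ^ 3) * w =
      SzN ζ z w := fun z w => by unfold SzN Sz; ring
  have e2 : ∀ z w : K, (sqrt5 ζ)⁻¹ * (ζ ^ 2 - ζ ^ 3) * z + (sqrt5 ζ)⁻¹ * (ζ - ζ ^ 4) * w =
      SwN ζ z w := fun z w => by unfold SwN Sw; ring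
  have h11 : ((sqrt5 ζ)⁻¹) ^ 11 * 5 ^ 5 = (sqrt5 ζ)⁻¹ := by
    rw [show ((sqrt5 ζ)⁻¹) ^ 11 = (((sqrt5 ζ)⁻¹) ^ 2) ^ 5 * (sqrt5 ζ)⁻¹ by ring, hζ.inv_sqrt5_sq]
    field_simp
  refine ⟨fun z w => ?_, fun z w => ?_, ⟨1, fun z w => ?_⟩, fun z w => ?_, fun z w => ?_⟩
  · rw [e1, e2, kH_eq_HF', kH_eq_HF', HF_SN hζ]
  · rw [e1, e2, kT_eq_TF', kT_eq_TF', TF_SN hζ]
  · rw [e1, e2, kf_eq_fF', kf_eq_fF', fF_SN hζ, one_mul]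
  · rw [e1, e2, cov1_eq_wf1', cov1_eq_wf1', cov2_eq_wf2']
    unfold SzN SwN
    rw [wf1_smul, wf1_S z w ζ hζ]
    linear_combination (-(ζ - ζ ^ 4) * wf1 z w + (ζ ^ 2 - ζ ^ 3) * wf2 z w) * h11
  · rw [e1, e2, cov2_eq_wf2', cov1_eq_wf1', cov2_eq_wf2']
    unfold SzN SwN
    rw [wf2_smul, wf2_S z w ζ hζ]
    linear_combination ((ζ ^ 2 - ζ ^ 3) * wf1 z w + (ζ - ζ ^ 4) * wf2 z w) * h11

end Fermat.Agent.S52.Family
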