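import Fermat.Agent.S52.GalLevelSpec
import Fermat.Agent.S52.Klein.GaloisParam

/-!
# S52: A2 part 2 in the shape of `GalLevelSpec` (helper60)

`galLevel`: for a Klein parameter `(z0, w0) ∈ ℚ̄²` of a curve `y² = x³ + A x + B` with
Galois-fixed coefficients `A B ≠ 0`, `GalLevelSpec.GalLevel hζ z0 w0` holds.
-/

set_option autoImplicit false

namespace Fermat.Agent.S52.GalLevel

open Fermat.Agent.S52.Klein Fermat.Agent.S52.Family Fermat.Agent.S52.GalLevelSpec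
open Fermat.Agent.S52.GaloisParam

local notation "Qbar" => AlgebraicClosure ℚ

/-- a move acts on all level structures. -/
theorem levelAct_of_isMove {ζ : Qbar} {hζ : IsZeta5 ζ} {a b c d : Qbar} {p q r s : ZMod 5}
    (M : IsMove hζ a b c d p q r s) :
    LevelAct hζ a b c d (fun u => (p * u.1 + q * u.2, r * u.1 + s * u.2)) := by
  intro A B z w h h' u
  obtain ⟨u1, u2⟩ := u
  exact M.level h h' u1 u2

/-- **A2 part 2.** -/
theorem galLevel {ζ : Qbar} (hζ : IsZeta5 ζ) {A B z0 w0 : Qbar} (h0 : IsParam A B z0 w0)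
    (hA0 : A ≠ 0) (hB0 : B ≠ 0) (hA : ∀ σ : Qbar ≃ₐ[ℚ] Qbar, σ A = A)
    (hB : ∀ σ : Qbar ≃ₐ[ℚ] Qbar, σ B = B) : GalLevel hζ z0 w0 := by
  intro σ
  obtain ⟨a, b, c, d, p, q, r, s, M, hz, hw⟩ := exists_move_of_map h0 hA0 hB0 hζ
    (σ : Qbar →+* Qbar) (hA σ) (hB σ)
  exact ⟨a, b, c, d, _, hz, hw, M.adm, levelAct_of_isMove M⟩

/-- the same, with the level action given by a matrix of determinant one. -/
theorem galLevel_det {ζ : Qbar} (hζ : IsZeta5 ζ) {A B z0 w0 : Qbar} (h0 : IsParam A B z0 w0)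
    (hA0 : A ≠ 0) (hB0 : B ≠ 0) (σ : Qbar ≃ₐ[ℚ] Qbar) (hA : σ A = A) (hB : σ B = B) :
    ∃ (a b c d : Qbar) (p q r s : ZMod 5), σ z0 = a * z0 + b * w0 ∧ σ w0 = c * z0 + d * w0 ∧
      KleinAdm a b c d ∧ p * s - q * r = 1 ∧
      LevelAct hζ a b c d (fun u => (p * u.1 + q * u.2, r * u.1 + s * u.2)) := by
  obtain ⟨a, b, c, d, p, q, r, s, M, hz, hw⟩ := exists_move_of_map h0 hA0 hB0 hζ
    (σ : Qbar →+* Qbar) hA hB
  exact ⟨a, b, c, d, p, q, r, s, hz, hw, M.adm, M.det, levelAct_of_isMove M⟩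

end Fermat.Agent.S52.GalLevel
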