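import Mathlib

/-!
helper4 (S52, step (A2) "Klein parameter", abstract algebraic core).

`K` algebraically closed, `h t : K[X]` (the dehomogenised forms `H(z,1)`, `T(z,1)` of weights
`2 m`, `3 m`; `m = 10` for the icosahedral forms) without common root, `c₄ c₆ ≠ 0` such that
`c₆ ^ 2 * h ^ 3 + c₄ ^ 3 * t ^ 2` is not constant.  Then there are `z₀` and `lam ≠ 0` with
`lam ^ (2 m) * h(z₀) = - c₄` and `lam ^ (3 m) * t(z₀) = - c₆`, i.e. for homogeneous `H`, `T` of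
degrees `2 m`, `3 m`:  `H (lam z₀, lam) = - c₄`, `T (lam z₀, lam) = - c₆`.
-/

set_option autoImplicit false
open Polynomial

namespace Fermat.Agent.S52.ParamAbstract

variable {K : Type*} [Field K] [IsAlgClosed K]

/-- Abstract Klein parameter: solve `lam ^ (2 m) * h(z₀) = a`, `lam ^ (3 m) * t(z₀) = b`
when `b ^ 2 * h ^ 3 - a ^ 3 * t ^ 2` has a root and `h`, `t` have no common root. -/
theorem exists_param_of_root {m : ℕ} (hm : 0 < m) {h t : K[X]} {a b : K} (ha : a ≠ 0) (hb : b ≠ 0)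
    (hcop : ∀ z : K, ¬ (h.eval z = 0 ∧ t.eval z = 0)) {z₀ : K}
    (hz : b ^ 2 * h.eval z₀ ^ 3 = a ^ 3 * t.eval z₀ ^ 2) :
    ∃ lam : K, lam ≠ 0 ∧ lam ^ (2 * m) * h.eval z₀ = a ∧ lam ^ (3 * m) * t.eval z₀ = b := by
  set u := h.eval z₀ with hu
  set w := t.eval z₀ with hw
  have hu0 : u ≠ 0 := by
    intro h0
    rw [h0] at hz
    have : w = 0 := by
      have h1 : a ^ 3 * w ^ 2 = 0 := by rw [← hz]; ring
      rcases mul_eq_zero.1 h1 with h2 | h2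
      · exact absurd ((pow_eq_zero_iff (three_ne_zero)).1 h2) ha
      · exact (pow_eq_zero_iff (two_ne_zero)).1 h2
    exact hcop z₀ ⟨h0, this⟩
  have hw0 : w ≠ 0 := by
    intro h0
    rw [h0] at hz
    have h1 : b ^ 2 * u ^ 3 = 0 := by rw [hz]; ring
    rcases mul_eq_zero.1 h1 with h2 | h2
    · exact hb ((pow_eq_zero_iff (two_ne_zero)).1 h2)
    · exact hu0 ((pow_eq_zero_iff (three_ne_zero)).1 h2)
  -- `μ = b u / (a w)` satisfies `μ ^ 2 = a / u`, `μ ^ 3 = b / w`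
  set μ : K := b * u / (a * w) with hμ
  have hμ0 : μ ≠ 0 := div_ne_zero (mul_ne_zero hb hu0) (mul_ne_zero ha hw0)
  have hμ2 : μ ^ 2 * u = a := by
    rw [hμ, div_pow, div_mul_eq_mul_div, div_eq_iff (pow_ne_zero 2 (mul_ne_zero ha hw0))]
    linear_combination hz
  have hμ3 : μ ^ 3 * w = b := by
    rw [hμ, div_pow, div_mul_eq_mul_div, div_eq_iff (pow_ne_zero 3 (mul_ne_zero ha hw0))]
    linear_combination (b * w) * hz
  obtain ⟨lam, hlam⟩ := IsAlgClosed.exists_pow_nat_eq μ hm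
  refine ⟨lam, ?_, ?_, ?_⟩
  · rintro rfl
    rw [zero_pow hm.ne'] at hlam
    exact hμ0 hlam.symm
  · rw [mul_comm 2 m, pow_mul, hlam, hμ2]
  · rw [mul_comm 3 m, pow_mul, hlam, hμ3]

/-- Abstract Klein parameter, existence of the root included. -/
theorem exists_param {m : ℕ} (hm : 0 < m) {h t : K[X]} {a b : K} (ha : a ≠ 0) (hb : b ≠ 0)
    (hcop : ∀ z : K, ¬ (h.eval z = 0 ∧ t.eval z = 0))
    (hdeg : (C (b ^ 2) * h ^ 3 - C (a ^ 3) * t ^ 2).degree ≠ 0) :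
    ∃ z₀ lam : K, lam ≠ 0 ∧ lam ^ (2 * m) * h.eval z₀ = a ∧ lam ^ (3 * m) * t.eval z₀ = b := by
  obtain ⟨z₀, hz₀⟩ := IsAlgClosed.exists_root _ hdeg
  have hz : b ^ 2 * h.eval z₀ ^ 3 = a ^ 3 * t.eval z₀ ^ 2 := by
    rw [IsRoot.def, eval_sub, eval_mul, eval_mul, eval_C, eval_C, eval_pow, eval_pow,
      sub_eq_zero] at hz₀
    exact hz₀
  obtain ⟨lam, h1, h2, h3⟩ := exists_param_of_root hm ha hb hcop hz
  exact ⟨z₀, lam, h1, h2, h3⟩

omit [IsAlgClosed K] in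
/-- The non-constancy hypothesis of `exists_param` from the top coefficients: if `h`, `t` have
degrees at most `2 d`, `3 d` and `b ^ 2 * lc(h) ^ 3 ≠ a ^ 3 * lc(t) ^ 2`. -/
theorem degree_ne_zero_of_coeff {h t : K[X]} {a b : K} {d : ℕ} (hd : 0 < d)
    (hh : h.natDegree ≤ 2 * d) (ht : t.natDegree ≤ 3 * d)
    (hlead : b ^ 2 * h.coeff (2 * d) ^ 3 - a ^ 3 * t.coeff (3 * d) ^ 2 ≠ 0) :
    (C (b ^ 2) * h ^ 3 - C (a ^ 3) * t ^ 2).degree ≠ 0 := by
  have hc : (C (b ^ 2) * h ^ 3 - C (a ^ 3) * t ^ 2).coeff (6 * d) =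
      b ^ 2 * h.coeff (2 * d) ^ 3 - a ^ 3 * t.coeff (3 * d) ^ 2 := by
    rw [coeff_sub, coeff_C_mul, coeff_C_mul, show 6 * d = 3 * (2 * d) by ring,
      coeff_pow_of_natDegree_le hh, show 3 * (2 * d) = 2 * (3 * d) by ring,
      coeff_pow_of_natDegree_le ht]
  intro h0
  have hnat : (C (b ^ 2) * h ^ 3 - C (a ^ 3) * t ^ 2).natDegree = 0 :=
    natDegree_eq_zero_iff_degree_le_zero.2 h0.le
  have h6 : 0 < 6 * d := by omega
  have := coeff_eq_zero_of_natDegree_lt (hnat ▸ h6)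
  rw [hc] at this
  exact hlead this

end Fermat.Agent.S52.ParamAbstract
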