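import Fermat.Agent.S52.SemistableGlobal
import Fermat.Agent.S52.SemistableLocal
import Fermat.Agent.Lib.FrobeniusExists

/-!
# P-ELL / S52 (C1): semistable integral models in the Klein family

`Qbar = AlgebraicClosure ℚ`, `W` a semistable integral Weierstrass curve with `Δ ≠ 0`,
`v₀ = (z₀, w₀) ∈ Qbar²` a Klein parameter (`HF v₀ = -c₄`, `TF v₀ = -c₆`), `v₁ = (wf1 v₀, wf2 v₀)` the
gradient covariant.  If the invariants `HF (s v₀ + t v₁)`, `TF (s v₀ + t v₁)` are rational for all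
integers `s, t` (Galois invariance, package A3), then there is a modulus `N ≠ 0` such that for all
coprime `s ≡ 1`, `t ≡ 0 (mod N)` the member `(s, t)` has a semistable integral model `W'` with
`Δ' ≠ 0`.  Combines `SemistableGlobal.exists_semistable` (helper97) with the local lemma
`SemistableLocal.not_dvd_c4_of_dvd_Δ` (helper10).
-/

set_option autoImplicit false

namespace Fermat.Agent.S52.SemistableFamily

open Fermat.Agent.S52.Klein WeierstrassCurve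

local notation "Qbar" => AlgebraicClosure ℚ

/-- **C1.** -/
theorem exists_semistable_family (W : WeierstrassCurve ℤ) (hΔ : W.Δ ≠ 0)
    (hW : W.IsSemistableModel) (z0 w0 : Qbar)
    (hH : HF z0 w0 = -((W.c₄ : ℤ) : Qbar)) (hT : TF z0 w0 = -((W.c₆ : ℤ) : Qbar))
    (hrat : ∀ s t : ℤ, ∃ q4 q6 : ℚ,
      HF ((s : Qbar) * z0 + t * wf1 z0 w0) ((s : Qbar) * w0 + t * wf2 z0 w0) = -(q4 : Qbar) ∧
      TF ((s : Qbar) * z0 + t * wf1 z0 w0) ((s : Qbar) * w0 + t * wf2 z0 w0) = -(q6 : Qbar)) :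
    ∃ N : ℤ, N ≠ 0 ∧ (1728 * 30 * W.Δ) ∣ N ∧ ∀ s t : ℤ, IsCoprime s t → N ∣ s - 1 → N ∣ t →
      ∃ W' : WeierstrassCurve ℤ, W'.Δ ≠ 0 ∧ W'.IsSemistableModel ∧
        HF ((s : Qbar) * z0 + t * wf1 z0 w0) ((s : Qbar) * w0 + t * wf2 z0 w0) =
          -((W'.c₄ : ℤ) : Qbar) ∧
        TF ((s : Qbar) * z0 + t * wf1 z0 w0) ((s : Qbar) * w0 + t * wf2 z0 w0) =
          -((W'.c₆ : ℤ) : Qbar) ∧
        (1728 * 30 * W.Δ) ∣ W'.c₄ - W.c₄ ∧ (1728 * 30 * W.Δ) ∣ W'.c₆ - W.c₆ ∧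
        W'.a₁ = W.a₁ ∧ W'.a₂ = W.a₂ ∧ W'.a₃ = W.a₃ := by
  refine SemistableGlobal.exists_semistable W hΔ hW z0 w0 (wf1 z0 w0) (wf2 z0 w0) hH hT hrat ?_
  intro s t hst c4' c6' Δ' h4 h6 hrel' p hp hp30 hpΔ'
  obtain ⟨A, hA⟩ := Fermat.Agent.Lib.exists_valuationSubring_liesOverPrime (L := Qbar) p hp
  have hpne : ∀ m : ℕ, (m : ℤ) ∣ 30 → p ≠ m := by
    rintro m hm rfl
    exact hp30 (Dvd.dvd.mul_right hm _)
  have hpΔ : ¬ (p : ℤ) ∣ W.Δ := fun h => hp30 (Dvd.dvd.mul_left h _)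
  have hst' : ¬ ((p : ℤ) ∣ s ∧ (p : ℤ) ∣ t) := by
    rintro ⟨h1, h2⟩
    obtain ⟨u, v, huv⟩ := hst
    have : (p : ℤ) ∣ 1 := by
      rw [← huv]
      exact dvd_add (Dvd.dvd.mul_left h1 _) (Dvd.dvd.mul_left h2 _)
    exact (Nat.prime_iff_prime_int.mp hp).not_dvd_one this
  have hrel : W.c₄ ^ 3 - W.c₆ ^ 2 = 1728 * W.Δ := W.c_relation.symm
  exact (SemistableLocal.not_dvd_c4_of_dvd_Δ A hp (hpne 2 (by norm_num)) (hpne 3 (by norm_num))
    (hpne 5 (by norm_num)) hA hH hT hrel hpΔ hst' h4 h6 hrel').2 hpΔ'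

end Fermat.Agent.S52.SemistableFamily
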