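import Fermat.Agent.S52.Klein.Forms
import Fermat.Agent.S52.Model

/-!
# P-ELL / S52 (C1, global part): integrality and congruences in the Klein family

`Qbar = AlgebraicClosure ℚ`.  For `v₀ = (z₀, w₀)`, `v₁ = (z₁, w₁)` in `Qbar²` with
`HF v₀ = -c₄`, `TF v₀ = -c₆` (`c₄, c₆ ∈ ℤ`) such that `HF (s v₀ + t v₁)`, `TF (s v₀ + t v₁)` are
rational for all integers `s, t`, there is a modulus `N ≠ 0` (divisible by any prescribed `M`) such
that for `s ≡ 1`, `t ≡ 0 (mod N)` these values are *integers* congruent to `c₄, c₆` modulo `M`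
(`exists_modulus`).  With `M = 1728 · 30 · Δ` this yields an integral model `W'` of the member
`(s, t)` of the family which is semistable at all primes dividing `30 Δ` and has `Δ' ≠ 0`; the
primes not dividing `30 Δ` are handled by a local hypothesis `hloc` (`exists_semistable`).
-/

set_option autoImplicit false

namespace Fermat.Agent.S52.SemistableGlobal

open Fermat.Agent.S52.Klein

local notation "Qbar" => AlgebraicClosure ℚ

/-! ### Difference quotients of the forms -/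

section Diff

variable {R : Type*} [CommRing R]

/-- `((x + n a) ^ 5 - x ^ 5) / n`. -/
def r5 (x a n : R) : R :=
  5 * x ^ 4 * a + 10 * x ^ 3 * a ^ 2 * n + 10 * x ^ 2 * a ^ 3 * n ^ 2 + 5 * x * a ^ 4 * n ^ 3
    + a ^ 5 * n ^ 4

/-- `(hF (A + n a) (B + n b) - hF A B) / n`. -/
def R4 (A B a b n : R) : R :=
    - 4*A^3*a + 228*A^3*b + 684*A^2*B*a - 988*A^2*B*b - 6*A^2*a^2*n + 684*A^2*a*b*n - 494*A^2*b^2*n
    - 988*A*B^2*a - 684*A*B^2*b + 684*A*B*a^2*n - 1976*A*B*a*b*n - 684*A*B*b^2*n - 4*A*a^3*n^2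
    + 684*A*a^2*b*n^2 - 988*A*a*b^2*n^2 - 228*A*b^3*n^2 - 228*B^3*a - 4*B^3*b - 494*B^2*a^2*n - 684*B^2*a*b*n
    - 6*B^2*b^2*n + 228*B*a^3*n^2 - 988*B*a^2*b*n^2 - 684*B*a*b^2*n^2 - 4*B*b^3*n^2 - a^4*n^3 + 228*a^3*b*n^3
    - 494*a^2*b^2*n^3 - 228*a*b^3*n^3 - b^4*n^3

/-- `(tF (A + n a) (B + n b) - tF A B) / n`. -/
def R6 (A B a b n : R) : R :=
    6*A^5*a + 522*A^5*b + 2610*A^4*B*a - 20010*A^4*B*b + 15*A^4*a^2*n + 2610*A^4*a*b*n - 10005*A^4*b^2*n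
    - 40020*A^3*B^2*a + 5220*A^3*B*a^2*n - 80040*A^3*B*a*b*n + 20*A^3*a^3*n^2 + 5220*A^3*a^2*b*n^2
    - 40020*A^3*a*b^2*n^2 - 40020*A^2*B^3*b - 60030*A^2*B^2*a^2*n - 60030*A^2*B^2*b^2*n + 5220*A^2*B*a^3*n^2
    - 120060*A^2*B*a^2*b*n^2 - 40020*A^2*B*b^3*n^2 + 15*A^2*a^4*n^3 + 5220*A^2*a^3*b*n^3 - 60030*A^2*a^2*b^2*n^3
    - 10005*A^2*b^4*n^3 - 20010*A*B^4*a - 2610*A*B^4*b - 80040*A*B^3*a*b*n - 5220*A*B^3*b^2*n - 40020*A*B^2*a^3*n^2
    - 120060*A*B^2*a*b^2*n^2 - 5220*A*B^2*b^3*n^2 + 2610*A*B*a^4*n^3 - 80040*A*B*a^3*b*n^3 - 80040*A*B*a*b^3*n^3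
    - 2610*A*B*b^4*n^3 + 6*A*a^5*n^4 + 2610*A*a^4*b*n^4 - 40020*A*a^3*b^2*n^4 - 20010*A*a*b^4*n^4
    - 522*A*b^5*n^4 - 522*B^5*a + 6*B^5*b - 10005*B^4*a^2*n - 2610*B^4*a*b*n + 15*B^4*b^2*n - 40020*B^3*a^2*b*n^2
    - 5220*B^3*a*b^2*n^2 + 20*B^3*b^3*n^2 - 10005*B^2*a^4*n^3 - 60030*B^2*a^2*b^2*n^3 - 5220*B^2*a*b^3*n^3
    + 15*B^2*b^4*n^3 + 522*B*a^5*n^4 - 20010*B*a^4*b*n^4 - 40020*B*a^2*b^3*n^4 - 2610*B*a*b^4*n^4
    + 6*B*b^5*n^4 + a^6*n^5 + 522*a^5*b*n^5 - 10005*a^4*b^2*n^5 - 10005*a^2*b^4*n^5 - 522*a*b^5*n^5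
    + b^6*n^5

/-- `(HF (z + n a) (w + n b) - HF z w) / n`. -/
def RH (z w a b n : R) : R := R4 (z ^ 5) (w ^ 5) (r5 z a n) (r5 w b n) n

/-- `(TF (z + n a) (w + n b) - TF z w) / n`. -/
def RT (z w a b n : R) : R := R6 (z ^ 5) (w ^ 5) (r5 z a n) (r5 w b n) n

theorem RH_mem {K : Type*} [CommRing K] (S : Subring K) {z w a b n : K} (hz : z ∈ S) (hw : w ∈ S)
    (ha : a ∈ S) (hb : b ∈ S) (hn : n ∈ S) : RH z w a b n ∈ S := by
  lift z to S using hz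
  lift w to S using hw
  lift a to S using ha
  lift b to S using hb
  lift n to S using hn
  have h : RH (z : K) (w : K) (a : K) (b : K) (n : K) = ((RH z w a b n : S) : K) := by
    simp only [RH, R4, r5]
    push_cast
    rfl
  rw [h]
  exact (RH z w a b n).2

theorem RT_mem {K : Type*} [CommRing K] (S : Subring K) {z w a b n : K} (hz : z ∈ S) (hw : w ∈ S)
    (ha : a ∈ S) (hb : b ∈ S) (hn : n ∈ S) : RT z w a b n ∈ S := by
  lift z to S using hz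
  lift w to S using hw
  lift a to S using ha
  lift b to S using hb
  lift n to S using hn
  have h : RT (z : K) (w : K) (a : K) (b : K) (n : K) = ((RT z w a b n : S) : K) := by
    simp only [RT, R6, r5]
    push_cast
    rfl
  rw [h]
  exact (RT z w a b n).2

end Diff

section Field

variable {K : Type*} [Field K]

theorem pow5_add (x a n : K) : (x + n * a) ^ 5 = x ^ 5 + n * r5 x a n := by
  simp only [r5]
  ring

theorem hF_add (A B a b n : K) : hF (A + n * a) (B + n * b) = hF A B + n * R4 A B a b n := by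
  simp only [hF, R4]
  ring

theorem tF_add (A B a b n : K) : tF (A + n * a) (B + n * b) = tF A B + n * R6 A B a b n := by
  simp only [tF, R6]
  ring

theorem HF_add (z w a b n : K) : HF (z + n * a) (w + n * b) = HF z w + n * RH z w a b n := by
  simp only [HF, RH]
  rw [pow5_add, pow5_add, hF_add]

theorem TF_add (z w a b n : K) : TF (z + n * a) (w + n * b) = TF z w + n * RT z w a b n := by
  simp only [TF, RT]
  rw [pow5_add, pow5_add, tF_add]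

theorem HF_smul (c z w : K) : HF (c * z) (c * w) = c ^ 20 * HF z w := by
  simp only [HF, hF]
  ring

theorem TF_smul (c z w : K) : TF (c * z) (c * w) = c ^ 30 * TF z w := by
  simp only [TF, tF]
  ring

end Field

/-! ### Arithmetic in `Qbar` -/

/-- A rational number that is `n` times an algebraic integer is `n` times an integer. -/
theorem exists_int_of_eq_mul_integral {q : ℚ} {n : ℤ} (hn : n ≠ 0) {r : Qbar}
    (hr : IsIntegral ℤ r) (h : (q : Qbar) = (n : Qbar) * r) : ∃ m : ℤ, q = n * m := by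
  have hn' : (n : Qbar) ≠ 0 := by exact_mod_cast hn
  have hr' : r = ((q / n : ℚ) : Qbar) := by
    push_cast
    rw [h]
    field_simp
  rw [hr'] at hr
  have h1 : IsIntegral ℤ (q / n : ℚ) :=
    (isIntegral_algebraMap_iff (algebraMap ℚ Qbar).injective).mp hr
  obtain ⟨m, hm⟩ := IsIntegrallyClosed.isIntegral_iff.mp h1
  refine ⟨m, ?_⟩
  have hn'' : (n : ℚ) ≠ 0 := by exact_mod_cast hn
  have : (m : ℚ) = q / n := hm
  rw [this]
  field_simp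

/-- The algebraic integers of `Qbar`, as a subring. -/
noncomputable def OQbar : Subring Qbar := (integralClosure ℤ Qbar).toSubring

theorem mem_OQbar {x : Qbar} : x ∈ OQbar ↔ IsIntegral ℤ x := Iff.rfl

theorem intCast_mem_OQbar (n : ℤ) : (n : Qbar) ∈ OQbar := _root_.intCast_mem OQbar n

theorem isAlgebraic_int (x : Qbar) : IsAlgebraic ℤ x := by
  let _ : Algebra ℚ Qbar := AlgebraicClosure.instAlgebra ℚ
  exact (IsFractionRing.isAlgebraic_iff ℤ ℚ Qbar).mpr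
    ((AlgebraicClosure.isAlgebraic ℚ).isAlgebraic x)

/-- **Integrality and congruences.** -/
theorem exists_modulus (c4 c6 : ℤ) (M : ℤ) (hM : M ≠ 0) (z0 w0 z1 w1 : Qbar)
    (hH : HF z0 w0 = -(c4 : Qbar)) (hT : TF z0 w0 = -(c6 : Qbar))
    (hrat : ∀ s t : ℤ, ∃ q4 q6 : ℚ,
      HF ((s : Qbar) * z0 + t * z1) ((s : Qbar) * w0 + t * w1) = -(q4 : Qbar) ∧
      TF ((s : Qbar) * z0 + t * z1) ((s : Qbar) * w0 + t * w1) = -(q6 : Qbar)) :
    ∃ N : ℤ, N ≠ 0 ∧ M ∣ N ∧ ∀ s t : ℤ, N ∣ s - 1 → N ∣ t →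
      ∃ c4' c6' : ℤ,
        HF ((s : Qbar) * z0 + t * z1) ((s : Qbar) * w0 + t * w1) = -(c4' : Qbar) ∧
        TF ((s : Qbar) * z0 + t * z1) ((s : Qbar) * w0 + t * w1) = -(c6' : Qbar) ∧
        M ∣ c4' - c4 ∧ M ∣ c6' - c6 := by
  classical
  have : Algebra.IsAlgebraic ℤ Qbar := ⟨isAlgebraic_int⟩
  obtain ⟨D, hD0, hD⟩ := Algebra.IsAlgebraic.exists_integral_multiples ℤ
    ({z0, w0, z1, w1} : Finset Qbar)
  have hDz0 : (D : Qbar) * z0 ∈ OQbar := by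
    have := hD z0 (by simp)
    rwa [zsmul_eq_mul] at this
  have hDw0 : (D : Qbar) * w0 ∈ OQbar := by
    have := hD w0 (by simp)
    rwa [zsmul_eq_mul] at this
  have hDz1 : (D : Qbar) * z1 ∈ OQbar := by
    have := hD z1 (by simp)
    rwa [zsmul_eq_mul] at this
  have hDw1 : (D : Qbar) * w1 ∈ OQbar := by
    have := hD w1 (by simp)
    rwa [zsmul_eq_mul] at this
  have hDq : (D : Qbar) ≠ 0 := by exact_mod_cast hD0
  refine ⟨D ^ 30 * M, mul_ne_zero (pow_ne_zero _ hD0) hM, Dvd.intro_left _ rfl, ?_⟩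
  rintro s t ⟨s', hs'⟩ ⟨t', ht'⟩
  obtain ⟨q4, q6, hq4, hq6⟩ := hrat s t
  set N : ℤ := D ^ 30 * M with hN
  -- the integral vectors
  set x : Qbar := (D : Qbar) * z0 with hx
  set y : Qbar := (D : Qbar) * w0 with hy
  set a : Qbar := (s' : Qbar) * ((D : Qbar) * z0) + (t' : Qbar) * ((D : Qbar) * z1) with ha
  set b : Qbar := (s' : Qbar) * ((D : Qbar) * w0) + (t' : Qbar) * ((D : Qbar) * w1) with hb
  have hxO : x ∈ OQbar := hDz0
  have hyO : y ∈ OQbar := hDw0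
  have haO : a ∈ OQbar :=
    OQbar.add_mem (OQbar.mul_mem (intCast_mem_OQbar s') hDz0)
      (OQbar.mul_mem (intCast_mem_OQbar t') hDz1)
  have hbO : b ∈ OQbar :=
    OQbar.add_mem (OQbar.mul_mem (intCast_mem_OQbar s') hDw0)
      (OQbar.mul_mem (intCast_mem_OQbar t') hDw1)
  have hNO : (N : Qbar) ∈ OQbar := intCast_mem_OQbar N
  have hs : (s : Qbar) = 1 + (N : Qbar) * s' := by
    have : s = 1 + N * s' := by linarith
    rw [this]
    push_cast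
    ring
  have ht : (t : Qbar) = (N : Qbar) * t' := by
    rw [ht']
    push_cast
    ring
  have hZ : (D : Qbar) * ((s : Qbar) * z0 + t * z1) = x + (N : Qbar) * a := by
    rw [hs, ht, hx, ha]
    ring
  have hW : (D : Qbar) * ((s : Qbar) * w0 + t * w1) = y + (N : Qbar) * b := by
    rw [hs, ht, hy, hb]
    ring
  have hNq : (N : Qbar) = (D : Qbar) ^ 30 * (M : Qbar) := by
    rw [hN]
    push_cast
    ring
  -- the `H`-equation
  have eH : (D : Qbar) ^ 20 * -(q4 : Qbar) =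
      (D : Qbar) ^ 20 * -(c4 : Qbar) + (N : Qbar) * RH x y a b (N : Qbar) := by
    rw [← hq4, ← HF_smul, hZ, hW, HF_add, hx, hy, HF_smul, hH]
  have eT : (D : Qbar) ^ 30 * -(q6 : Qbar) =
      (D : Qbar) ^ 30 * -(c6 : Qbar) + (N : Qbar) * RT x y a b (N : Qbar) := by
    rw [← hq6, ← TF_smul, hZ, hW, TF_add, hx, hy, TF_smul, hT]
  have hRH : RH x y a b (N : Qbar) ∈ OQbar := RH_mem OQbar hxO hyO haO hbO hNO
  have hRT : RT x y a b (N : Qbar) ∈ OQbar := RT_mem OQbar hxO hyO haO hbO hNO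
  generalize RH x y a b (N : Qbar) = ρ4 at eH hRH
  generalize RT x y a b (N : Qbar) = ρ6 at eT hRT
  -- `c4 - q4 = M * (D ^ 10 * ρ4)`
  have e4 : (((c4 : ℚ) - q4 : ℚ) : Qbar) = (M : Qbar) * ((D : Qbar) ^ 10 * ρ4) := by
    have h20 : (D : Qbar) ^ 20 ≠ 0 := pow_ne_zero _ hDq
    apply mul_left_cancel₀ h20
    push_cast
    linear_combination eH + ρ4 * hNq
  have e6 : (((c6 : ℚ) - q6 : ℚ) : Qbar) = (M : Qbar) * ρ6 := by
    have h30 : (D : Qbar) ^ 30 ≠ 0 := pow_ne_zero _ hDq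
    apply mul_left_cancel₀ h30
    push_cast
    linear_combination eT + ρ6 * hNq
  have hr4 : IsIntegral ℤ ((D : Qbar) ^ 10 * ρ4) :=
    mem_OQbar.mp (OQbar.mul_mem (OQbar.pow_mem (intCast_mem_OQbar D) 10) hRH)
  have hr6 : IsIntegral ℤ ρ6 := mem_OQbar.mp hRT
  obtain ⟨m4, hm4⟩ := exists_int_of_eq_mul_integral hM hr4 e4
  obtain ⟨m6, hm6⟩ := exists_int_of_eq_mul_integral hM hr6 e6
  refine ⟨c4 - M * m4, c6 - M * m6, ?_, ?_, ⟨-m4, by ring⟩, ⟨-m6, by ring⟩⟩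
  · rw [hq4]
    have : (q4 : ℚ) = ((c4 - M * m4 : ℤ) : ℚ) := by
      push_cast
      linarith
    rw [this, Rat.cast_intCast]
  · rw [hq6]
    have : (q6 : ℚ) = ((c6 - M * m6 : ℤ) : ℚ) := by
      push_cast
      linarith
    rw [this, Rat.cast_intCast]


/-! ### The semistable integral model -/

open WeierstrassCurve

/-- **C1 (global wrapper).**  Given the local statement `hloc` at the primes not dividing `30 Δ`,
there is a modulus `N ≠ 0`, divisible by `1728 · 30 · Δ`, such that every member `(s, t)` of the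
family with `gcd (s, t) = 1`, `s ≡ 1`, `t ≡ 0 (mod N)` has a semistable integral model `W'` with
`Δ' ≠ 0` and `c₄(W') = -H(v)`, `c₆(W') = -T(v)`, `c₄(W') ≡ c₄(W)`, `c₆(W') ≡ c₆(W)` modulo
`1728 · 30 · Δ`. -/
theorem exists_semistable (W : WeierstrassCurve ℤ) (hΔ : W.Δ ≠ 0) (hW : W.IsSemistableModel)
    (z0 w0 z1 w1 : Qbar)
    (hH : HF z0 w0 = -((W.c₄ : ℤ) : Qbar)) (hT : TF z0 w0 = -((W.c₆ : ℤ) : Qbar))
    (hrat : ∀ s t : ℤ, ∃ q4 q6 : ℚ,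
      HF ((s : Qbar) * z0 + t * z1) ((s : Qbar) * w0 + t * w1) = -(q4 : Qbar) ∧
      TF ((s : Qbar) * z0 + t * z1) ((s : Qbar) * w0 + t * w1) = -(q6 : Qbar))
    (hloc : ∀ s t : ℤ, IsCoprime s t → ∀ c4' c6' Δ' : ℤ,
      HF ((s : Qbar) * z0 + t * z1) ((s : Qbar) * w0 + t * w1) = -(c4' : Qbar) →
      TF ((s : Qbar) * z0 + t * z1) ((s : Qbar) * w0 + t * w1) = -(c6' : Qbar) →
      c4' ^ 3 - c6' ^ 2 = 1728 * Δ' →
      ∀ p : ℕ, p.Prime → ¬ (p : ℤ) ∣ 30 * W.Δ → (p : ℤ) ∣ Δ' → ¬ (p : ℤ) ∣ c4') :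
    ∃ N : ℤ, N ≠ 0 ∧ (1728 * 30 * W.Δ) ∣ N ∧ ∀ s t : ℤ, IsCoprime s t → N ∣ s - 1 → N ∣ t →
      ∃ W' : WeierstrassCurve ℤ, W'.Δ ≠ 0 ∧ W'.IsSemistableModel ∧
        HF ((s : Qbar) * z0 + t * z1) ((s : Qbar) * w0 + t * w1) = -((W'.c₄ : ℤ) : Qbar) ∧
        TF ((s : Qbar) * z0 + t * z1) ((s : Qbar) * w0 + t * w1) = -((W'.c₆ : ℤ) : Qbar) ∧
        (1728 * 30 * W.Δ) ∣ W'.c₄ - W.c₄ ∧ (1728 * 30 * W.Δ) ∣ W'.c₆ - W.c₆ ∧
        W'.a₁ = W.a₁ ∧ W'.a₂ = W.a₂ ∧ W'.a₃ = W.a₃ := by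
  set M : ℤ := 1728 * 30 * W.Δ with hMdef
  have hM : M ≠ 0 := by
    rw [hMdef]
    exact mul_ne_zero (by norm_num) hΔ
  obtain ⟨N, hN0, hMN, hN⟩ := exists_modulus W.c₄ W.c₆ M hM z0 w0 z1 w1 hH hT hrat
  refine ⟨N, hN0, hMN, ?_⟩
  intro s t hst hs ht
  obtain ⟨c4', c6', h4, h6, hc4, hc6⟩ := hN s t hs ht
  -- the integral model
  have h1728 : (1728 : ℤ) ∣ M := ⟨30 * W.Δ, by rw [hMdef]; ring⟩
  obtain ⟨W', hW'4, hW'6, ha1, ha2, ha3⟩ := Model.existsModel W c4' c6'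
    ((Int.modEq_iff_dvd.mpr (by
      have := dvd_trans h1728 hc4
      rwa [← neg_sub, dvd_neg] at this)))
    ((Int.modEq_iff_dvd.mpr (by
      have := dvd_trans h1728 hc6
      rwa [← neg_sub, dvd_neg] at this)))
  -- discriminants
  have hrel : 1728 * W.Δ = W.c₄ ^ 3 - W.c₆ ^ 2 := W.c_relation
  have hrel' : 1728 * W'.Δ = c4' ^ 3 - c6' ^ 2 := by rw [← hW'4, ← hW'6]; exact W'.c_relation
  obtain ⟨k4, hk4⟩ := hc4
  obtain ⟨k6, hk6⟩ := hc6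
  -- `Δ' = Δ * (1 + 30 * k)`
  obtain ⟨k, hk⟩ : ∃ k : ℤ, W'.Δ = W.Δ * (1 + 30 * k) := by
    have e4 : c4' = W.c₄ + M * k4 := by linarith
    have e6 : c6' = W.c₆ + M * k6 := by linarith
    refine ⟨k4 * (3 * W.c₄ ^ 2 + 3 * W.c₄ * (M * k4) + (M * k4) ^ 2)
      - k6 * (2 * W.c₆ + M * k6), ?_⟩
    have h1728' : (1728 : ℤ) ≠ 0 := by norm_num
    apply mul_left_cancel₀ h1728'
    rw [hrel', e4, e6, hMdef]
    linear_combination (-1 : ℤ) * hrel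
  have h30k : (1 + 30 * k : ℤ) ≠ 0 := by omega
  have hΔ' : W'.Δ ≠ 0 := by
    rw [hk]
    exact mul_ne_zero hΔ h30k
  refine ⟨W', hΔ', ?_, by rw [hW'4]; exact h4, by rw [hW'6]; exact h6,
    ⟨k4, by rw [hW'4]; exact hk4⟩, ⟨k6, by rw [hW'6]; exact hk6⟩, ha1, ha2, ha3⟩
  -- semistability
  intro p hp hpΔ'
  by_cases hp30 : (p : ℤ) ∣ 30 * W.Δ
  · -- `p ∣ 30 Δ`
    have hpM : (p : ℤ) ∣ M := by
      rw [hMdef]
      exact dvd_trans hp30 ⟨1728, by ring⟩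
    have hpp : Prime (p : ℤ) := Nat.prime_iff_prime_int.mp hp
    have hpΔ : (p : ℤ) ∣ W.Δ := by
      by_contra hnot
      rw [hk] at hpΔ'
      have h1 : (p : ℤ) ∣ 1 + 30 * k := (hpp.dvd_or_dvd hpΔ').resolve_left hnot
      have h30 : (p : ℤ) ∣ 30 := (hpp.dvd_or_dvd hp30).resolve_right hnot
      have h2 : (p : ℤ) ∣ 30 * k := dvd_mul_of_dvd_left h30 k
      have h3 : (p : ℤ) ∣ 1 := by
        have := dvd_sub h1 h2
        simpa using this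
      exact hpp.not_dvd_one h3
    have h4' := hW p hp hpΔ
    rw [hW'4]
    intro hc
    apply h4'
    have : (p : ℤ) ∣ c4' - W.c₄ := dvd_trans hpM ⟨k4, hk4⟩
    have := dvd_sub hc this
    simpa using this
  · rw [hW'4]
    exact hloc s t hst c4' c6' W'.Δ h4 h6 (by rw [← hrel']) p hp hp30 hpΔ'

end Fermat.Agent.S52.SemistableGlobal
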